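/-
BAD / two-valuation layer (T4): the two Gauss valuation rings `O_∞`, `O_0` of the bad-level
function field `F_{Mℓ}` (`ℓ = 0` in the residue field `k`, `M` prime to `ℓ`), their residue maps
onto the mod-`ℓ` function field of level `M`, and the compatibilities with the two degeneracy maps
`α` (inclusion) and `β` (`q ↦ q^ℓ`).

* generic: `gaussVS hG : ValuationSubring ↥F`, `gaussRed hπ hG : gaussVS hG →+* ↥κ` for every
  intermediate field `F` of `L((q))` satisfying helper90's invariant `GoodV A π F κ`;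
* `BadSetup A π M ℓ` (standing hypotheses), `OInf`, `redInf`;
* `IsAL W` (`W` an Atkin–Lehner involution: `W ∘ α = β`, `W ∘ β = α`), `OZero W := W⁻¹(O_∞)`,
  `redZero W := redInf ∘ W`;
* `α`/`β`-compatibilities, the separating idempotent `exists_sep`, joint surjectivity
  `joint_surjective`, incomparability `not_OInf_le_OZero`, `not_OZero_le_OInf`.
-/
import Mathlib
import Fermat.Agent.Lib.Red.Ow
import Fermat.Agent.ESJ.Cong.AtkinLehner
import Fermat.Agent.BAD.TwoVal.BadLevel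

set_option autoImplicit false

namespace Fermat.Agent.BAD.TwoVal

open HahnSeries ModularCurve Polynomial AlgebraicCurve Fermat.Agent.Lib.Red Fermat.Agent.S28
open Fermat.Agent.ESJ.Cong.LevelGen

noncomputable section

/-! ### Generic: the valuation ring and residue map attached to `GoodV` -/

section Generic

variable {L : Type*} [Field L] {A : ValuationSubring L} {k : Type*} [Field k] {π : A →+* k}
  {F : IntermediateField L (LaurentSeries L)} {κ : IntermediateField k (LaurentSeries k)}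

/-- The valuation ring `F ∩ gaussRing` of `F`. -/
def gaussVS (hG : GoodV A π F κ) : ValuationSubring ↥F where
  carrier := {f | (f : LaurentSeries L) ∈ gaussRing A π}
  mul_mem' := fun {a b} ha hb => (gaussRing A π).mul_mem ha hb
  one_mem' := (gaussRing A π).one_mem
  add_mem' := fun {a b} ha hb => (gaussRing A π).add_mem ha hb
  zero_mem' := (gaussRing A π).zero_mem
  neg_mem' := fun {a} ha => (gaussRing A π).neg_mem ha
  mem_or_inv_mem' := fun f => by
    rcases hG.mem_or_inv_mem f.2 with h | h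
    · exact Or.inl h
    · exact Or.inr h

theorem mem_gaussVS_iff (hG : GoodV A π F κ) (f : F) :
    f ∈ gaussVS hG ↔ (f : LaurentSeries L) ∈ gaussRing A π := Iff.rfl

/-- The inclusion of `gaussVS` into the Gauss ring. -/
def gaussVSToGauss (hG : GoodV A π F κ) : gaussVS hG →+* gaussRing A π :=
  ((F.val.toRingHom).comp (gaussVS hG).subtype).codRestrict (gaussRing A π) (fun f => f.2)

/-- The residue map of `gaussVS`, with values in `κ`. -/
def gaussRed (hπ : ∀ a : A, ¬ IsUnit a → π a = 0) (hG : GoodV A π F κ) : gaussVS hG →+* ↥κ :=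
  ((red A π).comp (gaussVSToGauss hG)).codRestrict κ
    (fun f => hG.red_mem hπ (gaussVSToGauss hG f) (f : F).2)

theorem coe_gaussRed (hπ : ∀ a : A, ¬ IsUnit a → π a = 0) (hG : GoodV A π F κ)
    (f : gaussVS hG) :
    ((gaussRed hπ hG f : κ) : LaurentSeries k) = red A π ⟨((f : F) : LaurentSeries L), f.2⟩ := rfl

theorem coe_gaussRed_mk (hπ : ∀ a : A, ¬ IsUnit a → π a = 0) (hG : GoodV A π F κ)
    (f : F) (hf : f ∈ gaussVS hG) :
    ((gaussRed hπ hG ⟨f, hf⟩ : κ) : LaurentSeries k) = red A π ⟨(f : LaurentSeries L), hf⟩ := rfl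

/-- The kernel of the residue map is the maximal ideal. -/
theorem gaussRed_eq_zero_iff (hπ : ∀ a : A, ¬ IsUnit a → π a = 0) (hG : GoodV A π F κ)
    (f : gaussVS hG) : gaussRed hπ hG f = 0 ↔ ¬ IsUnit f := by
  constructor
  · intro h hu
    have := hu.map (gaussRed hπ hG)
    rw [h] at this
    exact not_isUnit_zero this
  · intro hnu
    by_contra hne
    apply hnu
    have hne' : red A π ⟨((f : F) : LaurentSeries L), f.2⟩ ≠ 0 :=
      fun h0 => hne (Subtype.ext h0)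
    have hinv := inv_mem_gaussRing A π f.2 hne'
    have hf0 : (f : F) ≠ 0 := by
      intro h0
      apply hne
      have : f = 0 := Subtype.ext h0
      rw [this, map_zero]
    refine IsUnit.of_mul_eq_one (⟨(f : F)⁻¹, hinv⟩ : gaussVS hG) ?_
    apply Subtype.ext
    exact mul_inv_cancel₀ hf0

/-- An element of `gaussVS` with nonzero residue has its inverse in `gaussVS`. -/
theorem inv_mem_gaussVS (hπ : ∀ a : A, ¬ IsUnit a → π a = 0) (hG : GoodV A π F κ)
    (f : F) (hf : f ∈ gaussVS hG) (hne : gaussRed hπ hG ⟨f, hf⟩ ≠ 0) : f⁻¹ ∈ gaussVS hG := by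
  have hne' : red A π ⟨(f : LaurentSeries L), hf⟩ ≠ 0 := fun h0 => hne (Subtype.ext h0)
  exact inv_mem_gaussRing A π hf hne'

/-- If `f` and `f⁻¹` both lie in `gaussVS`, the residue of `f` is nonzero. -/
theorem gaussRed_ne_zero_of_inv_mem (hπ : ∀ a : A, ¬ IsUnit a → π a = 0) (hG : GoodV A π F κ)
    (f : F) (hf0 : f ≠ 0) (hf : f ∈ gaussVS hG) (hinv : f⁻¹ ∈ gaussVS hG) :
    gaussRed hπ hG ⟨f, hf⟩ ≠ 0 := by
  intro h0
  have h1 : (⟨f, hf⟩ : gaussVS hG) * ⟨f⁻¹, hinv⟩ = 1 := Subtype.ext (mul_inv_cancel₀ hf0)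
  have h2 := congrArg (gaussRed hπ hG) h1
  rw [map_mul, h0, zero_mul, map_one] at h2
  exact zero_ne_one h2

/-- A constant lies in `gaussVS` iff it lies in `A`. -/
theorem algebraMap_mem_gaussVS_iff (hπ : ∀ a : A, ¬ IsUnit a → π a = 0) (hG : GoodV A π F κ)
    (a : L) : algebraMap L ↥F a ∈ gaussVS hG ↔ a ∈ A := by
  constructor
  · intro h
    by_contra ha
    have h' : (HahnSeries.C a : LaurentSeries L) ∈ gaussRing A π := by
      rw [Fermat.Agent.Lib.Red.C_eq_algebraMap]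
      exact h
    have ha0 : a ≠ 0 := fun h0 => ha (h0 ▸ A.zero_mem)
    have hinv : a⁻¹ ∈ A := (A.mem_or_inv_mem a).resolve_left ha
    have hpi := pi_inv_eq_zero A π hπ ha
    have h1 : red A π ⟨_, h'⟩ * red A π ⟨_, C_mem_gaussRing A π hinv⟩ = 1 := by
      rw [← map_mul]
      have : (⟨_, h'⟩ : gaussRing A π) * ⟨_, C_mem_gaussRing A π hinv⟩ = 1 := by
        apply Subtype.ext
        show (HahnSeries.C a : LaurentSeries L) * HahnSeries.C a⁻¹ = 1
        rw [← map_mul, mul_inv_cancel₀ ha0, map_one]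
      rw [this, map_one]
    rw [red_C A π hinv, hpi, map_zero, mul_zero] at h1
    exact zero_ne_one h1
  · intro ha
    show (algebraMap L (LaurentSeries L) a) ∈ gaussRing A π
    rw [← Fermat.Agent.Lib.Red.C_eq_algebraMap]
    exact C_mem_gaussRing A π ha

theorem gaussRed_algebraMap (hπ : ∀ a : A, ¬ IsUnit a → π a = 0) (hG : GoodV A π F κ) (a : A) :
    gaussRed hπ hG ⟨algebraMap L _ (a : L),
      (algebraMap_mem_gaussVS_iff hπ hG (a : L)).mpr a.2⟩ = algebraMap k ↥κ (π a) := by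
  apply Subtype.ext
  rw [coe_gaussRed_mk]
  have e : (⟨((algebraMap L ↥F (a : L) : F) : LaurentSeries L),
      (algebraMap_mem_gaussVS_iff hπ hG (a : L)).mpr a.2⟩ : gaussRing A π) =
      ⟨HahnSeries.C (a : L), C_mem_gaussRing A π a.2⟩ :=
    Subtype.ext (Fermat.Agent.Lib.Red.C_eq_algebraMap (a : L)).symm
  rw [e, red_C A π a.2, Fermat.Agent.Lib.Red.C_eq_algebraMap]
  rfl

/-- The residue of an `A`-integral series of `F` is its coefficientwise reduction. -/
theorem coe_gaussRed_incl (hπ : ∀ a : A, ¬ IsUnit a → π a = 0) (hG : GoodV A π F κ)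
    (y : LaurentSeries A) (hy : incl A y ∈ F) :
    ((gaussRed hπ hG ⟨⟨incl A y, hy⟩, incl_mem_gaussRing A π y⟩ : κ) : LaurentSeries k) =
      rbar A π y := by
  exact red_incl A π y

/-- Every nonzero element of `F` is a nonzero constant times a unit of `gaussVS`. -/
theorem exists_scaling_gaussVS (hπ : ∀ a : A, ¬ IsUnit a → π a = 0) (hG : GoodV A π F κ)
    (f : F) (hf : f ≠ 0) :
    ∃ a : L, a ≠ 0 ∧ ∃ h : algebraMap L ↥F a * f ∈ gaussVS hG, gaussRed hπ hG ⟨_, h⟩ ≠ 0 := by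
  have hf' : (f : LaurentSeries L) ≠ 0 := fun h => hf (Subtype.ext h)
  obtain ⟨a, ha, hmem, hne, -⟩ := hG.exists_scaling f.2 hf'
  have hmem' : algebraMap L ↥F a * f ∈ gaussVS hG := by
    show algebraMap L (LaurentSeries L) a * (f : LaurentSeries L) ∈ gaussRing A π
    rw [← Fermat.Agent.Lib.Red.C_eq_algebraMap]
    exact hmem
  refine ⟨a, ha, hmem', ?_⟩
  intro h0
  apply hne
  have h1 := congrArg Subtype.val h0
  rw [coe_gaussRed_mk] at h1
  have h2 : (⟨HahnSeries.C a * (f : LaurentSeries L), hmem⟩ : gaussRing A π) =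
      ⟨((algebraMap L ↥F a * f : F) : LaurentSeries L), hmem'⟩ := by
    apply Subtype.ext
    show HahnSeries.C a * (f : LaurentSeries L) =
      algebraMap L (LaurentSeries L) a * (f : LaurentSeries L)
    rw [Fermat.Agent.Lib.Red.C_eq_algebraMap]
  rw [h2]
  exact h1

/-- `q ↦ q^n` preserves the Gauss ring. -/
theorem qExpand_mem_gaussRing (n : ℕ) [NeZero n] {y : LaurentSeries L}
    (hy : y ∈ gaussRing A π) : qExpand L n y ∈ gaussRing A π := by
  obtain ⟨s, P, hs, h⟩ := hy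
  refine ⟨qExpand A n s, qExpand A n P, ?_, ?_⟩
  · have h1 : rbar A π (qExpand A n s) = qExpand k n (rbar A π s) := coeffMap_qExpand π n s
    rw [h1]
    intro h0
    exact hs (qExpand_injective n (by rw [h0, map_zero]))
  · have h1 : incl A (qExpand A n s) = qExpand L n (incl A s) := coeffMap_qExpand A.subtype n s
    have h2 : incl A (qExpand A n P) = qExpand L n (incl A P) := coeffMap_qExpand A.subtype n P
    rw [h1, h2, ← map_mul, h]

/-- The residue of `f(q^n)` is `f̄(q^n)`. -/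
theorem red_qExpand (n : ℕ) [NeZero n] {y : LaurentSeries L} (hy : y ∈ gaussRing A π)
    (h' : qExpand L n y ∈ gaussRing A π) :
    red A π ⟨qExpand L n y, h'⟩ = qExpand k n (red A π ⟨y, hy⟩) := by
  obtain ⟨s, P, hs, h⟩ := (mem_gaussRing_iff A π y).mp hy
  have h1 : rbar A π (qExpand A n s) = qExpand k n (rbar A π s) := coeffMap_qExpand π n s
  have h1' : rbar A π (qExpand A n P) = qExpand k n (rbar A π P) := coeffMap_qExpand π n P
  have h2 : incl A (qExpand A n s) = qExpand L n (incl A s) := coeffMap_qExpand A.subtype n s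
  have h3 : incl A (qExpand A n P) = qExpand L n (incl A P) := coeffMap_qExpand A.subtype n P
  have hs' : rbar A π (qExpand A n s) ≠ 0 := by
    rw [h1]
    intro h0
    exact hs (qExpand_injective n (by rw [h0, map_zero]))
  have h4 : incl A (qExpand A n s) * qExpand L n y = incl A (qExpand A n P) := by
    rw [h2, h3, ← map_mul, h]
  have e1 : red A π ⟨qExpand L n y, h'⟩ =
      rbar A π (qExpand A n P) / rbar A π (qExpand A n s) :=
    red_eq A π ⟨qExpand L n y, h'⟩ (s := qExpand A n s) (P := qExpand A n P) hs' h4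
  have e2 : red A π ⟨y, hy⟩ = rbar A π P / rbar A π s :=
    red_eq A π ⟨y, hy⟩ (s := s) (P := P) hs h
  rw [e1, e2, h1, h1', map_div₀]

end Generic

/-! ### The bad level: `O_∞` -/

section Bad

variable {L : Type*} [Field L] [Algebra ℚ L] (A : ValuationSubring L) {k : Type} [Field k]
  (π : A →+* k) (M ℓ : ℕ) [NeZero M] [NeZero ℓ]

/-- Standing hypotheses of the bad-level layer: `π` kills the non-units of `A`, `A` has rank one,
`ℓ` is a prime which vanishes in `k`, and the level `M` is invertible in `k`. -/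
structure BadSetup : Prop where
  hπ : ∀ a : A, ¬ IsUnit a → π a = 0
  hrank : ∀ d e : A, ¬ IsUnit d → e ≠ 0 → ∃ r : ℕ, e ∣ d ^ r
  hℓ : ℓ.Prime
  hℓk : (ℓ : k) = 0
  hMk : (M : k) ≠ 0

variable {A π M ℓ}

omit [NeZero M] [NeZero ℓ] [Algebra ℚ L] in
theorem BadSetup.not_dvd (h : BadSetup A π M ℓ) : ¬ ℓ ∣ M := by
  rintro ⟨t, rfl⟩
  apply h.hMk
  rw [Nat.cast_mul, h.hℓk, zero_mul]

omit [NeZero M] [NeZero ℓ] [Algebra ℚ L] in
theorem BadSetup.charP (h : BadSetup A π M ℓ) : CharP k ℓ :=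
  (CharP.charP_iff_prime_eq_zero h.hℓ).mpr h.hℓk

/-- The invariant `GoodV` for the Prelude field of level `M ℓ`, with residue field of level `M`. -/
theorem BadSetup.goodV (h : BadSetup A π M ℓ) :
    GoodV A π (laurentBaseChange L (modularFunctionFieldFull (M * ℓ)))
      (modularFunctionFieldFullC k M) := by
  have : Fact ℓ.Prime := ⟨h.hℓ⟩
  rw [laurentBaseChange_eq_FF, fullC_eq_FF]
  exact goodV_bad A π h.hπ h.hrank ℓ h.hℓk M h.hMk

/-- The Gauss valuation ring `O_∞` of `F_{Mℓ}`: the functions whose `q`-expansion lies in the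
Gauss ring. -/
def OInf (h : BadSetup A π M ℓ) :
    ValuationSubring ↥(laurentBaseChange L (modularFunctionFieldFull (M * ℓ))) :=
  gaussVS h.goodV

/-- The residue map of `O_∞`, onto the mod-`ℓ` function field of level `M`. -/
def redInf (h : BadSetup A π M ℓ) : OInf h →+* ↥(modularFunctionFieldFullC k M) :=
  gaussRed h.hπ h.goodV

theorem mem_OInf_iff (h : BadSetup A π M ℓ)
    (f : laurentBaseChange L (modularFunctionFieldFull (M * ℓ))) :
    f ∈ OInf h ↔ (f : LaurentSeries L) ∈ gaussRing A π := Iff.rfl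

theorem coe_redInf (h : BadSetup A π M ℓ)
    (f : laurentBaseChange L (modularFunctionFieldFull (M * ℓ))) (hf : f ∈ OInf h) :
    ((redInf h ⟨f, hf⟩ : modularFunctionFieldFullC k M) : LaurentSeries k) =
      red A π ⟨(f : LaurentSeries L), hf⟩ := rfl

theorem redInf_congr (h : BadSetup A π M ℓ)
    {f g : laurentBaseChange L (modularFunctionFieldFull (M * ℓ))} (e : f = g)
    (hf : f ∈ OInf h) (hg : g ∈ OInf h) : redInf h ⟨f, hf⟩ = redInf h ⟨g, hg⟩ := by
  subst e
  rfl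

/-- The kernel of `red_∞` is the maximal ideal. -/
theorem redInf_eq_zero_iff (h : BadSetup A π M ℓ) (f : OInf h) :
    redInf h f = 0 ↔ ¬ IsUnit f :=
  gaussRed_eq_zero_iff h.hπ h.goodV f

theorem inv_mem_OInf (h : BadSetup A π M ℓ)
    (f : laurentBaseChange L (modularFunctionFieldFull (M * ℓ))) (hf : f ∈ OInf h)
    (hne : redInf h ⟨f, hf⟩ ≠ 0) : f⁻¹ ∈ OInf h :=
  inv_mem_gaussVS h.hπ h.goodV f hf hne

theorem redInf_ne_zero_of_inv_mem (h : BadSetup A π M ℓ)
    (f : laurentBaseChange L (modularFunctionFieldFull (M * ℓ))) (hf0 : f ≠ 0) (hf : f ∈ OInf h)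
    (hinv : f⁻¹ ∈ OInf h) : redInf h ⟨f, hf⟩ ≠ 0 :=
  gaussRed_ne_zero_of_inv_mem h.hπ h.goodV f hf0 hf hinv

/-- `O_∞ ∩ L = A`. -/
theorem algebraMap_mem_OInf_iff (h : BadSetup A π M ℓ) (a : L) :
    algebraMap L ↥(laurentBaseChange L (modularFunctionFieldFull (M * ℓ))) a ∈ OInf h ↔ a ∈ A :=
  algebraMap_mem_gaussVS_iff h.hπ h.goodV a

theorem redInf_algebraMap (h : BadSetup A π M ℓ) (a : A)
    (ha : algebraMap L ↥(laurentBaseChange L (modularFunctionFieldFull (M * ℓ))) (a : L) ∈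
      OInf h) :
    redInf h ⟨_, ha⟩ = algebraMap k ↥(modularFunctionFieldFullC k M) (π a) :=
  gaussRed_algebraMap h.hπ h.goodV a

/-- Every nonzero function is a nonzero constant times a unit of `O_∞`. -/
theorem exists_scaling_OInf (h : BadSetup A π M ℓ)
    (f : laurentBaseChange L (modularFunctionFieldFull (M * ℓ))) (hf : f ≠ 0) :
    ∃ a : L, a ≠ 0 ∧ ∃ hm : algebraMap L _ a * f ∈ OInf h, redInf h ⟨_, hm⟩ ≠ 0 :=
  exists_scaling_gaussVS h.hπ h.goodV f hf

/-! ### `O_∞` and the degeneracy maps -/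

/-- `α⁻¹(O_∞)` is the Gauss valuation ring of level `M`. -/
theorem heckeAlphaBar_mem_OInf_iff (h : BadSetup A π M ℓ)
    (x : laurentBaseChange L (modularFunctionFieldFull M)) :
    heckeAlphaBar L M ℓ x ∈ OInf h ↔ x ∈ Ow A π M h.hMk := by
  show ((heckeAlphaBar L M ℓ x : laurentBaseChange L (modularFunctionFieldFull (M * ℓ))) :
    LaurentSeries L) ∈ gaussRing A π ↔ (x : LaurentSeries L) ∈ gaussRing A π
  rw [coe_heckeAlphaBar]

/-- `red_∞ ∘ α = red`. -/
theorem redInf_heckeAlphaBar (h : BadSetup A π M ℓ)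
    (x : laurentBaseChange L (modularFunctionFieldFull M)) (hx : x ∈ Ow A π M h.hMk)
    (hx' : heckeAlphaBar L M ℓ x ∈ OInf h) :
    redInf h ⟨heckeAlphaBar L M ℓ x, hx'⟩ = redF A π M h.hπ h.hMk ⟨x, hx⟩ := by
  apply Subtype.ext
  rw [coe_redInf, coe_redF]
  have e : (⟨((heckeAlphaBar L M ℓ x : laurentBaseChange L (modularFunctionFieldFull (M * ℓ))) :
      LaurentSeries L), hx'⟩ : gaussRing A π) = OwToGauss A π M h.hMk ⟨x, hx⟩ :=
    Subtype.ext (coe_heckeAlphaBar M ℓ x)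
  rw [e]

theorem heckeBetaBar_mem_OInf (h : BadSetup A π M ℓ)
    (x : laurentBaseChange L (modularFunctionFieldFull M)) (hx : x ∈ Ow A π M h.hMk) :
    heckeBetaBar L M ℓ x ∈ OInf h :=
  qExpand_mem_gaussRing ℓ hx

/-- `red_∞ ∘ β = (q ↦ q^ℓ) ∘ red` (the Frobenius twist). -/
theorem coe_redInf_heckeBetaBar (h : BadSetup A π M ℓ)
    (x : laurentBaseChange L (modularFunctionFieldFull M)) (hx : x ∈ Ow A π M h.hMk)
    (hx' : heckeBetaBar L M ℓ x ∈ OInf h) :
    ((redInf h ⟨heckeBetaBar L M ℓ x, hx'⟩ : modularFunctionFieldFullC k M) : LaurentSeries k) =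
      qExpand k ℓ ((redF A π M h.hπ h.hMk ⟨x, hx⟩ : modularFunctionFieldFullC k M) :
        LaurentSeries k) :=
  red_qExpand ℓ hx hx'

/-- `β⁻¹(O_∞)` is the Gauss valuation ring of level `M`. -/
theorem heckeBetaBar_mem_OInf_iff (h : BadSetup A π M ℓ)
    (x : laurentBaseChange L (modularFunctionFieldFull M)) :
    heckeBetaBar L M ℓ x ∈ OInf h ↔ x ∈ Ow A π M h.hMk := by
  refine ⟨fun hx' => ?_, heckeBetaBar_mem_OInf h x⟩
  by_contra hx
  have hx0 : x ≠ 0 := fun h0 => hx (h0 ▸ zero_mem _)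
  have hinv : x⁻¹ ∈ Ow A π M h.hMk := ((Ow A π M h.hMk).mem_or_inv_mem x).resolve_left hx
  have hred : red A π ⟨((x⁻¹ : laurentBaseChange L (modularFunctionFieldFull M)) :
      LaurentSeries L), hinv⟩ = 0 := by
    by_contra hne
    have h1 := inv_mem_gaussRing A π hinv hne
    apply hx
    show (x : LaurentSeries L) ∈ gaussRing A π
    have h2 : (((x⁻¹ : laurentBaseChange L (modularFunctionFieldFull M)) :
        LaurentSeries L))⁻¹ = (x : LaurentSeries L) := by
      show ((x : LaurentSeries L)⁻¹)⁻¹ = (x : LaurentSeries L)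
      rw [inv_inv]
    rw [← h2]
    exact h1
  have hβinv : heckeBetaBar L M ℓ x⁻¹ ∈ OInf h := heckeBetaBar_mem_OInf h x⁻¹ hinv
  have hβ0 : heckeBetaBar L M ℓ x ≠ 0 := by
    intro h0
    exact hx0 ((heckeBetaBar L M ℓ).toRingHom.injective (by rw [AlgHom.toRingHom_eq_coe,
      RingHom.coe_coe, h0, map_zero]))
  have hβinv' : (heckeBetaBar L M ℓ x)⁻¹ ∈ OInf h := by
    rw [← map_inv₀]
    exact hβinv
  have hne := redInf_ne_zero_of_inv_mem h _ (inv_ne_zero hβ0) hβinv' (by rw [inv_inv]; exact hx')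
  apply hne
  apply Subtype.ext
  have e1 := redInf_congr h (map_inv₀ (heckeBetaBar L M ℓ) x).symm hβinv' hβinv
  rw [e1, coe_redInf_heckeBetaBar h x⁻¹ hinv hβinv]
  have e2 : ((redF A π M h.hπ h.hMk ⟨x⁻¹, hinv⟩ : modularFunctionFieldFullC k M) :
      LaurentSeries k) = 0 := hred
  rw [e2, map_zero]
  rfl

/-! ### Atkin–Lehner involutions and `O_0` -/

variable (M ℓ) in
/-- `W` is an Atkin–Lehner involution of `F_{Mℓ}`: it exchanges the two degeneracy maps.  (Such a
`W` is unique; it exists as soon as `L` contains a primitive `ℓ`-th root of unity: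
`exists_isAL`.) -/
structure IsAL (W : laurentBaseChange L (modularFunctionFieldFull (M * ℓ)) ≃ₐ[L]
    laurentBaseChange L (modularFunctionFieldFull (M * ℓ))) : Prop where
  alpha : ∀ x, W (heckeAlphaBar L M ℓ x) = heckeBetaBar L M ℓ x
  beta : ∀ x, W (heckeBetaBar L M ℓ x) = heckeAlphaBar L M ℓ x

variable {W : laurentBaseChange L (modularFunctionFieldFull (M * ℓ)) ≃ₐ[L]
    laurentBaseChange L (modularFunctionFieldFull (M * ℓ))}

/-- An Atkin–Lehner involution is an involution. -/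
theorem IsAL.invol (hW : IsAL M ℓ W) (hℓ : ℓ.Prime) (hℓM : ¬ ℓ ∣ M)
    (z : laurentBaseChange L (modularFunctionFieldFull (M * ℓ))) : W (W z) = z := by
  have hle : Subfield.closure (Set.range (heckeAlphaBar L M ℓ) ∪
      {heckeBetaBar L M ℓ (jLevel L M)}) ≤
      (W.toRingEquiv.toRingHom.comp W.toRingEquiv.toRingHom).eqLocusField (RingHom.id _) := by
    rw [Subfield.closure_le]
    rintro y (⟨x, rfl⟩ | hy)
    · show W (W (heckeAlphaBar L M ℓ x)) = heckeAlphaBar L M ℓ x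
      rw [hW.alpha, hW.beta]
    · rw [Set.mem_singleton_iff] at hy
      rw [hy]
      show W (W (heckeBetaBar L M ℓ (jLevel L M))) = heckeBetaBar L M ℓ (jLevel L M)
      rw [hW.beta, hW.alpha]
  rw [closure_range_heckeAlphaBar_union L M ℓ hℓ hℓM] at hle
  exact hle (Subfield.mem_top z)

/-- Uniqueness of the Atkin–Lehner involution. -/
theorem IsAL.unique {W' : laurentBaseChange L (modularFunctionFieldFull (M * ℓ)) ≃ₐ[L]
    laurentBaseChange L (modularFunctionFieldFull (M * ℓ))}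
    (hW : IsAL M ℓ W) (hW' : IsAL M ℓ W') (hℓ : ℓ.Prime) (hℓM : ¬ ℓ ∣ M)
    (z : laurentBaseChange L (modularFunctionFieldFull (M * ℓ))) : W z = W' z := by
  have hle : Subfield.closure (Set.range (heckeAlphaBar L M ℓ) ∪
      {heckeBetaBar L M ℓ (jLevel L M)}) ≤
      (W.toRingEquiv.toRingHom).eqLocusField W'.toRingEquiv.toRingHom := by
    rw [Subfield.closure_le]
    rintro y (⟨x, rfl⟩ | hy)
    · show W (heckeAlphaBar L M ℓ x) = W' (heckeAlphaBar L M ℓ x)
      rw [hW.alpha, hW'.alpha]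
    · rw [Set.mem_singleton_iff] at hy
      rw [hy]
      show W (heckeBetaBar L M ℓ (jLevel L M)) = W' (heckeBetaBar L M ℓ (jLevel L M))
      rw [hW.beta, hW'.beta]
  rw [closure_range_heckeAlphaBar_union L M ℓ hℓ hℓM] at hle
  exact hle (Subfield.mem_top z)

/-- The second Gauss valuation ring `O_0 := W⁻¹(O_∞)` of `F_{Mℓ}`. -/
def OZero (h : BadSetup A π M ℓ) (W : laurentBaseChange L (modularFunctionFieldFull (M * ℓ)) ≃ₐ[L]
    laurentBaseChange L (modularFunctionFieldFull (M * ℓ))) :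
    ValuationSubring ↥(laurentBaseChange L (modularFunctionFieldFull (M * ℓ))) :=
  (OInf h).comap W.toRingEquiv.toRingHom

theorem mem_OZero_iff (h : BadSetup A π M ℓ)
    (f : laurentBaseChange L (modularFunctionFieldFull (M * ℓ))) :
    f ∈ OZero h W ↔ W f ∈ OInf h := Iff.rfl

/-- The residue map of `O_0`: `red_0 := red_∞ ∘ W`. -/
def redZero (h : BadSetup A π M ℓ) (W : laurentBaseChange L (modularFunctionFieldFull (M * ℓ)) ≃ₐ[L]
    laurentBaseChange L (modularFunctionFieldFull (M * ℓ))) :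
    OZero h W →+* ↥(modularFunctionFieldFullC k M) :=
  (redInf h).comp ((W.toRingEquiv.toRingHom.comp (OZero h W).subtype).codRestrict (OInf h)
    (fun f => f.2))

theorem redZero_mk (h : BadSetup A π M ℓ)
    (f : laurentBaseChange L (modularFunctionFieldFull (M * ℓ))) (hf : f ∈ OZero h W) :
    redZero h W ⟨f, hf⟩ = redInf h ⟨W f, hf⟩ := rfl

theorem inv_mem_OZero (h : BadSetup A π M ℓ)
    (f : laurentBaseChange L (modularFunctionFieldFull (M * ℓ))) (hf : f ∈ OZero h W)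
    (hne : redZero h W ⟨f, hf⟩ ≠ 0) : f⁻¹ ∈ OZero h W := by
  rw [mem_OZero_iff, map_inv₀]
  exact inv_mem_OInf h (W f) hf hne

theorem redZero_ne_zero_of_inv_mem (h : BadSetup A π M ℓ)
    (f : laurentBaseChange L (modularFunctionFieldFull (M * ℓ))) (hf0 : f ≠ 0)
    (hf : f ∈ OZero h W) (hinv : f⁻¹ ∈ OZero h W) : redZero h W ⟨f, hf⟩ ≠ 0 := by
  rw [redZero_mk]
  refine redInf_ne_zero_of_inv_mem h (W f) ?_ hf ?_
  · intro h0
    exact hf0 (W.injective (by rw [h0, map_zero]))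
  · rw [← map_inv₀]
    exact hinv

/-- The kernel of `red_0` is the maximal ideal. -/
theorem redZero_eq_zero_iff (h : BadSetup A π M ℓ) (f : OZero h W) :
    redZero h W f = 0 ↔ ¬ IsUnit f := by
  constructor
  · intro h0 hu
    have := hu.map (redZero h W)
    rw [h0] at this
    exact not_isUnit_zero this
  · intro hnu
    by_contra hne
    apply hnu
    have hinv := inv_mem_OZero h (f : laurentBaseChange L (modularFunctionFieldFull (M * ℓ)))
      f.2 hne
    have hf0 : (f : laurentBaseChange L (modularFunctionFieldFull (M * ℓ))) ≠ 0 := by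
      intro h0
      apply hne
      have : f = 0 := Subtype.ext h0
      rw [this, map_zero]
    refine IsUnit.of_mul_eq_one (⟨(f : laurentBaseChange L
      (modularFunctionFieldFull (M * ℓ)))⁻¹, hinv⟩ : OZero h W) ?_
    apply Subtype.ext
    exact mul_inv_cancel₀ hf0

/-- `O_0 ∩ L = A`. -/
theorem algebraMap_mem_OZero_iff (h : BadSetup A π M ℓ) (a : L) :
    algebraMap L ↥(laurentBaseChange L (modularFunctionFieldFull (M * ℓ))) a ∈ OZero h W ↔
      a ∈ A := by
  rw [mem_OZero_iff, W.commutes]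
  exact algebraMap_mem_OInf_iff h a

theorem redZero_algebraMap (h : BadSetup A π M ℓ) (a : A)
    (ha : algebraMap L ↥(laurentBaseChange L (modularFunctionFieldFull (M * ℓ))) (a : L) ∈
      OZero h W) :
    redZero h W ⟨_, ha⟩ = algebraMap k ↥(modularFunctionFieldFullC k M) (π a) := by
  rw [redZero_mk, redInf_congr h (W.commutes (a : L)) ha
    ((algebraMap_mem_OInf_iff h (a : L)).mpr a.2)]
  exact redInf_algebraMap h a _

/-- Every nonzero function is a nonzero constant times a unit of `O_0`. -/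
theorem exists_scaling_OZero (h : BadSetup A π M ℓ)
    (f : laurentBaseChange L (modularFunctionFieldFull (M * ℓ))) (hf : f ≠ 0) :
    ∃ a : L, a ≠ 0 ∧ ∃ hm : algebraMap L _ a * f ∈ OZero h W, redZero h W ⟨_, hm⟩ ≠ 0 := by
  have hWf : W f ≠ 0 := fun h0 => hf (W.injective (by rw [h0, map_zero]))
  obtain ⟨a, ha, hm, hne⟩ := exists_scaling_OInf h (W f) hWf
  have e : W (algebraMap L _ a * f) = algebraMap L _ a * W f := by
    rw [map_mul, W.commutes]
  have hm' : algebraMap L _ a * f ∈ OZero h W := by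
    rw [mem_OZero_iff, e]
    exact hm
  refine ⟨a, ha, hm', ?_⟩
  rw [redZero_mk, redInf_congr h e hm' hm]
  exact hne

/-- `α⁻¹(O_0)` is the Gauss valuation ring of level `M`. -/
theorem heckeAlphaBar_mem_OZero_iff (h : BadSetup A π M ℓ) (hW : IsAL M ℓ W)
    (x : laurentBaseChange L (modularFunctionFieldFull M)) :
    heckeAlphaBar L M ℓ x ∈ OZero h W ↔ x ∈ Ow A π M h.hMk := by
  rw [mem_OZero_iff, hW.alpha]
  exact heckeBetaBar_mem_OInf_iff h x

/-- `β⁻¹(O_0)` is the Gauss valuation ring of level `M`. -/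
theorem heckeBetaBar_mem_OZero_iff (h : BadSetup A π M ℓ) (hW : IsAL M ℓ W)
    (x : laurentBaseChange L (modularFunctionFieldFull M)) :
    heckeBetaBar L M ℓ x ∈ OZero h W ↔ x ∈ Ow A π M h.hMk := by
  rw [mem_OZero_iff, hW.beta]
  exact heckeAlphaBar_mem_OInf_iff h x

/-- `red_0 ∘ β = red`. -/
theorem redZero_heckeBetaBar (h : BadSetup A π M ℓ) (hW : IsAL M ℓ W)
    (x : laurentBaseChange L (modularFunctionFieldFull M)) (hx : x ∈ Ow A π M h.hMk)
    (hx' : heckeBetaBar L M ℓ x ∈ OZero h W) :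
    redZero h W ⟨heckeBetaBar L M ℓ x, hx'⟩ = redF A π M h.hπ h.hMk ⟨x, hx⟩ := by
  have hα : heckeAlphaBar L M ℓ x ∈ OInf h := (heckeAlphaBar_mem_OInf_iff h x).mpr hx
  rw [redZero_mk, redInf_congr h (hW.beta x) hx' hα]
  exact redInf_heckeAlphaBar h x hx hα

/-- `red_0 ∘ α = (q ↦ q^ℓ) ∘ red` (the Frobenius twist). -/
theorem coe_redZero_heckeAlphaBar (h : BadSetup A π M ℓ) (hW : IsAL M ℓ W)
    (x : laurentBaseChange L (modularFunctionFieldFull M)) (hx : x ∈ Ow A π M h.hMk)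
    (hx' : heckeAlphaBar L M ℓ x ∈ OZero h W) :
    ((redZero h W ⟨heckeAlphaBar L M ℓ x, hx'⟩ : modularFunctionFieldFullC k M) :
      LaurentSeries k) =
      qExpand k ℓ ((redF A π M h.hπ h.hMk ⟨x, hx⟩ : modularFunctionFieldFullC k M) :
        LaurentSeries k) := by
  have hβ : heckeBetaBar L M ℓ x ∈ OInf h := heckeBetaBar_mem_OInf h x hx
  rw [redZero_mk, redInf_congr h (hW.alpha x) hx' hβ]
  exact coe_redInf_heckeBetaBar h x hx hβ

/-! ### Separation of `O_∞` and `O_0` -/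

omit [Algebra ℚ L] [NeZero M] [NeZero ℓ] in
/-- `J(q^ℓ) - J^ℓ` lies in the Gauss ring with zero reduction. -/
theorem sep_zero (h : BadSetup A π M ℓ) :
    ∃ hT : TD.Jd L ℓ - TD.Jd L 1 ^ ℓ ∈ gaussRing A π, red A π ⟨_, hT⟩ = 0 := by
  have : Fact ℓ.Prime := ⟨h.hℓ⟩
  have : CharP k ℓ := h.charP
  have e : TD.Jd L ℓ - TD.Jd L 1 ^ ℓ = incl A (TD.Jd A ℓ - TD.Jd A 1 ^ ℓ) := by
    rw [map_sub, map_pow, incl_Jd, incl_Jd]
  have hT : TD.Jd L ℓ - TD.Jd L 1 ^ ℓ ∈ gaussRing A π := by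
    rw [e]
    exact incl_mem_gaussRing A π _
  refine ⟨hT, ?_⟩
  have e2 : (⟨TD.Jd L ℓ - TD.Jd L 1 ^ ℓ, hT⟩ : gaussRing A π) =
      ⟨incl A (TD.Jd A ℓ - TD.Jd A 1 ^ ℓ), incl_mem_gaussRing A π _⟩ := Subtype.ext e
  rw [e2, red_incl, map_sub, map_pow, rbar_Jd, rbar_Jd,
    Fermat.Agent.ESJ.Kronecker.Jd_pow_char k ℓ, sub_self]

omit [Algebra ℚ L] [NeZero M] [NeZero ℓ] in
/-- `J - J(q^ℓ)^ℓ` lies in the Gauss ring with nonzero reduction. -/
theorem sep_ne_zero (h : BadSetup A π M ℓ) :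
    ∃ hT : TD.Jd L 1 - TD.Jd L ℓ ^ ℓ ∈ gaussRing A π, red A π ⟨_, hT⟩ ≠ 0 := by
  have : Fact ℓ.Prime := ⟨h.hℓ⟩
  have : CharP k ℓ := h.charP
  have e : TD.Jd L 1 - TD.Jd L ℓ ^ ℓ = incl A (TD.Jd A 1 - TD.Jd A ℓ ^ ℓ) := by
    rw [map_sub, map_pow, incl_Jd, incl_Jd]
  have hT : TD.Jd L 1 - TD.Jd L ℓ ^ ℓ ∈ gaussRing A π := by
    rw [e]
    exact incl_mem_gaussRing A π _
  refine ⟨hT, ?_⟩
  have e2 : (⟨TD.Jd L 1 - TD.Jd L ℓ ^ ℓ, hT⟩ : gaussRing A π) =
      ⟨incl A (TD.Jd A 1 - TD.Jd A ℓ ^ ℓ), incl_mem_gaussRing A π _⟩ := Subtype.ext e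
  rw [e2, red_incl, map_sub, map_pow, rbar_Jd, rbar_Jd,
    Fermat.Agent.ESJ.Kronecker.Jd_pow_char k ℓ, ← pow_mul]
  obtain ⟨E, hE⟩ := exists_inv_Jpow_sub k (n := ℓ * ℓ) (by nlinarith [h.hℓ.two_le])
  intro h0
  have h1 : TD.Jd k 1 ^ (ℓ * ℓ) - TD.Jd k 1 = 0 := by
    linear_combination -h0
  rw [h1, mul_zero] at hE
  exact zero_ne_one hE

/-- **The separating idempotent**: a function in `O_∞ ∩ O_0` with residues `(0, 1)`. -/
theorem exists_sep (h : BadSetup A π M ℓ) (hW : IsAL M ℓ W) :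
    ∃ e : laurentBaseChange L (modularFunctionFieldFull (M * ℓ)),
      ∃ (h1 : e ∈ OInf h) (h2 : e ∈ OZero h W),
        redInf h ⟨e, h1⟩ = 0 ∧ redZero h W ⟨e, h2⟩ = 1 := by
  set t : laurentBaseChange L (modularFunctionFieldFull (M * ℓ)) :=
    heckeBetaBar L M ℓ (jLevel L M) - heckeAlphaBar L M ℓ (jLevel L M) ^ ℓ with ht
  set t' : laurentBaseChange L (modularFunctionFieldFull (M * ℓ)) :=
    heckeAlphaBar L M ℓ (jLevel L M) - heckeBetaBar L M ℓ (jLevel L M) ^ ℓ with ht'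
  have hWt : W t = t' := by
    rw [ht, ht', map_sub, map_pow, hW.beta, hW.alpha]
  have hWt' : W t' = t := by
    rw [ht, ht', map_sub, map_pow, hW.beta, hW.alpha]
  have hct : (t : LaurentSeries L) = TD.Jd L ℓ - TD.Jd L 1 ^ ℓ := by
    rw [ht]
    show ((heckeBetaBar L M ℓ (jLevel L M) : laurentBaseChange L
      (modularFunctionFieldFull (M * ℓ))) : LaurentSeries L) -
      ((heckeAlphaBar L M ℓ (jLevel L M) : laurentBaseChange L
      (modularFunctionFieldFull (M * ℓ))) : LaurentSeries L) ^ ℓ = _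
    rw [coe_heckeBetaBar_jLevel, coe_heckeAlphaBar, coe_jLevel]
  have hct' : (t' : LaurentSeries L) = TD.Jd L 1 - TD.Jd L ℓ ^ ℓ := by
    rw [ht']
    show ((heckeAlphaBar L M ℓ (jLevel L M) : laurentBaseChange L
      (modularFunctionFieldFull (M * ℓ))) : LaurentSeries L) -
      ((heckeBetaBar L M ℓ (jLevel L M) : laurentBaseChange L
      (modularFunctionFieldFull (M * ℓ))) : LaurentSeries L) ^ ℓ = _
    rw [coe_heckeBetaBar_jLevel, coe_heckeAlphaBar, coe_jLevel]
  obtain ⟨hT, hTred⟩ := sep_zero (M := M) h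
  obtain ⟨hT', hTred'⟩ := sep_ne_zero (M := M) h
  have htO : t ∈ OInf h := by
    rw [mem_OInf_iff, hct]
    exact hT
  have ht'O : t' ∈ OInf h := by
    rw [mem_OInf_iff, hct']
    exact hT'
  have hredt : redInf h ⟨t, htO⟩ = 0 := by
    apply Subtype.ext
    rw [coe_redInf]
    have e : (⟨(t : LaurentSeries L), htO⟩ : gaussRing A π) = ⟨_, hT⟩ := Subtype.ext hct
    rw [e, hTred]
    rfl
  have hredt' : redInf h ⟨t', ht'O⟩ ≠ 0 := by
    intro h0
    apply hTred'
    have e : (⟨(t' : LaurentSeries L), ht'O⟩ : gaussRing A π) = ⟨_, hT'⟩ := Subtype.ext hct'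
    rw [← e, ← coe_redInf h t' ht'O, h0]
    rfl
  set u : laurentBaseChange L (modularFunctionFieldFull (M * ℓ)) := t + t' with hu
  have huO : u ∈ OInf h := add_mem htO ht'O
  have hredu : redInf h ⟨u, huO⟩ = redInf h ⟨t', ht'O⟩ := by
    have e : (⟨u, huO⟩ : OInf h) = ⟨t, htO⟩ + ⟨t', ht'O⟩ := rfl
    rw [e, map_add, hredt, zero_add]
  have hWu : W u = u := by
    have e0 : W (t + t') = W t + W t' := map_add W.toRingEquiv t t'
    rw [hu, e0, hWt, hWt', add_comm]
  have huinv : u⁻¹ ∈ OInf h := inv_mem_OInf h u huO (by rw [hredu]; exact hredt')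
  have hu0 : u ≠ 0 := by
    intro h0
    apply hredt'
    rw [← hredu]
    have : (⟨u, huO⟩ : OInf h) = 0 := Subtype.ext h0
    rw [this, map_zero]
  have hmul : redInf h ⟨u, huO⟩ * redInf h ⟨u⁻¹, huinv⟩ = 1 := by
    rw [← map_mul]
    have : (⟨u, huO⟩ : OInf h) * ⟨u⁻¹, huinv⟩ = 1 := Subtype.ext (mul_inv_cancel₀ hu0)
    rw [this, map_one]
  have he1 : t * u⁻¹ ∈ OInf h := mul_mem htO huinv
  have hWe : W (t * u⁻¹) = t' * u⁻¹ := by
    rw [map_mul, map_inv₀, hWt, hWu]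
  have he2' : t' * u⁻¹ ∈ OInf h := mul_mem ht'O huinv
  have he2 : t * u⁻¹ ∈ OZero h W := by
    rw [mem_OZero_iff, hWe]
    exact he2'
  refine ⟨t * u⁻¹, he1, he2, ?_, ?_⟩
  · have e : (⟨t * u⁻¹, he1⟩ : OInf h) = ⟨t, htO⟩ * ⟨u⁻¹, huinv⟩ := rfl
    rw [e, map_mul, hredt, zero_mul]
  · rw [redZero_mk, redInf_congr h hWe he2 he2']
    have e : (⟨t' * u⁻¹, he2'⟩ : OInf h) = ⟨t', ht'O⟩ * ⟨u⁻¹, huinv⟩ := rfl
    rw [e, map_mul, ← hredu]
    exact hmul

/-- `O_0` is not contained in `O_∞`. -/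
theorem not_OZero_le_OInf (h : BadSetup A π M ℓ) (hW : IsAL M ℓ W) : ¬ OZero h W ≤ OInf h := by
  obtain ⟨e, h1, h2, hr1, hr2⟩ := exists_sep h hW
  intro hle
  have hinv : e⁻¹ ∈ OZero h W := inv_mem_OZero h e h2 (by rw [hr2]; exact one_ne_zero)
  have he0 : e ≠ 0 := by
    intro h0
    have : (⟨e, h2⟩ : OZero h W) = 0 := Subtype.ext h0
    rw [this, map_zero] at hr2
    exact zero_ne_one hr2
  exact redInf_ne_zero_of_inv_mem h e he0 h1 (hle hinv) hr1

/-- `O_∞` is not contained in `O_0`. -/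
theorem not_OInf_le_OZero (h : BadSetup A π M ℓ) (hW : IsAL M ℓ W) : ¬ OInf h ≤ OZero h W := by
  obtain ⟨e, h1, h2, hr1, hr2⟩ := exists_sep h hW
  intro hle
  have h1' : 1 - e ∈ OInf h := sub_mem (one_mem _) h1
  have h2' : 1 - e ∈ OZero h W := sub_mem (one_mem _) h2
  have hr1' : redInf h ⟨1 - e, h1'⟩ = 1 := by
    have e' : (⟨1 - e, h1'⟩ : OInf h) = 1 - ⟨e, h1⟩ := rfl
    rw [e', map_sub, map_one, hr1, sub_zero]
  have hr2' : redZero h W ⟨1 - e, h2'⟩ = 0 := by
    have e' : (⟨1 - e, h2'⟩ : OZero h W) = 1 - ⟨e, h2⟩ := rfl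
    rw [e', map_sub, map_one, hr2, sub_self]
  have hinv : (1 - e)⁻¹ ∈ OInf h := inv_mem_OInf h (1 - e) h1' (by rw [hr1']; exact one_ne_zero)
  have he0 : 1 - e ≠ 0 := by
    intro h0
    have : (⟨1 - e, h1'⟩ : OInf h) = 0 := Subtype.ext h0
    rw [this, map_zero] at hr1'
    exact zero_ne_one hr1'
  exact redZero_ne_zero_of_inv_mem h (1 - e) he0 h2' (hle hinv) hr2'

theorem OInf_ne_OZero (h : BadSetup A π M ℓ) (hW : IsAL M ℓ W) : OInf h ≠ OZero h W := by
  intro e
  exact not_OInf_le_OZero h hW (le_of_eq e)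

/-- **Joint surjectivity** (weak approximation for the pair): every pair of residues is attained
by a function in `O_∞ ∩ O_0`. -/
theorem joint_surjective (h : BadSetup A π M ℓ) (hW : IsAL M ℓ W)
    (hsurj : Function.Surjective π) (a b : modularFunctionFieldFullC k M) :
    ∃ f : laurentBaseChange L (modularFunctionFieldFull (M * ℓ)),
      ∃ (h1 : f ∈ OInf h) (h2 : f ∈ OZero h W),
        redInf h ⟨f, h1⟩ = a ∧ redZero h W ⟨f, h2⟩ = b := by
  obtain ⟨x, rfl⟩ := redF_surjective h.hπ hsurj h.hMk a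
  obtain ⟨y, rfl⟩ := redF_surjective h.hπ hsurj h.hMk b
  obtain ⟨e, h1, h2, hr1, hr2⟩ := exists_sep h hW
  have hx1 : heckeAlphaBar L M ℓ (x : laurentBaseChange L (modularFunctionFieldFull M)) ∈
      OInf h := (heckeAlphaBar_mem_OInf_iff h _).mpr x.2
  have hx2 : heckeAlphaBar L M ℓ (x : laurentBaseChange L (modularFunctionFieldFull M)) ∈
      OZero h W := (heckeAlphaBar_mem_OZero_iff h hW _).mpr x.2
  have hy1 : heckeBetaBar L M ℓ (y : laurentBaseChange L (modularFunctionFieldFull M)) ∈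
      OInf h := (heckeBetaBar_mem_OInf_iff h _).mpr y.2
  have hy2 : heckeBetaBar L M ℓ (y : laurentBaseChange L (modularFunctionFieldFull M)) ∈
      OZero h W := (heckeBetaBar_mem_OZero_iff h hW _).mpr y.2
  have h1' : 1 - e ∈ OInf h := sub_mem (one_mem _) h1
  have h2' : 1 - e ∈ OZero h W := sub_mem (one_mem _) h2
  have hf1 : (1 - e) * heckeAlphaBar L M ℓ (x : laurentBaseChange L (modularFunctionFieldFull M)) +
      e * heckeBetaBar L M ℓ (y : laurentBaseChange L (modularFunctionFieldFull M)) ∈ OInf h :=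
    add_mem (mul_mem h1' hx1) (mul_mem h1 hy1)
  have hf2 : (1 - e) * heckeAlphaBar L M ℓ (x : laurentBaseChange L (modularFunctionFieldFull M)) +
      e * heckeBetaBar L M ℓ (y : laurentBaseChange L (modularFunctionFieldFull M)) ∈ OZero h W :=
    add_mem (mul_mem h2' hx2) (mul_mem h2 hy2)
  refine ⟨_, hf1, hf2, ?_, ?_⟩
  · have e' : (⟨_, hf1⟩ : OInf h) = (1 - ⟨e, h1⟩) * ⟨_, hx1⟩ + ⟨e, h1⟩ * ⟨_, hy1⟩ := rfl
    rw [e', map_add, map_mul, map_mul, map_sub, map_one, hr1, sub_zero, one_mul, zero_mul,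
      add_zero]
    exact redInf_heckeAlphaBar h _ x.2 hx1
  · have e' : (⟨_, hf2⟩ : OZero h W) = (1 - ⟨e, h2⟩) * ⟨_, hx2⟩ + ⟨e, h2⟩ * ⟨_, hy2⟩ := rfl
    rw [e', map_add, map_mul, map_mul, map_sub, map_one, hr2, sub_self, zero_mul, one_mul,
      zero_add]
    exact redZero_heckeBetaBar h hW _ y.2 hy2

end Bad

/-- Existence of the Atkin–Lehner involution (helper7's `exists_atkinLehner`) over a field
containing a primitive `ℓ`-th root of unity. -/
theorem exists_isAL {L : Type} [Field L] [Algebra ℚ L] (M ℓ : ℕ) [NeZero M] [NeZero ℓ]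
    (hℓ : ℓ.Prime) (hℓM : ¬ ℓ ∣ M) (ζ : Lˣ) (hζ : IsPrimitiveRoot ζ ℓ) :
    ∃ W : laurentBaseChange L (modularFunctionFieldFull (M * ℓ)) ≃ₐ[L]
      laurentBaseChange L (modularFunctionFieldFull (M * ℓ)), IsAL M ℓ W := by
  obtain ⟨W, h1, h2, -⟩ :=
    Fermat.Agent.ESJ.Cong.AtkinLehner.exists_atkinLehner L M ℓ hℓ hℓM ζ hζ
  exact ⟨W, ⟨h1, h2⟩⟩

end

end Fermat.Agent.BAD.TwoVal
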