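/-
BAD / two-valuation layer: the semi-local ring `O := O_∞ ∩ O_0` of `F_{Mℓ}` in the shapes of
`Lib/Red/Deform.lean` (`Dvd`, `Small`), its residue map `redPair : O →+* κ × κ`, and the Kronecker
elements.

* `OPair h W : Subring FN`, `OPair_hOA` (`O ∩ L = A`), `OPair_hval` (every `y ≠ 0` scales to
  max-norm exactly one), `exists_scaling_OPair`;
* `redPair h W : OPair h W →+* κ × κ`, `redPair_eq_zero_iff` (kernel = `Small`),
  `redPair_surjective`, `redPair_algebraMap`;
* Kronecker elements `α x - (β x)^ℓ` for `x` with `𝔽_ℓ`-rational reduction: residues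
  `(x̄ - x̄^(ℓ²), 0)`; the special case `kronZero = J - J(q^ℓ)^ℓ` and its mirror
  `kronInf = J(q^ℓ) - J^ℓ` with residues `(0, J̄ - J̄^(ℓ²))`.
-/
import Mathlib
import Fermat.Agent.Lib.Red.Deform
import Fermat.Agent.BAD.TwoVal.Pair

set_option autoImplicit false

namespace Fermat.Agent.BAD.TwoVal

open HahnSeries ModularCurve Polynomial AlgebraicCurve Fermat.Agent.Lib.Red Fermat.Agent.S28
open Fermat.Agent.ESJ.Cong.LevelGen
open Fermat.Agent.Lib.Red.Deform (Dvd Small)

noncomputable section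

variable {L : Type*} [Field L] [Algebra ℚ L] {A : ValuationSubring L} {k : Type} [Field k]
  {π : A →+* k} {M ℓ : ℕ} [NeZero M] [NeZero ℓ]
  {W : laurentBaseChange L (modularFunctionFieldFull (M * ℓ)) ≃ₐ[L]
    laurentBaseChange L (modularFunctionFieldFull (M * ℓ))}

omit [Algebra ℚ L] [NeZero M] [NeZero ℓ] in
/-- `π a = 0` iff `a` has valuation `< 1`. -/
theorem BadSetup.pi_eq_zero_iff (h : BadSetup A π M ℓ) (a : A) :
    π a = 0 ↔ A.valuation (a : L) < 1 := by
  constructor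
  · intro h0
    refine lt_of_le_of_ne (A.valuation_le_one a) ?_
    intro h1
    have hu : IsUnit a := (ValuationSubring.valuation_eq_one_iff A a).mpr h1
    have := hu.map π
    rw [h0] at this
    exact not_isUnit_zero this
  · intro hlt
    apply h.hπ
    intro hu
    have := (ValuationSubring.valuation_eq_one_iff A a).mp hu
    rw [this] at hlt
    exact lt_irrefl _ hlt

/-- The semi-local ring `O := O_∞ ∩ O_0`. -/
def OPair (h : BadSetup A π M ℓ) (W : laurentBaseChange L (modularFunctionFieldFull (M * ℓ)) ≃ₐ[L]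
    laurentBaseChange L (modularFunctionFieldFull (M * ℓ))) :
    Subring ↥(laurentBaseChange L (modularFunctionFieldFull (M * ℓ))) :=
  (OInf h).toSubring ⊓ (OZero h W).toSubring

theorem mem_OPair_iff (h : BadSetup A π M ℓ)
    (f : laurentBaseChange L (modularFunctionFieldFull (M * ℓ))) :
    f ∈ OPair h W ↔ f ∈ OInf h ∧ f ∈ OZero h W := Subring.mem_inf

/-- `O ∩ L = A` (the hypothesis `hOA` of `Deform`). -/
theorem OPair_hOA (h : BadSetup A π M ℓ) (x : L) :
    algebraMap L ↥(laurentBaseChange L (modularFunctionFieldFull (M * ℓ))) x ∈ OPair h W ↔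
      x ∈ A := by
  rw [mem_OPair_iff, algebraMap_mem_OInf_iff, algebraMap_mem_OZero_iff, and_self]

/-- A small element of `O` has zero residue at `∞`. -/
theorem redInf_eq_zero_of_small (h : BadSetup A π M ℓ)
    {y : laurentBaseChange L (modularFunctionFieldFull (M * ℓ))}
    (hy : Small A (OPair h W) y) (h1 : y ∈ OInf h) : redInf h ⟨y, h1⟩ = 0 := by
  obtain ⟨a, ha, o, ho, rfl⟩ := hy
  have haA : a ∈ A := (A.valuation_le_one_iff a).mp ha.le
  have hc : algebraMap L ↥(laurentBaseChange L (modularFunctionFieldFull (M * ℓ))) a ∈ OInf h :=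
    (algebraMap_mem_OInf_iff h a).mpr haA
  have ho1 : o ∈ OInf h := ((mem_OPair_iff h o).mp ho).1
  have e : (⟨algebraMap L _ a * o, h1⟩ : OInf h) = ⟨algebraMap L _ a, hc⟩ * ⟨o, ho1⟩ := rfl
  rw [e, map_mul, redInf_algebraMap h ⟨a, haA⟩ hc, (h.pi_eq_zero_iff ⟨a, haA⟩).mpr ha, map_zero,
    zero_mul]

/-- A small element of `O` has zero residue at `0`. -/
theorem redZero_eq_zero_of_small (h : BadSetup A π M ℓ)
    {y : laurentBaseChange L (modularFunctionFieldFull (M * ℓ))}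
    (hy : Small A (OPair h W) y) (h2 : y ∈ OZero h W) : redZero h W ⟨y, h2⟩ = 0 := by
  obtain ⟨a, ha, o, ho, rfl⟩ := hy
  have haA : a ∈ A := (A.valuation_le_one_iff a).mp ha.le
  have hc : algebraMap L ↥(laurentBaseChange L (modularFunctionFieldFull (M * ℓ))) a ∈
      OZero h W := (algebraMap_mem_OZero_iff h a).mpr haA
  have ho2 : o ∈ OZero h W := ((mem_OPair_iff h o).mp ho).2
  have e : (⟨algebraMap L _ a * o, h2⟩ : OZero h W) = ⟨algebraMap L _ a, hc⟩ * ⟨o, ho2⟩ := rfl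
  rw [e, map_mul, redZero_algebraMap h ⟨a, haA⟩ hc, (h.pi_eq_zero_iff ⟨a, haA⟩).mpr ha, map_zero,
    zero_mul]

/-- **Scaling for the pair**: every nonzero function has a constant multiple in `O_∞ ∩ O_0` with
at least one nonzero residue. -/
theorem exists_scaling_OPair (h : BadSetup A π M ℓ)
    (y : laurentBaseChange L (modularFunctionFieldFull (M * ℓ))) (hy : y ≠ 0) :
    ∃ c : L, c ≠ 0 ∧ ∃ (h1 : algebraMap L _ c * y ∈ OInf h)
      (h2 : algebraMap L _ c * y ∈ OZero h W),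
      redInf h ⟨_, h1⟩ ≠ 0 ∨ redZero h W ⟨_, h2⟩ ≠ 0 := by
  obtain ⟨a, ha, hma, hnea⟩ := exists_scaling_OInf h y hy
  obtain ⟨b, hb, hmb, hneb⟩ := exists_scaling_OZero (W := W) h y hy
  rcases le_total (A.valuation a) (A.valuation b) with hle | hle
  · have hab : a / b ∈ A := by
      rw [← A.valuation_le_one_iff, map_div₀]
      exact div_le_one_of_le₀ hle zero_le
    have e : algebraMap L ↥(laurentBaseChange L (modularFunctionFieldFull (M * ℓ))) a * y =
        algebraMap L _ (a / b) * (algebraMap L _ b * y) := by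
      rw [← mul_assoc, ← map_mul, div_mul_cancel₀ a hb]
    refine ⟨a, ha, hma, ?_, Or.inl hnea⟩
    rw [e]
    exact mul_mem ((algebraMap_mem_OZero_iff h _).mpr hab) hmb
  · have hba : b / a ∈ A := by
      rw [← A.valuation_le_one_iff, map_div₀]
      exact div_le_one_of_le₀ hle zero_le
    have e : algebraMap L ↥(laurentBaseChange L (modularFunctionFieldFull (M * ℓ))) b * y =
        algebraMap L _ (b / a) * (algebraMap L _ a * y) := by
      rw [← mul_assoc, ← map_mul, div_mul_cancel₀ b ha]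
    refine ⟨b, hb, ?_, hmb, Or.inr hneb⟩
    rw [e]
    exact mul_mem ((algebraMap_mem_OInf_iff h _).mpr hba) hma

/-- The hypothesis `hval` of `Deform.exists_common_ne_zero` for `O = O_∞ ∩ O_0`. -/
theorem OPair_hval (h : BadSetup A π M ℓ)
    (y : laurentBaseChange L (modularFunctionFieldFull (M * ℓ))) (hy : y ≠ 0) :
    ∃ c : L, c ≠ 0 ∧
      algebraMap L ↥(laurentBaseChange L (modularFunctionFieldFull (M * ℓ))) c * y ∈ OPair h W ∧
      ¬ Small A (OPair h W) (algebraMap L _ c * y) := by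
  obtain ⟨c, hc, h1, h2, hne⟩ := exists_scaling_OPair (W := W) h y hy
  refine ⟨c, hc, (mem_OPair_iff h _).mpr ⟨h1, h2⟩, fun hs => ?_⟩
  rcases hne with hne | hne
  · exact hne (redInf_eq_zero_of_small h hs h1)
  · exact hne (redZero_eq_zero_of_small h hs h2)

/-- An element of `O` with both residues zero is small. -/
theorem small_of_red_eq_zero (h : BadSetup A π M ℓ)
    (y : laurentBaseChange L (modularFunctionFieldFull (M * ℓ))) (h1 : y ∈ OInf h)
    (h2 : y ∈ OZero h W) (r1 : redInf h ⟨y, h1⟩ = 0) (r2 : redZero h W ⟨y, h2⟩ = 0) :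
    Small A (OPair h W) y := by
  by_cases hy : y = 0
  · rw [hy]
    exact Deform.small_zero
  obtain ⟨c, hc, hc1, hc2, hne⟩ := exists_scaling_OPair (W := W) h y hy
  have hcA : c ∉ A := by
    intro hcA
    have hcO1 : algebraMap L ↥(laurentBaseChange L (modularFunctionFieldFull (M * ℓ))) c ∈
        OInf h := (algebraMap_mem_OInf_iff h c).mpr hcA
    have hcO2 : algebraMap L ↥(laurentBaseChange L (modularFunctionFieldFull (M * ℓ))) c ∈
        OZero h W := (algebraMap_mem_OZero_iff h c).mpr hcA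
    rcases hne with hne | hne
    · apply hne
      have e : (⟨algebraMap L _ c * y, hc1⟩ : OInf h) = ⟨algebraMap L _ c, hcO1⟩ * ⟨y, h1⟩ := rfl
      rw [e, map_mul, r1, mul_zero]
    · apply hne
      have e : (⟨algebraMap L _ c * y, hc2⟩ : OZero h W) =
          ⟨algebraMap L _ c, hcO2⟩ * ⟨y, h2⟩ := rfl
      rw [e, map_mul, r2, mul_zero]
  have hv : A.valuation c⁻¹ < 1 := by
    rw [map_inv₀]
    have h1' : 1 < A.valuation c := by
      rw [← not_le, A.valuation_le_one_iff]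
      exact hcA
    exact inv_lt_one_of_one_lt₀ h1'
  refine ⟨c⁻¹, hv, algebraMap L _ c * y, (mem_OPair_iff h _).mpr ⟨hc1, hc2⟩, ?_⟩
  rw [← mul_assoc, ← map_mul, inv_mul_cancel₀ hc, map_one, one_mul]

/-! ### The residue map of the pair -/

/-- The residue map `O_∞ ∩ O_0 → κ × κ`. -/
def redPair (h : BadSetup A π M ℓ) (W : laurentBaseChange L (modularFunctionFieldFull (M * ℓ)) ≃ₐ[L]
    laurentBaseChange L (modularFunctionFieldFull (M * ℓ))) :
    OPair h W →+* ↥(modularFunctionFieldFullC k M) × ↥(modularFunctionFieldFullC k M) :=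
  RingHom.prod
    ((redInf h).comp (((OPair h W).subtype).codRestrict (OInf h)
      (fun f => ((mem_OPair_iff h _).mp f.2).1)))
    ((redZero h W).comp (((OPair h W).subtype).codRestrict (OZero h W)
      (fun f => ((mem_OPair_iff h _).mp f.2).2)))

theorem redPair_mk (h : BadSetup A π M ℓ)
    (f : laurentBaseChange L (modularFunctionFieldFull (M * ℓ))) (hf : f ∈ OPair h W) :
    redPair h W ⟨f, hf⟩ = (redInf h ⟨f, ((mem_OPair_iff h f).mp hf).1⟩,
      redZero h W ⟨f, ((mem_OPair_iff h f).mp hf).2⟩) := rfl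

/-- The kernel of the residue map of the pair is `𝔪_A • O`. -/
theorem redPair_eq_zero_iff (h : BadSetup A π M ℓ) (y : OPair h W) :
    redPair h W y = 0 ↔
      Small A (OPair h W) (y : laurentBaseChange L (modularFunctionFieldFull (M * ℓ))) := by
  obtain ⟨y, hy⟩ := y
  rw [redPair_mk, Prod.mk_eq_zero]
  constructor
  · rintro ⟨r1, r2⟩
    exact small_of_red_eq_zero h y _ _ r1 r2
  · intro hs
    exact ⟨redInf_eq_zero_of_small h hs _, redZero_eq_zero_of_small h hs _⟩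

/-- The residue map of the pair is onto `κ × κ`. -/
theorem redPair_surjective (h : BadSetup A π M ℓ) (hW : IsAL M ℓ W)
    (hsurj : Function.Surjective π) : Function.Surjective (redPair h W) := by
  rintro ⟨a, b⟩
  obtain ⟨f, h1, h2, r1, r2⟩ := joint_surjective h hW hsurj a b
  refine ⟨⟨f, (mem_OPair_iff h f).mpr ⟨h1, h2⟩⟩, ?_⟩
  rw [redPair_mk, r1, r2]

theorem redPair_algebraMap (h : BadSetup A π M ℓ) (a : A)
    (ha : algebraMap L ↥(laurentBaseChange L (modularFunctionFieldFull (M * ℓ))) (a : L) ∈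
      OPair h W) :
    redPair h W ⟨_, ha⟩ = (algebraMap k ↥(modularFunctionFieldFullC k M) (π a),
      algebraMap k ↥(modularFunctionFieldFullC k M) (π a)) := by
  rw [redPair_mk, redInf_algebraMap h a, redZero_algebraMap h a]

/-! ### Kronecker elements -/

/-- The Kronecker element `α x - (β x)^ℓ` lies in `O_∞`. -/
theorem kron_mem_OInf (h : BadSetup A π M ℓ)
    (x : laurentBaseChange L (modularFunctionFieldFull M)) (hx : x ∈ Ow A π M h.hMk) :
    heckeAlphaBar L M ℓ x - heckeBetaBar L M ℓ x ^ ℓ ∈ OInf h :=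
  sub_mem ((heckeAlphaBar_mem_OInf_iff h x).mpr hx)
    (pow_mem ((heckeBetaBar_mem_OInf_iff h x).mpr hx) ℓ)

/-- The Kronecker element `α x - (β x)^ℓ` lies in `O_0`. -/
theorem kron_mem_OZero (h : BadSetup A π M ℓ) (hW : IsAL M ℓ W)
    (x : laurentBaseChange L (modularFunctionFieldFull M)) (hx : x ∈ Ow A π M h.hMk) :
    heckeAlphaBar L M ℓ x - heckeBetaBar L M ℓ x ^ ℓ ∈ OZero h W :=
  sub_mem ((heckeAlphaBar_mem_OZero_iff h hW x).mpr hx)
    (pow_mem ((heckeBetaBar_mem_OZero_iff h hW x).mpr hx) ℓ)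

/-- For `x` with `𝔽_ℓ`-rational reduction (`x̄(q^ℓ) = x̄^ℓ`): `red_∞ (β x) = x̄^ℓ`. -/
theorem redInf_heckeBetaBar_of_rat (h : BadSetup A π M ℓ)
    (x : laurentBaseChange L (modularFunctionFieldFull M)) (hx : x ∈ Ow A π M h.hMk)
    (hrat : qExpand k ℓ ((redF A π M h.hπ h.hMk ⟨x, hx⟩ : modularFunctionFieldFullC k M) :
        LaurentSeries k) =
      ((redF A π M h.hπ h.hMk ⟨x, hx⟩ : modularFunctionFieldFullC k M) : LaurentSeries k) ^ ℓ)
    (hx' : heckeBetaBar L M ℓ x ∈ OInf h) :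
    redInf h ⟨heckeBetaBar L M ℓ x, hx'⟩ = redF A π M h.hπ h.hMk ⟨x, hx⟩ ^ ℓ := by
  apply Subtype.ext
  rw [coe_redInf_heckeBetaBar h x hx hx', hrat]
  rfl

/-- **Kronecker elements**: for `x` with `𝔽_ℓ`-rational reduction, the residue at `∞` of
`α x - (β x)^ℓ` is `x̄ - x̄^(ℓ²)`. -/
theorem redInf_kron (h : BadSetup A π M ℓ)
    (x : laurentBaseChange L (modularFunctionFieldFull M)) (hx : x ∈ Ow A π M h.hMk)
    (hrat : qExpand k ℓ ((redF A π M h.hπ h.hMk ⟨x, hx⟩ : modularFunctionFieldFullC k M) :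
        LaurentSeries k) =
      ((redF A π M h.hπ h.hMk ⟨x, hx⟩ : modularFunctionFieldFullC k M) : LaurentSeries k) ^ ℓ)
    (hm : heckeAlphaBar L M ℓ x - heckeBetaBar L M ℓ x ^ ℓ ∈ OInf h) :
    redInf h ⟨_, hm⟩ =
      redF A π M h.hπ h.hMk ⟨x, hx⟩ - redF A π M h.hπ h.hMk ⟨x, hx⟩ ^ (ℓ * ℓ) := by
  have hα : heckeAlphaBar L M ℓ x ∈ OInf h := (heckeAlphaBar_mem_OInf_iff h x).mpr hx
  have hβ : heckeBetaBar L M ℓ x ∈ OInf h := (heckeBetaBar_mem_OInf_iff h x).mpr hx
  have e : (⟨heckeAlphaBar L M ℓ x - heckeBetaBar L M ℓ x ^ ℓ, hm⟩ : OInf h) =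
      ⟨_, hα⟩ - ⟨_, hβ⟩ ^ ℓ := rfl
  rw [e, map_sub, map_pow, redInf_heckeAlphaBar h x hx hα,
    redInf_heckeBetaBar_of_rat h x hx hrat hβ, ← pow_mul]

/-- **Kronecker elements**: for `x` with `𝔽_ℓ`-rational reduction, the residue at `0` of
`α x - (β x)^ℓ` vanishes. -/
theorem redZero_kron (h : BadSetup A π M ℓ) (hW : IsAL M ℓ W)
    (x : laurentBaseChange L (modularFunctionFieldFull M)) (hx : x ∈ Ow A π M h.hMk)
    (hrat : qExpand k ℓ ((redF A π M h.hπ h.hMk ⟨x, hx⟩ : modularFunctionFieldFullC k M) :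
        LaurentSeries k) =
      ((redF A π M h.hπ h.hMk ⟨x, hx⟩ : modularFunctionFieldFullC k M) : LaurentSeries k) ^ ℓ)
    (hm : heckeAlphaBar L M ℓ x - heckeBetaBar L M ℓ x ^ ℓ ∈ OZero h W) :
    redZero h W ⟨_, hm⟩ = 0 := by
  have hα : heckeAlphaBar L M ℓ x ∈ OInf h := (heckeAlphaBar_mem_OInf_iff h x).mpr hx
  have hβ : heckeBetaBar L M ℓ x ∈ OInf h := (heckeBetaBar_mem_OInf_iff h x).mpr hx
  have hWv : W (heckeAlphaBar L M ℓ x - heckeBetaBar L M ℓ x ^ ℓ) =
      heckeBetaBar L M ℓ x - heckeAlphaBar L M ℓ x ^ ℓ := by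
    rw [map_sub, map_pow, hW.alpha, hW.beta]
  have hm' : heckeBetaBar L M ℓ x - heckeAlphaBar L M ℓ x ^ ℓ ∈ OInf h :=
    sub_mem hβ (pow_mem hα ℓ)
  rw [redZero_mk, redInf_congr h hWv hm hm']
  have e : (⟨heckeBetaBar L M ℓ x - heckeAlphaBar L M ℓ x ^ ℓ, hm'⟩ : OInf h) =
      ⟨_, hβ⟩ - ⟨_, hα⟩ ^ ℓ := rfl
  rw [e, map_sub, map_pow, redInf_heckeAlphaBar h x hx hα,
    redInf_heckeBetaBar_of_rat h x hx hrat hβ, sub_self]

omit [NeZero ℓ] in
/-- `J` lies in the level-`M` Gauss ring. -/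
theorem jLevel_mem_Ow (h : BadSetup A π M ℓ) : jLevel L M ∈ Ow A π M h.hMk := by
  show TD.Jd L 1 ∈ gaussRing A π
  rw [← incl_Jd A]
  exact incl_mem_gaussRing A π _

omit [NeZero ℓ] in
/-- The reduction of `J` is `J̄`. -/
theorem coe_redF_jLevel (h : BadSetup A π M ℓ) :
    ((redF A π M h.hπ h.hMk ⟨jLevel L M, jLevel_mem_Ow h⟩ : modularFunctionFieldFullC k M) :
      LaurentSeries k) = TD.Jd k 1 := by
  rw [coe_redF]
  have e : OwToGauss A π M h.hMk ⟨jLevel L M, jLevel_mem_Ow h⟩ =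
      ⟨incl A (TD.Jd A 1), incl_mem_gaussRing A π _⟩ := Subtype.ext (incl_Jd A 1).symm
  rw [e, red_incl, rbar_Jd]

/-- The reduction of `J` is `𝔽_ℓ`-rational. -/
theorem jLevel_rat (h : BadSetup A π M ℓ) :
    qExpand k ℓ ((redF A π M h.hπ h.hMk ⟨jLevel L M, jLevel_mem_Ow h⟩ :
        modularFunctionFieldFullC k M) : LaurentSeries k) =
      ((redF A π M h.hπ h.hMk ⟨jLevel L M, jLevel_mem_Ow h⟩ : modularFunctionFieldFullC k M) :
        LaurentSeries k) ^ ℓ := by
  have : Fact ℓ.Prime := ⟨h.hℓ⟩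
  have : CharP k ℓ := h.charP
  rw [coe_redF_jLevel h, TD.qExpand_Jd k ℓ 1 one_ne_zero, mul_one,
    Fermat.Agent.ESJ.Kronecker.Jd_pow_char k ℓ]

end

end Fermat.Agent.BAD.TwoVal
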