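/-
BAD / two-valuation layer: the base hypotheses of `BAD/Nodal.lean` (`harch`, units) from
`BadSetup`.
-/
import Mathlib
import Fermat.Agent.BAD.TwoVal.Semilocal

set_option autoImplicit false

namespace Fermat.Agent.BAD.TwoVal

variable {L : Type*} [Field L] {A : ValuationSubring L} {k : Type} [Field k]
  {π : A →+* k} {M ℓ : ℕ}

/-- Rank one in the form `harch` of `Lib/Red/Deform.lean`: powers of an element of valuation
`< 1` become smaller than any nonzero element. -/
theorem BadSetup.harch (h : BadSetup A π M ℓ) (a Δ : L) (ha : A.valuation a < 1) (hΔ : Δ ≠ 0) :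
    ∃ n : ℕ, A.valuation (a ^ n) < A.valuation Δ := by
  have hvΔ : A.valuation Δ ≠ 0 := (Valuation.ne_zero_iff _).mpr hΔ
  by_cases ha0 : a = 0
  · refine ⟨1, ?_⟩
    rw [ha0, pow_one, map_zero]
    exact lt_of_le_of_ne zero_le (Ne.symm hvΔ)
  have haA : a ∈ A := (A.valuation_le_one_iff a).mp ha.le
  have hnu : ¬ IsUnit (⟨a, haA⟩ : A) := by
    intro hu
    have := (ValuationSubring.valuation_eq_one_iff A ⟨a, haA⟩).mp hu
    rw [this] at ha
    exact lt_irrefl _ ha
  -- a nonzero element `Δ'` of `A` with `v Δ' ≤ v Δ`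
  obtain ⟨Δ', hΔ'A, hΔ'0, hΔ'le⟩ : ∃ Δ' : L, Δ' ∈ A ∧ Δ' ≠ 0 ∧
      A.valuation Δ' ≤ A.valuation Δ := by
    by_cases hΔA : Δ ∈ A
    · exact ⟨Δ, hΔA, hΔ, le_rfl⟩
    · refine ⟨1, A.one_mem, one_ne_zero, ?_⟩
      rw [map_one]
      by_contra hlt
      exact hΔA ((A.valuation_le_one_iff Δ).mp (le_of_not_ge hlt))
  obtain ⟨r, hr⟩ := h.hrank ⟨a, haA⟩ ⟨Δ', hΔ'A⟩ hnu (fun h0 => hΔ'0 (congrArg Subtype.val h0))
  obtain ⟨c, hc⟩ := hr
  have hc' : a ^ r = Δ' * (c : L) := by
    have := congrArg (Subtype.val : A → L) hc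
    simpa using this
  have hle : A.valuation (a ^ r) ≤ A.valuation Δ' := by
    rw [hc', map_mul]
    calc A.valuation Δ' * A.valuation (c : L) ≤ A.valuation Δ' * 1 := by
          gcongr
          exact A.valuation_le_one c
      _ = A.valuation Δ' := mul_one _
  refine ⟨r + 1, ?_⟩
  have hpos : 0 < A.valuation (a ^ r) :=
    lt_of_le_of_ne zero_le (Ne.symm ((Valuation.ne_zero_iff _).mpr (pow_ne_zero r ha0)))
  calc A.valuation (a ^ (r + 1)) = A.valuation (a ^ r) * A.valuation a := by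
        rw [pow_succ, map_mul]
    _ < A.valuation (a ^ r) * 1 := mul_lt_mul_of_pos_left ha hpos
    _ = A.valuation (a ^ r) := mul_one _
    _ ≤ A.valuation Δ' := hle
    _ ≤ A.valuation Δ := hΔ'le

/-- An integer which is invertible in the residue field has valuation one. -/
theorem BadSetup.valuation_natCast_eq_one (h : BadSetup A π M ℓ) (m : ℕ) (hm : (m : k) ≠ 0) :
    A.valuation (m : L) = 1 := by
  have h1 : π ((m : ℕ) : A) ≠ 0 := by rw [map_natCast]; exact hm
  have h2 : ¬ A.valuation ((((m : ℕ) : A) : L)) < 1 := fun hlt =>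
    h1 ((h.pi_eq_zero_iff _).mpr hlt)
  have h3 : A.valuation ((((m : ℕ) : A) : L)) ≤ 1 := A.valuation_le_one _
  have h4 : ((((m : ℕ) : A) : L)) = (m : L) := by push_cast; rfl
  rw [← h4]
  exact le_antisymm h3 (le_of_not_gt h2)

end Fermat.Agent.BAD.TwoVal
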