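/-
BAD / two-valuation layer: the inertia group acts trivially on the two special fibres.

Let `σ` be an automorphism of `L/ℚ` which preserves the valuation ring `A` and acts trivially
modulo `π` (`Inertial A π σ`; e.g. `σ` in the inertia group of `A`), and let `g` be the induced
semilinear automorphism `arithmeticGalois _ σ` of the bad-level function field `F_{Mℓ}`.  Then

* `g` preserves `O_∞` and `O_0`, and `red_∞ (g f) = red_∞ f`, `red_0 (g f) = red_0 f`
  (`galois_mem_OInf`, `redInf_galois`, `galois_mem_OZero`, `redZero_galois`);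
* `g` commutes with the two degeneracy maps and with the Atkin–Lehner involution
  (`galois_heckeAlphaBar`, `galois_heckeBetaBar`, `IsAL.galois_comm`);
* `σ c / c` is a unit of `A` for every `c ≠ 0` when `L/ℚ` is algebraic (`galois_const_mem`);
* `g` fixes the functions with rational `q`-expansion, e.g. `Y₁ = α(J(q^M))`, `Y₂ = β(J(q^M))`.

These are the fields `mem₁`, `mem₂`, `red_eq₁`, `red_eq₂`, `const` of `FixesFibre`
(`BAD/OneStepNodal.lean`) for `O₁ = OInf h`, `O₂ = OZero h W`.
-/
import Mathlib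
import Fermat.Agent.BAD.TwoVal.Semilocal
import Fermat.Agent.ESJ.Cong.GaloisRed
import Fermat.Agent.Lib.Red.Integral

set_option autoImplicit false

namespace Fermat.Agent.BAD.TwoVal

open HahnSeries ModularCurve Polynomial AlgebraicCurve Fermat.Agent.Lib.Red Fermat.Agent.S28
open Fermat.Agent.ESJ.Cong.LevelGen
open scoped Pointwise

noncomputable section

/- Speed only: try the instance that succeeds first (the elaborated terms are unchanged). -/
attribute [local instance 100000] SubalgebraClass.toAlgebra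

/-! ### Generic: coefficientwise automorphisms and the Gauss ring -/

section Generic

variable {L : Type*} [Field L] {A : ValuationSubring L} {k : Type*} [Field k] {π : A →+* k}

/-- `σ` preserves `A` and acts trivially modulo `π`. -/
def Inertial (A : ValuationSubring L) (π : A →+* k) (σ : L →+* L) : Prop :=
  ∃ s : A →+* A, (∀ a : A, ((s a : A) : L) = σ (a : L)) ∧ ∀ a : A, π (s a) = π a

theorem Inertial.mem {σ : L →+* L} (hσ : Inertial A π σ) {a : L} (ha : a ∈ A) : σ a ∈ A := by
  obtain ⟨s, hs, -⟩ := hσ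
  have := hs ⟨a, ha⟩
  rw [← this]
  exact (s ⟨a, ha⟩).2

theorem coeffMap_incl_of_hom {σ : L →+* L} {s : A →+* A}
    (hs : ∀ a : A, ((s a : A) : L) = σ (a : L)) (g : LaurentSeries A) :
    coeffMap σ (incl A g) = incl A (coeffMap s g) := by
  unfold incl
  rw [coeffMap_coeffMap, coeffMap_coeffMap]
  exact coeffMap_congr (RingHom.ext fun a => (hs a).symm) g

theorem rbar_coeffMap_of_hom {s : A →+* A} (hπs : ∀ a : A, π (s a) = π a)
    (g : LaurentSeries A) : rbar A π (coeffMap s g) = rbar A π g := by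
  unfold rbar
  rw [coeffMap_coeffMap]
  exact coeffMap_congr (RingHom.ext hπs) g

/-- An inertial automorphism preserves the Gauss ring. -/
theorem Inertial.coeffMap_mem_gaussRing {σ : L →+* L} (hσ : Inertial A π σ)
    {y : LaurentSeries L} (hy : y ∈ gaussRing A π) : coeffMap σ y ∈ gaussRing A π := by
  obtain ⟨s, hs, hπs⟩ := hσ
  obtain ⟨s₀, P, hs₀, h⟩ := hy
  refine ⟨coeffMap s s₀, coeffMap s P, ?_, ?_⟩
  · rw [rbar_coeffMap_of_hom hπs]
    exact hs₀
  · rw [← coeffMap_incl_of_hom hs, ← coeffMap_incl_of_hom hs, ← map_mul, h]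

/-- An inertial automorphism acts trivially on the reduction of the Gauss ring. -/
theorem Inertial.red_coeffMap {σ : L →+* L} (hσ : Inertial A π σ)
    {y : LaurentSeries L} (hy : y ∈ gaussRing A π) (hy' : coeffMap σ y ∈ gaussRing A π) :
    red A π ⟨coeffMap σ y, hy'⟩ = red A π ⟨y, hy⟩ := by
  obtain ⟨s, hs, hπs⟩ := hσ
  obtain ⟨s₀, P, hs₀, h⟩ := (mem_gaussRing_iff A π y).mp hy
  have hs₀' : rbar A π (coeffMap s s₀) ≠ 0 := by
    rw [rbar_coeffMap_of_hom hπs]
    exact hs₀
  have h' : incl A (coeffMap s s₀) * coeffMap σ y = incl A (coeffMap s P) := by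
    rw [← coeffMap_incl_of_hom hs, ← coeffMap_incl_of_hom hs, ← map_mul, h]
  rw [red_eq A π ⟨coeffMap σ y, hy'⟩ hs₀' h', red_eq A π ⟨y, hy⟩ hs₀ h,
    rbar_coeffMap_of_hom hπs, rbar_coeffMap_of_hom hπs]

end Generic

/-! ### The inertia group is inertial -/

section InertiaGroup

variable {K L : Type*} [Field K] [Field L] [Algebra K L] {A : ValuationSubring L}
  {k : Type*} [Field k] {π : A →+* k}

/-- Elements of the inertia group of `A` are inertial for every `π` killing the non-units. -/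
theorem inertial_of_mem_inertia (hπ : ∀ a : A, ¬ IsUnit a → π a = 0) {σ : L ≃ₐ[K] L}
    (hσ : σ ∈ A.inertiaSubgroupIn K) : Inertial A π (σ : L →+* L) := by
  obtain ⟨hd, h1⟩ := Fermat.Agent.ESJ.Cong.resAut_eq_one_of_mem_inertia A hσ
  refine ⟨Fermat.Agent.ESJ.Cong.decompRingHom A ⟨σ, hd⟩, fun a => rfl, fun a => ?_⟩
  have hres := Fermat.Agent.ESJ.Cong.residue_decompRingHom A ⟨σ, hd⟩ a
  rw [h1] at hres
  have hres' : IsLocalRing.residue A (Fermat.Agent.ESJ.Cong.decompRingHom A ⟨σ, hd⟩ a - a) = 0 := by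
    rw [map_sub, hres]
    exact sub_self _
  have hnu : ¬ IsUnit (Fermat.Agent.ESJ.Cong.decompRingHom A ⟨σ, hd⟩ a - a) := by
    intro hu
    exact (IsLocalRing.residue_ne_zero_iff_isUnit _).mpr hu hres'
  have := hπ _ hnu
  rw [map_sub, sub_eq_zero] at this
  exact this

/-- Elements of the decomposition group preserve `A` in both directions. -/
theorem mem_iff_of_mem_decomposition {σ : L ≃ₐ[K] L} (hσ : σ ∈ A.decompositionSubgroup K)
    (a : L) : a ∈ A ↔ σ a ∈ A := by
  have h1 : σ • A = A := hσ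
  have h2 : σ • a ∈ σ • A ↔ a ∈ A := ValuationSubring.smul_mem_pointwise_smul_iff
  rw [h1] at h2
  exact h2.symm

theorem mem_iff_of_mem_inertia {σ : L ≃ₐ[K] L} (hσ : σ ∈ A.inertiaSubgroupIn K)
    (a : L) : a ∈ A ↔ σ a ∈ A := by
  obtain ⟨τ, -, rfl⟩ := hσ
  exact mem_iff_of_mem_decomposition τ.2 a

/-- For an algebraic extension, an automorphism preserving `A` preserves the valuation:
`σ c / c` lies in `A` (and is a unit there). -/
theorem decomp_div_mem [Algebra.IsAlgebraic K L] (σ : L ≃ₐ[K] L)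
    (hσ : ∀ a : L, a ∈ A ↔ σ a ∈ A) (c : L) (hc : c ≠ 0) : σ c / c ∈ A := by
  by_contra hx
  -- the orbit of `c` is finite
  have hfin : ∃ n : ℕ, 0 < n ∧ (σ ^ n) c = c := by
    have hc_int : IsIntegral K c := (Algebra.IsAlgebraic.isAlgebraic c).isIntegral
    have hroot : ∀ n : ℕ, (σ ^ n) c ∈ (minpoly K c).rootSet L := by
      intro n
      rw [Polynomial.mem_rootSet]
      refine ⟨minpoly.ne_zero hc_int, ?_⟩
      rw [Polynomial.aeval_algEquiv, AlgHom.comp_apply, minpoly.aeval]
      exact map_zero _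
    have : Finite ((minpoly K c).rootSet L) := Polynomial.rootSet_finite _ _
    obtain ⟨m, n, hmn, he⟩ := Finite.exists_ne_map_eq_of_infinite
      (fun n : ℕ => (⟨(σ ^ n) c, hroot n⟩ : (minpoly K c).rootSet L))
    have he' : (σ ^ m) c = (σ ^ n) c := congrArg Subtype.val he
    rcases Nat.lt_or_gt_of_ne hmn with hlt | hlt
    · refine ⟨n - m, Nat.sub_pos_of_lt hlt, ?_⟩
      have : (σ ^ m) ((σ ^ (n - m)) c) = (σ ^ m) c := by
        rw [← AlgEquiv.mul_apply, ← _root_.pow_add, Nat.add_sub_cancel' hlt.le, he']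
      exact (σ ^ m).injective this
    · refine ⟨m - n, Nat.sub_pos_of_lt hlt, ?_⟩
      have : (σ ^ n) ((σ ^ (m - n)) c) = (σ ^ n) c := by
        rw [← AlgEquiv.mul_apply, ← _root_.pow_add, Nat.add_sub_cancel' hlt.le, he']
      exact (σ ^ n).injective this
  obtain ⟨n, hn, hfix⟩ := hfin
  -- the product of two elements outside `A` is outside `A`
  have hmul : ∀ a b : L, a ∉ A → b ∉ A → a * b ∉ A := by
    intro a b ha hb hab
    have hb0 : b ≠ 0 := fun h => hb (h ▸ A.zero_mem)
    have hbi : b⁻¹ ∈ A := (A.mem_or_inv_mem b).resolve_left hb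
    apply ha
    have : a = a * b * b⁻¹ := by field_simp
    rw [this]
    exact A.mul_mem _ _ hab hbi
  have key : ∀ m : ℕ, (σ ^ (m + 1)) c / c ∉ A := by
    intro m
    induction m with
    | zero => simpa using hx
    | succ m ih =>
      have h1 : (σ ^ (m + 1 + 1)) c / c = σ ((σ ^ (m + 1)) c / c) * (σ c / c) := by
        rw [pow_succ' σ (m + 1), AlgEquiv.mul_apply, map_div₀]
        have hσc : σ c ≠ 0 := (_root_.map_ne_zero _).2 hc
        field_simp
      rw [h1]
      exact hmul _ _ (fun h => ih ((hσ _).mpr h)) hx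
  obtain ⟨m, rfl⟩ := Nat.exists_eq_succ_of_ne_zero hn.ne'
  apply key m
  rw [hfix, div_self hc]
  exact A.one_mem

end InertiaGroup

/-- Two endomorphisms of a field which commute on a generating set commute. -/
theorem comm_of_closure_eq_top {F : Type*} [Field F] (f₁ f₂ : F →+* F) {S : Set F}
    (hS : Subfield.closure S = ⊤) (h : ∀ y ∈ S, f₁ (f₂ y) = f₂ (f₁ y)) (z : F) :
    f₁ (f₂ z) = f₂ (f₁ z) := by
  have hle : Subfield.closure S ≤ (f₁.comp f₂).eqLocusField (f₂.comp f₁) := by
    rw [Subfield.closure_le]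
    exact fun y hy => h y hy
  rw [hS] at hle
  exact hle (Subfield.mem_top z)

/-! ### The bad level -/

section Bad

variable {L : Type*} [Field L] [Algebra ℚ L] {A : ValuationSubring L} {k : Type} [Field k]
  {π : A →+* k} {M ℓ : ℕ} [NeZero M] [NeZero ℓ]
  {W : laurentBaseChange L (modularFunctionFieldFull (M * ℓ)) ≃ₐ[L]
    laurentBaseChange L (modularFunctionFieldFull (M * ℓ))}

/-- An inertial automorphism preserves `O_∞`. -/
theorem galois_mem_OInf (h : BadSetup A π M ℓ) {σ : L ≃ₐ[ℚ] L}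
    (hσ : Inertial A π (σ : L →+* L))
    {f : laurentBaseChange L (modularFunctionFieldFull (M * ℓ))} (hf : f ∈ OInf h) :
    arithmeticGalois (L := L) (modularFunctionFieldFull (M * ℓ)) σ • f ∈ OInf h :=
  hσ.coeffMap_mem_gaussRing hf

/-- An inertial automorphism acts trivially on the reduction at `∞`. -/
theorem redInf_galois (h : BadSetup A π M ℓ) {σ : L ≃ₐ[ℚ] L}
    (hσ : Inertial A π (σ : L →+* L))
    (f : laurentBaseChange L (modularFunctionFieldFull (M * ℓ))) (hf : f ∈ OInf h)
    (hf' : arithmeticGalois (L := L) (modularFunctionFieldFull (M * ℓ)) σ • f ∈ OInf h) :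
    redInf h ⟨arithmeticGalois (L := L) (modularFunctionFieldFull (M * ℓ)) σ • f, hf'⟩ =
      redInf h ⟨f, hf⟩ := by
  apply Subtype.ext
  rw [coe_redInf, coe_redInf]
  exact hσ.red_coeffMap hf hf'

/-- The Galois action commutes with the degeneracy map `α`. -/
theorem galois_heckeAlphaBar (σ : L ≃ₐ[ℚ] L)
    (x : laurentBaseChange L (modularFunctionFieldFull M)) :
    arithmeticGalois (L := L) (modularFunctionFieldFull (M * ℓ)) σ • heckeAlphaBar L M ℓ x =
      heckeAlphaBar L M ℓ (arithmeticGalois (L := L) (modularFunctionFieldFull M) σ • x) := by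
  apply Subtype.ext
  rw [coe_arithmeticGalois_smul, coe_heckeAlphaBar, coe_heckeAlphaBar, coe_arithmeticGalois_smul]

omit [NeZero M] in
/-- The Galois action commutes with the degeneracy map `β`. -/
theorem galois_heckeBetaBar (σ : L ≃ₐ[ℚ] L)
    (x : laurentBaseChange L (modularFunctionFieldFull M)) :
    arithmeticGalois (L := L) (modularFunctionFieldFull (M * ℓ)) σ • heckeBetaBar L M ℓ x =
      heckeBetaBar L M ℓ (arithmeticGalois (L := L) (modularFunctionFieldFull M) σ • x) := by
  apply Subtype.ext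
  rw [coe_arithmeticGalois_smul, coe_heckeBetaBar, coe_heckeBetaBar, coe_arithmeticGalois_smul,
    coeffMap_qExpand]

/-- The Galois action commutes with the Atkin–Lehner involution. -/
theorem IsAL.galois_comm (hW : IsAL M ℓ W) (hℓ : ℓ.Prime) (hℓM : ¬ ℓ ∣ M) (σ : L ≃ₐ[ℚ] L)
    (z : laurentBaseChange L (modularFunctionFieldFull (M * ℓ))) :
    W (arithmeticGalois (L := L) (modularFunctionFieldFull (M * ℓ)) σ • z) =
      arithmeticGalois (L := L) (modularFunctionFieldFull (M * ℓ)) σ • W z := by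
  refine comm_of_closure_eq_top W.toRingEquiv.toRingHom
    (SemilinearAut.toRingAut (arithmeticGalois (L := L) (modularFunctionFieldFull (M * ℓ)) σ)).toRingHom
    (closure_range_heckeAlphaBar_union L M ℓ hℓ hℓM) ?_ z
  rintro y (⟨x, rfl⟩ | hy)
  · exact (congrArg W (galois_heckeAlphaBar σ x)).trans ((hW.alpha _).trans
      ((galois_heckeBetaBar σ x).symm.trans
        (congrArg (fun t => arithmeticGalois (L := L) (modularFunctionFieldFull (M * ℓ)) σ • t)
          (hW.alpha x).symm)))
  · rw [Set.mem_singleton_iff] at hy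
    subst hy
    exact (congrArg W (galois_heckeBetaBar σ (jLevel L M))).trans ((hW.beta _).trans
      ((galois_heckeAlphaBar σ (jLevel L M)).symm.trans
        (congrArg (fun t => arithmeticGalois (L := L) (modularFunctionFieldFull (M * ℓ)) σ • t)
          (hW.beta (jLevel L M)).symm)))

/-- An inertial automorphism preserves `O_0`. -/
theorem galois_mem_OZero (h : BadSetup A π M ℓ) (hW : IsAL M ℓ W) {σ : L ≃ₐ[ℚ] L}
    (hσ : Inertial A π (σ : L →+* L))
    {f : laurentBaseChange L (modularFunctionFieldFull (M * ℓ))} (hf : f ∈ OZero h W) :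
    arithmeticGalois (L := L) (modularFunctionFieldFull (M * ℓ)) σ • f ∈ OZero h W := by
  rw [mem_OZero_iff, hW.galois_comm h.hℓ h.not_dvd]
  exact galois_mem_OInf h hσ hf

/-- An inertial automorphism acts trivially on the reduction at `0`. -/
theorem redZero_galois (h : BadSetup A π M ℓ) (hW : IsAL M ℓ W) {σ : L ≃ₐ[ℚ] L}
    (hσ : Inertial A π (σ : L →+* L))
    (f : laurentBaseChange L (modularFunctionFieldFull (M * ℓ))) (hf : f ∈ OZero h W)
    (hf' : arithmeticGalois (L := L) (modularFunctionFieldFull (M * ℓ)) σ • f ∈ OZero h W) :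
    redZero h W ⟨arithmeticGalois (L := L) (modularFunctionFieldFull (M * ℓ)) σ • f, hf'⟩ =
      redZero h W ⟨f, hf⟩ := by
  rw [redZero_mk, redZero_mk]
  have e := hW.galois_comm h.hℓ h.not_dvd σ f
  rw [redInf_congr h e hf' (galois_mem_OInf h hσ hf)]
  exact redInf_galois h hσ (W f) hf _

/-- `σ c / c` is a unit of `O_∞` (for `L/ℚ` algebraic and `σ` preserving `A`). -/
theorem galois_const_mem (h : BadSetup A π M ℓ) [Algebra.IsAlgebraic ℚ L] (σ : L ≃ₐ[ℚ] L)
    (hσ : ∀ a : L, a ∈ A ↔ σ a ∈ A) (c : L) (hc : c ≠ 0) :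
    algebraMap L (laurentBaseChange L (modularFunctionFieldFull (M * ℓ)))
      (SemilinearAut.baseAut (arithmeticGalois (L := L) (modularFunctionFieldFull (M * ℓ)) σ) c / c)
      ∈ OInf h := by
  rw [algebraMap_mem_OInf_iff]
  exact decomp_div_mem σ hσ c hc

/-- The Galois action fixes `J(q^N)`. -/
theorem galois_smul_xL (σ : L ≃ₐ[ℚ] L) (N : ℕ) [NeZero N] :
    arithmeticGalois (L := L) (modularFunctionFieldFull N) σ • xL L N = xL L N := by
  apply Subtype.ext
  rw [coe_arithmeticGalois_smul, coe_xL, TD.coeffMap_Jd]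

/-- The Galois action fixes `J`. -/
theorem galois_smul_jLevel (σ : L ≃ₐ[ℚ] L) (N : ℕ) [NeZero N] :
    arithmeticGalois (L := L) (modularFunctionFieldFull N) σ • jLevel L N = jLevel L N := by
  apply Subtype.ext
  rw [coe_arithmeticGalois_smul, coe_jLevel, TD.coeffMap_Jd]

/-- **The inertia group fixes both special fibres** (the fields `mem₁`, `mem₂`, `red_eq₁`,
`red_eq₂`, `const` of `FixesFibre` for `O₁ = O_∞`, `O₂ = O_0`). -/
theorem fixes_of_inertial (h : BadSetup A π M ℓ) (hW : IsAL M ℓ W) [Algebra.IsAlgebraic ℚ L]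
    {σ : L ≃ₐ[ℚ] L} (hσ : Inertial A π (σ : L →+* L)) (hσA : ∀ a : L, a ∈ A ↔ σ a ∈ A) :
    (∀ f : laurentBaseChange L (modularFunctionFieldFull (M * ℓ)), f ∈ OInf h →
      arithmeticGalois (L := L) (modularFunctionFieldFull (M * ℓ)) σ • f ∈ OInf h) ∧
    (∀ f : laurentBaseChange L (modularFunctionFieldFull (M * ℓ)), f ∈ OZero h W →
      arithmeticGalois (L := L) (modularFunctionFieldFull (M * ℓ)) σ • f ∈ OZero h W) ∧
    (∀ (f : laurentBaseChange L (modularFunctionFieldFull (M * ℓ))) (hf : f ∈ OInf h)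
      (hf' : arithmeticGalois (L := L) (modularFunctionFieldFull (M * ℓ)) σ • f ∈ OInf h),
      redInf h ⟨arithmeticGalois (L := L) (modularFunctionFieldFull (M * ℓ)) σ • f, hf'⟩ =
        redInf h ⟨f, hf⟩) ∧
    (∀ (f : laurentBaseChange L (modularFunctionFieldFull (M * ℓ))) (hf : f ∈ OZero h W)
      (hf' : arithmeticGalois (L := L) (modularFunctionFieldFull (M * ℓ)) σ • f ∈ OZero h W),
      redZero h W ⟨arithmeticGalois (L := L) (modularFunctionFieldFull (M * ℓ)) σ • f, hf'⟩ =
        redZero h W ⟨f, hf⟩) ∧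
    (∀ c : L, c ≠ 0 →
      algebraMap L (laurentBaseChange L (modularFunctionFieldFull (M * ℓ)))
        (SemilinearAut.baseAut (arithmeticGalois (L := L) (modularFunctionFieldFull (M * ℓ)) σ) c / c)
        ∈ OInf h) :=
  ⟨fun _ hf => galois_mem_OInf h hσ hf, fun _ hf => galois_mem_OZero h hW hσ hf,
    fun f hf hf' => redInf_galois h hσ f hf hf',
    fun f hf hf' => redZero_galois h hW hσ f hf hf',
    fun c hc => galois_const_mem h σ hσA c hc⟩

/-- The same for an element of the inertia group of `A`. -/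
theorem fixes_of_mem_inertia (h : BadSetup A π M ℓ) (hW : IsAL M ℓ W) [Algebra.IsAlgebraic ℚ L]
    {σ : L ≃ₐ[ℚ] L} (hσ : σ ∈ A.inertiaSubgroupIn ℚ) :
    (∀ f : laurentBaseChange L (modularFunctionFieldFull (M * ℓ)), f ∈ OInf h →
      arithmeticGalois (L := L) (modularFunctionFieldFull (M * ℓ)) σ • f ∈ OInf h) ∧
    (∀ f : laurentBaseChange L (modularFunctionFieldFull (M * ℓ)), f ∈ OZero h W →
      arithmeticGalois (L := L) (modularFunctionFieldFull (M * ℓ)) σ • f ∈ OZero h W) ∧
    (∀ (f : laurentBaseChange L (modularFunctionFieldFull (M * ℓ))) (hf : f ∈ OInf h)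
      (hf' : arithmeticGalois (L := L) (modularFunctionFieldFull (M * ℓ)) σ • f ∈ OInf h),
      redInf h ⟨arithmeticGalois (L := L) (modularFunctionFieldFull (M * ℓ)) σ • f, hf'⟩ =
        redInf h ⟨f, hf⟩) ∧
    (∀ (f : laurentBaseChange L (modularFunctionFieldFull (M * ℓ))) (hf : f ∈ OZero h W)
      (hf' : arithmeticGalois (L := L) (modularFunctionFieldFull (M * ℓ)) σ • f ∈ OZero h W),
      redZero h W ⟨arithmeticGalois (L := L) (modularFunctionFieldFull (M * ℓ)) σ • f, hf'⟩ =
        redZero h W ⟨f, hf⟩) ∧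
    (∀ c : L, c ≠ 0 →
      algebraMap L (laurentBaseChange L (modularFunctionFieldFull (M * ℓ)))
        (SemilinearAut.baseAut (arithmeticGalois (L := L) (modularFunctionFieldFull (M * ℓ)) σ) c / c)
        ∈ OInf h) :=
  fixes_of_inertial h hW (inertial_of_mem_inertia h.hπ hσ) (mem_iff_of_mem_inertia hσ)

end Bad

end

end Fermat.Agent.BAD.TwoVal
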