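/-
BAD / two-valuation layer: the standing hypotheses `BadSetup` hold for every valuation subring of
`ℚ̄` lying over the prime `ℓ` (rank one: `Lib/Red/RankOne.lean`).
-/
import Mathlib
import Fermat.Agent.Lib.Red.RankOne
import Fermat.Agent.BAD.TwoVal.Pair

set_option autoImplicit false

namespace Fermat.Agent.BAD.TwoVal

local notation "Qbar" => AlgebraicClosure ℚ

/-- Rank one: in a valuation subring of `ℚ̄` over a prime, every nonzero element divides a power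
of every non-unit. -/
theorem hrank_of_liesOver (A : ValuationSubring Qbar) {ℓ : ℕ} (hℓ : ℓ.Prime)
    (hA : A.LiesOverPrime ℓ) :
    ∀ d e : A, ¬ IsUnit d → e ≠ 0 → ∃ r : ℕ, e ∣ d ^ r := by
  intro d e hd he
  by_cases hd0 : d = 0
  · exact ⟨1, by rw [hd0, pow_one]; exact dvd_zero e⟩
  have hd0' : (d : Qbar) ≠ 0 := fun h => hd0 (Subtype.ext h)
  have he' : (e : Qbar) ≠ 0 := fun h => he (Subtype.ext h)
  have hdinv : (d : Qbar)⁻¹ ∉ A := by
    intro hmem
    apply hd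
    exact IsUnit.of_mul_eq_one (⟨(d : Qbar)⁻¹, hmem⟩ : A) (Subtype.ext (mul_inv_cancel₀ hd0'))
  obtain ⟨n, hn⟩ := Fermat.Agent.Lib.Red.RankOne.exists_pow_mul_mem A hℓ hA (d : Qbar)
    (e : Qbar) d.2 hdinv he'
  refine ⟨n, ⟨⟨_, hn⟩, ?_⟩⟩
  apply Subtype.ext
  show (d : Qbar) ^ n = (e : Qbar) * ((d : Qbar) ^ n * (e : Qbar)⁻¹)
  rw [mul_comm ((d : Qbar) ^ n), ← mul_assoc, mul_inv_cancel₀ he', one_mul]

/-- The prime `ℓ` vanishes in the residue field of a valuation subring lying over `ℓ`. -/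
theorem natCast_eq_zero_of_liesOver {L : Type*} [Field L] (A : ValuationSubring L) {k : Type*}
    [Field k] (π : A →+* k) (hπ : ∀ a : A, ¬ IsUnit a → π a = 0) {ℓ : ℕ}
    (hA : A.LiesOverPrime ℓ) : (ℓ : k) = 0 := by
  have h1 : ¬ IsUnit ((ℓ : ℕ) : A) := by
    intro hu
    obtain ⟨u, hu⟩ := hu
    have h2 : (ℓ : L) ∈ A.nonunits := hA
    rw [ValuationSubring.mem_nonunits_iff] at h2
    have h3 : A.valuation (((ℓ : ℕ) : A) : L) = 1 := by
      rw [← hu]
      exact (ValuationSubring.valuation_eq_one_iff A _).mp u.isUnit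
    have h4 : (((ℓ : ℕ) : A) : L) = (ℓ : L) := by push_cast; rfl
    rw [h4] at h3
    rw [h3] at h2
    exact lt_irrefl _ h2
  have := hπ _ h1
  rwa [map_natCast] at this

/-- `BadSetup` for a valuation subring of `ℚ̄` lying over `ℓ` and a level prime to `ℓ`. -/
theorem badSetup_of_liesOver (A : ValuationSubring Qbar) {k : Type} [Field k] (π : A →+* k)
    (hπ : ∀ a : A, ¬ IsUnit a → π a = 0) (M ℓ : ℕ) (hℓ : ℓ.Prime) (hA : A.LiesOverPrime ℓ)
    (hℓM : ¬ ℓ ∣ M) : BadSetup A π M ℓ := by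
  have hℓk : (ℓ : k) = 0 := natCast_eq_zero_of_liesOver A π hπ hA
  have : CharP k ℓ := (CharP.charP_iff_prime_eq_zero hℓ).mpr hℓk
  exact ⟨hπ, hrank_of_liesOver A hℓ hA, hℓ, hℓk, fun h0 => hℓM ((CharP.cast_eq_zero_iff k ℓ M).mp h0)⟩

end Fermat.Agent.BAD.TwoVal
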