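/-
BAD / two-valuation layer: the chart elements of the bad-level function field `F_{Mℓ}`.

With `y = J(q^M)` (helper90's `xL L M`) the base function of level `M`:

* `Y1 = α y = J(q^M)`, `Y2 = β y = J(q^(Mℓ))`, the Čech coordinate `chartX = Y1 * Y2`,
  `chartZ = x^ℓ - x - 1`, `chartE = Y2 / Y1^ℓ`;
* `HasRed h W f a b` : `f ∈ O = O_∞ ∩ O_0` and `red f = (a, b)`; closed under the ring operations,
  inverses (for `a, b ≠ 0`) and polynomial evaluation (`HasRed.aeval_map`);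
* reductions (`ȳ = xk k M`): `Y1 ↦ (ȳ, ȳ^ℓ)`, `Y2 ↦ (ȳ^ℓ, ȳ)`, `x ↦ (ȳ^(ℓ+1), ȳ^(ℓ+1))`,
  `z ↦ (c, c)` with `c = (ȳ^(ℓ+1))^ℓ - ȳ^(ℓ+1) - 1`, `e ↦ (1, ȳ / (ȳ^ℓ)^ℓ)`; `Y1, Y2, x, e` are
  units of `O`;
* `x - c`, `1 - t x` (`c, t ∈ A`) are units of `O` (`hu1`, `hu2` of the lattice lemmas, in both
  shapes), `x` is transcendental over `L` (`aeval_chartX_ne_zero`);
* the Atkin–Lehner involution swaps `Y1, Y2` and fixes `x, z`; the Galois action fixes
  `Y1, Y2, x, z, e`.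
-/
import Mathlib
import Fermat.Agent.BAD.TwoVal.GaloisPair

set_option autoImplicit false

namespace Fermat.Agent.BAD.TwoVal

open HahnSeries ModularCurve Polynomial AlgebraicCurve Fermat.Agent.Lib.Red Fermat.Agent.S28
open Fermat.Agent.ESJ.Cong.LevelGen

noncomputable section

/- Speed only: try the instance that succeeds first (the elaborated terms are unchanged). -/
attribute [local instance 100000] SubalgebraClass.toAlgebra

variable {L : Type*} [Field L] [Algebra ℚ L] {A : ValuationSubring L} {k : Type} [Field k]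
  {π : A →+* k} {M ℓ : ℕ} [NeZero M] [NeZero ℓ]
  {W : laurentBaseChange L (modularFunctionFieldFull (M * ℓ)) ≃ₐ[L]
    laurentBaseChange L (modularFunctionFieldFull (M * ℓ))}

/-! ### `HasRed`: membership in `O` with prescribed reductions -/

/-- `f ∈ O = O_∞ ∩ O_0` and `red f = (a, b)`. -/
def HasRed (h : BadSetup A π M ℓ)
    (W : laurentBaseChange L (modularFunctionFieldFull (M * ℓ)) ≃ₐ[L]
      laurentBaseChange L (modularFunctionFieldFull (M * ℓ)))
    (f : laurentBaseChange L (modularFunctionFieldFull (M * ℓ)))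
    (a b : modularFunctionFieldFullC k M) : Prop :=
  ∃ hf : f ∈ OPair h W, redPair h W ⟨f, hf⟩ = (a, b)

theorem hasRed_iff (h : BadSetup A π M ℓ)
    (f : laurentBaseChange L (modularFunctionFieldFull (M * ℓ)))
    (a b : modularFunctionFieldFullC k M) :
    HasRed h W f a b ↔ ∃ (h1 : f ∈ OInf h) (h2 : f ∈ OZero h W),
      redInf h ⟨f, h1⟩ = a ∧ redZero h W ⟨f, h2⟩ = b := by
  constructor
  · rintro ⟨hf, e⟩
    rw [redPair_mk, Prod.mk.injEq] at e
    exact ⟨((mem_OPair_iff h f).mp hf).1, ((mem_OPair_iff h f).mp hf).2, e.1, e.2⟩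
  · rintro ⟨h1, h2, e1, e2⟩
    refine ⟨(mem_OPair_iff h f).mpr ⟨h1, h2⟩, ?_⟩
    rw [redPair_mk, Prod.mk.injEq]
    exact ⟨e1, e2⟩

theorem HasRed.mem {h : BadSetup A π M ℓ}
    {f : laurentBaseChange L (modularFunctionFieldFull (M * ℓ))}
    {a b : modularFunctionFieldFullC k M} (hf : HasRed h W f a b) : f ∈ OPair h W := hf.1

theorem HasRed.mem_OInf {h : BadSetup A π M ℓ}
    {f : laurentBaseChange L (modularFunctionFieldFull (M * ℓ))}
    {a b : modularFunctionFieldFullC k M} (hf : HasRed h W f a b) : f ∈ OInf h :=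
  ((mem_OPair_iff h f).mp hf.1).1

theorem HasRed.mem_OZero {h : BadSetup A π M ℓ}
    {f : laurentBaseChange L (modularFunctionFieldFull (M * ℓ))}
    {a b : modularFunctionFieldFullC k M} (hf : HasRed h W f a b) : f ∈ OZero h W :=
  ((mem_OPair_iff h f).mp hf.1).2

theorem HasRed.redPair_eq {h : BadSetup A π M ℓ}
    {f : laurentBaseChange L (modularFunctionFieldFull (M * ℓ))}
    {a b : modularFunctionFieldFullC k M} (hf : HasRed h W f a b) (hm : f ∈ OPair h W) :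
    redPair h W ⟨f, hm⟩ = (a, b) := hf.2

theorem HasRed.redInf_eq {h : BadSetup A π M ℓ}
    {f : laurentBaseChange L (modularFunctionFieldFull (M * ℓ))}
    {a b : modularFunctionFieldFullC k M} (hf : HasRed h W f a b) (hm : f ∈ OInf h) :
    redInf h ⟨f, hm⟩ = a := by
  obtain ⟨h1, h2, e1, e2⟩ := (hasRed_iff h f a b).mp hf
  exact e1

theorem HasRed.redZero_eq {h : BadSetup A π M ℓ}
    {f : laurentBaseChange L (modularFunctionFieldFull (M * ℓ))}
    {a b : modularFunctionFieldFullC k M} (hf : HasRed h W f a b) (hm : f ∈ OZero h W) :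
    redZero h W ⟨f, hm⟩ = b := by
  obtain ⟨h1, h2, e1, e2⟩ := (hasRed_iff h f a b).mp hf
  exact e2

theorem HasRed.congr {h : BadSetup A π M ℓ}
    {f : laurentBaseChange L (modularFunctionFieldFull (M * ℓ))}
    {a b a' b' : modularFunctionFieldFullC k M} (hf : HasRed h W f a b) (ha : a = a')
    (hb : b = b') : HasRed h W f a' b' := by
  subst ha hb
  exact hf

theorem hasRed_zero (h : BadSetup A π M ℓ) : HasRed h W 0 0 0 :=
  ⟨zero_mem _, map_zero (redPair h W)⟩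

theorem hasRed_one (h : BadSetup A π M ℓ) : HasRed h W 1 1 1 :=
  ⟨one_mem _, map_one (redPair h W)⟩

theorem HasRed.add {h : BadSetup A π M ℓ}
    {f g : laurentBaseChange L (modularFunctionFieldFull (M * ℓ))}
    {a b c d : modularFunctionFieldFullC k M} (hf : HasRed h W f a b) (hg : HasRed h W g c d) :
    HasRed h W (f + g) (a + c) (b + d) := by
  obtain ⟨hf, ef⟩ := hf
  obtain ⟨hg, eg⟩ := hg
  refine ⟨add_mem hf hg, ?_⟩
  have e : (⟨f + g, add_mem hf hg⟩ : OPair h W) = ⟨f, hf⟩ + ⟨g, hg⟩ := rfl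
  rw [e, map_add, ef, eg]
  rfl

theorem HasRed.mul {h : BadSetup A π M ℓ}
    {f g : laurentBaseChange L (modularFunctionFieldFull (M * ℓ))}
    {a b c d : modularFunctionFieldFullC k M} (hf : HasRed h W f a b) (hg : HasRed h W g c d) :
    HasRed h W (f * g) (a * c) (b * d) := by
  obtain ⟨hf, ef⟩ := hf
  obtain ⟨hg, eg⟩ := hg
  refine ⟨mul_mem hf hg, ?_⟩
  have e : (⟨f * g, mul_mem hf hg⟩ : OPair h W) = ⟨f, hf⟩ * ⟨g, hg⟩ := rfl
  rw [e, map_mul, ef, eg]
  rfl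

theorem HasRed.neg {h : BadSetup A π M ℓ}
    {f : laurentBaseChange L (modularFunctionFieldFull (M * ℓ))}
    {a b : modularFunctionFieldFullC k M} (hf : HasRed h W f a b) :
    HasRed h W (-f) (-a) (-b) := by
  obtain ⟨hf, ef⟩ := hf
  refine ⟨neg_mem hf, ?_⟩
  have e : (⟨-f, neg_mem hf⟩ : OPair h W) = -⟨f, hf⟩ := rfl
  rw [e, map_neg, ef]
  rfl

theorem HasRed.sub {h : BadSetup A π M ℓ}
    {f g : laurentBaseChange L (modularFunctionFieldFull (M * ℓ))}
    {a b c d : modularFunctionFieldFullC k M} (hf : HasRed h W f a b) (hg : HasRed h W g c d) :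
    HasRed h W (f - g) (a - c) (b - d) := by
  rw [sub_eq_add_neg, sub_eq_add_neg, sub_eq_add_neg]
  exact hf.add hg.neg

theorem HasRed.pow {h : BadSetup A π M ℓ}
    {f : laurentBaseChange L (modularFunctionFieldFull (M * ℓ))}
    {a b : modularFunctionFieldFullC k M} (hf : HasRed h W f a b) (n : ℕ) :
    HasRed h W (f ^ n) (a ^ n) (b ^ n) := by
  induction n with
  | zero =>
    rw [pow_zero, pow_zero, pow_zero]
    exact hasRed_one h
  | succ n ih =>
    rw [pow_succ, pow_succ, pow_succ]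
    exact ih.mul hf

/-- Constants of `A`. -/
theorem hasRed_algebraMap (h : BadSetup A π M ℓ) (a : A) :
    HasRed h W (algebraMap L (laurentBaseChange L (modularFunctionFieldFull (M * ℓ))) (a : L))
      (algebraMap k (modularFunctionFieldFullC k M) (π a))
      (algebraMap k (modularFunctionFieldFullC k M) (π a)) :=
  ⟨(OPair_hOA h (a : L)).mpr a.2, redPair_algebraMap h a _⟩

/-- Inverses of elements with nonzero reductions. -/
theorem HasRed.inv {h : BadSetup A π M ℓ}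
    {f : laurentBaseChange L (modularFunctionFieldFull (M * ℓ))}
    {a b : modularFunctionFieldFullC k M} (hf : HasRed h W f a b) (ha : a ≠ 0) (hb : b ≠ 0) :
    HasRed h W f⁻¹ a⁻¹ b⁻¹ := by
  obtain ⟨h1, h2, e1, e2⟩ := (hasRed_iff h f a b).mp hf
  have i1 : f⁻¹ ∈ OInf h := inv_mem_OInf h f h1 (by rw [e1]; exact ha)
  have i2 : f⁻¹ ∈ OZero h W := inv_mem_OZero h f h2 (by rw [e2]; exact hb)
  have hf0 : f ≠ 0 := by
    rintro rfl
    apply ha
    rw [← e1]
    exact map_zero (redInf h)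
  refine (hasRed_iff h f⁻¹ a⁻¹ b⁻¹).mpr ⟨i1, i2, ?_, ?_⟩
  · have hmul : (⟨f⁻¹, i1⟩ : OInf h) * ⟨f, h1⟩ = 1 := Subtype.ext (inv_mul_cancel₀ hf0)
    have := congrArg (redInf h) hmul
    rw [map_mul, map_one, e1] at this
    exact eq_inv_of_mul_eq_one_left this
  · have hmul : (⟨f⁻¹, i2⟩ : OZero h W) * ⟨f, h2⟩ = 1 := Subtype.ext (inv_mul_cancel₀ hf0)
    have := congrArg (redZero h W) hmul
    rw [map_mul, map_one, e2] at this
    exact eq_inv_of_mul_eq_one_left this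

theorem HasRed.div {h : BadSetup A π M ℓ}
    {f g : laurentBaseChange L (modularFunctionFieldFull (M * ℓ))}
    {a b c d : modularFunctionFieldFullC k M} (hf : HasRed h W f a b) (hg : HasRed h W g c d)
    (hc : c ≠ 0) (hd : d ≠ 0) : HasRed h W (f / g) (a / c) (b / d) := by
  rw [div_eq_mul_inv, div_eq_mul_inv, div_eq_mul_inv]
  exact hf.mul (hg.inv hc hd)

/-- An element with nonzero reductions is cancellable in `O`. -/
theorem HasRed.mem_of_mul_mem {h : BadSetup A π M ℓ}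
    {f : laurentBaseChange L (modularFunctionFieldFull (M * ℓ))}
    {a b : modularFunctionFieldFullC k M} (hf : HasRed h W f a b) (ha : a ≠ 0) (hb : b ≠ 0)
    (v : laurentBaseChange L (modularFunctionFieldFull (M * ℓ))) (hv : f * v ∈ OPair h W) :
    v ∈ OPair h W := by
  have hi := (hf.inv ha hb).mem
  have hf0 : f ≠ 0 := by
    rintro rfl
    apply ha
    rw [← hf.redInf_eq hf.mem_OInf]
    exact map_zero (redInf h)
  have e : v = f⁻¹ * (f * v) := by
    rw [← mul_assoc, inv_mul_cancel₀ hf0, one_mul]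
  rw [e]
  exact mul_mem hi hv

set_option synthInstance.maxHeartbeats 400000 in
/-- Polynomials with coefficients in `A`. -/
theorem HasRed.aeval_map {h : BadSetup A π M ℓ}
    {f : laurentBaseChange L (modularFunctionFieldFull (M * ℓ))}
    {a b : modularFunctionFieldFullC k M} (hf : HasRed h W f a b) (P : Polynomial A) :
    HasRed h W (Polynomial.aeval f (P.map A.subtype)) (Polynomial.aeval a (P.map π))
      (Polynomial.aeval b (P.map π)) := by
  induction P using Polynomial.induction_on' with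
  | add p q hp hq =>
    rw [Polynomial.map_add, Polynomial.map_add, map_add, map_add, map_add]
    exact hp.add hq
  | monomial n c =>
    rw [Polynomial.map_monomial, Polynomial.map_monomial, Polynomial.aeval_monomial,
      Polynomial.aeval_monomial, Polynomial.aeval_monomial]
    exact (hasRed_algebraMap h c).mul (hf.pow n)

/-! ### The degeneracy images of a function with rational reduction -/

/-- `α x` has reductions `(x̄, x̄^ℓ)` when `x̄(q^ℓ) = x̄^ℓ`. -/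
theorem hasRed_alpha (h : BadSetup A π M ℓ) (hW : IsAL M ℓ W)
    (x : laurentBaseChange L (modularFunctionFieldFull M)) (hx : x ∈ Ow A π M h.hMk)
    (hrat : qExpand k ℓ ((redF A π M h.hπ h.hMk ⟨x, hx⟩ : modularFunctionFieldFullC k M) :
        LaurentSeries k) =
      ((redF A π M h.hπ h.hMk ⟨x, hx⟩ : modularFunctionFieldFullC k M) : LaurentSeries k) ^ ℓ) :
    HasRed h W (heckeAlphaBar L M ℓ x) (redF A π M h.hπ h.hMk ⟨x, hx⟩)
      (redF A π M h.hπ h.hMk ⟨x, hx⟩ ^ ℓ) := by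
  have h1 : heckeAlphaBar L M ℓ x ∈ OInf h := (heckeAlphaBar_mem_OInf_iff h x).mpr hx
  have h2 : heckeAlphaBar L M ℓ x ∈ OZero h W := (heckeAlphaBar_mem_OZero_iff h hW x).mpr hx
  refine (hasRed_iff h _ _ _).mpr ⟨h1, h2, redInf_heckeAlphaBar h x hx h1, ?_⟩
  apply Subtype.ext
  rw [coe_redZero_heckeAlphaBar h hW x hx h2, hrat]
  rfl

/-- `β x` has reductions `(x̄^ℓ, x̄)` when `x̄(q^ℓ) = x̄^ℓ`. -/
theorem hasRed_beta (h : BadSetup A π M ℓ) (hW : IsAL M ℓ W)
    (x : laurentBaseChange L (modularFunctionFieldFull M)) (hx : x ∈ Ow A π M h.hMk)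
    (hrat : qExpand k ℓ ((redF A π M h.hπ h.hMk ⟨x, hx⟩ : modularFunctionFieldFullC k M) :
        LaurentSeries k) =
      ((redF A π M h.hπ h.hMk ⟨x, hx⟩ : modularFunctionFieldFullC k M) : LaurentSeries k) ^ ℓ) :
    HasRed h W (heckeBetaBar L M ℓ x) (redF A π M h.hπ h.hMk ⟨x, hx⟩ ^ ℓ)
      (redF A π M h.hπ h.hMk ⟨x, hx⟩) := by
  have h1 : heckeBetaBar L M ℓ x ∈ OInf h := (heckeBetaBar_mem_OInf_iff h x).mpr hx
  have h2 : heckeBetaBar L M ℓ x ∈ OZero h W := (heckeBetaBar_mem_OZero_iff h hW x).mpr hx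
  exact (hasRed_iff h _ _ _).mpr ⟨h1, h2, redInf_heckeBetaBar_of_rat h x hx hrat h1,
    redZero_heckeBetaBar h hW x hx h2⟩

omit [Algebra ℚ L] in
/-- `J̄(q^M)` is `𝔽_ℓ`-rational: `J̄(q^(Mℓ)) = J̄(q^M)^ℓ`. -/
theorem Jd_rat (h : BadSetup A π M ℓ) :
    qExpand k ℓ (TD.Jd k M) = TD.Jd k M ^ ℓ := by
  have : Fact ℓ.Prime := ⟨h.hℓ⟩
  have : CharP k ℓ := h.charP
  have e1 : TD.Jd k M = qExpand k M (TD.Jd k 1) := by
    rw [TD.qExpand_Jd k M 1 one_ne_zero, mul_one]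
  rw [TD.qExpand_Jd k ℓ M (NeZero.ne M)]
  conv_rhs => rw [e1, ← map_pow, ← Fermat.Agent.ESJ.Kronecker.Jd_pow_char k ℓ,
    TD.qExpand_Jd k M ℓ (NeZero.ne ℓ)]
  rw [mul_comm]

/-- The reduction of `J(q^M)` is `𝔽_ℓ`-rational. -/
theorem xL_rat (h : BadSetup A π M ℓ) :
    qExpand k ℓ ((redF A π M h.hπ h.hMk ⟨xL L M, xL_mem_Ow h.hMk⟩ :
        modularFunctionFieldFullC k M) : LaurentSeries k) =
      ((redF A π M h.hπ h.hMk ⟨xL L M, xL_mem_Ow h.hMk⟩ : modularFunctionFieldFullC k M) :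
        LaurentSeries k) ^ ℓ := by
  rw [redF_xL h.hπ h.hMk, coe_xk]
  exact Jd_rat h

/-! ### The chart elements -/

variable (L M ℓ) in
/-- `Y₁ = α(J(q^M))`: the function `J(q^M)` at level `Mℓ`. -/
def Y1 : laurentBaseChange L (modularFunctionFieldFull (M * ℓ)) :=
  heckeAlphaBar L M ℓ (xL L M)

variable (L M ℓ) in
/-- `Y₂ = β(J(q^M))`: the function `J(q^(Mℓ))`. -/
def Y2 : laurentBaseChange L (modularFunctionFieldFull (M * ℓ)) :=
  heckeBetaBar L M ℓ (xL L M)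

variable (L M ℓ) in
/-- The Čech coordinate `x = Y₁ Y₂`. -/
def chartX : laurentBaseChange L (modularFunctionFieldFull (M * ℓ)) :=
  Y1 L M ℓ * Y2 L M ℓ

variable (L M ℓ) in
/-- The bi-unit `z = x^ℓ - x - 1`. -/
def chartZ : laurentBaseChange L (modularFunctionFieldFull (M * ℓ)) :=
  chartX L M ℓ ^ ℓ - chartX L M ℓ - 1

variable (L M ℓ) in
/-- The cusp-separating element `e = Y₂ / Y₁^ℓ`. -/
def chartE : laurentBaseChange L (modularFunctionFieldFull (M * ℓ)) :=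
  Y2 L M ℓ / Y1 L M ℓ ^ ℓ

variable (k M ℓ) in
/-- The common reduction `c = x̄^ℓ - x̄ - 1`, `x̄ = ȳ^(ℓ+1)`, of `z`. -/
def chartC : modularFunctionFieldFullC k M :=
  (xk k M ^ (ℓ + 1)) ^ ℓ - xk k M ^ (ℓ + 1) - 1

theorem coe_Y1 : ((Y1 L M ℓ : laurentBaseChange L (modularFunctionFieldFull (M * ℓ))) :
    LaurentSeries L) = TD.Jd L M := by
  rw [Y1, coe_heckeAlphaBar, coe_xL]

theorem coe_Y2 : ((Y2 L M ℓ : laurentBaseChange L (modularFunctionFieldFull (M * ℓ))) :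
    LaurentSeries L) = TD.Jd L (ℓ * M) := by
  rw [Y2, coe_heckeBetaBar, coe_xL, TD.qExpand_Jd L ℓ M (NeZero.ne M)]

theorem hasRed_Y1 (h : BadSetup A π M ℓ) (hW : IsAL M ℓ W) :
    HasRed h W (Y1 L M ℓ) (xk k M) (xk k M ^ ℓ) :=
  (hasRed_alpha h hW (xL L M) (xL_mem_Ow h.hMk) (xL_rat h)).congr (redF_xL h.hπ h.hMk)
    (by rw [redF_xL h.hπ h.hMk])

theorem hasRed_Y2 (h : BadSetup A π M ℓ) (hW : IsAL M ℓ W) :
    HasRed h W (Y2 L M ℓ) (xk k M ^ ℓ) (xk k M) :=
  (hasRed_beta h hW (xL L M) (xL_mem_Ow h.hMk) (xL_rat h)).congr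
    (by rw [redF_xL h.hπ h.hMk]) (redF_xL h.hπ h.hMk)

theorem hasRed_chartX (h : BadSetup A π M ℓ) (hW : IsAL M ℓ W) :
    HasRed h W (chartX L M ℓ) (xk k M ^ (ℓ + 1)) (xk k M ^ (ℓ + 1)) :=
  ((hasRed_Y1 h hW).mul (hasRed_Y2 h hW)).congr (by rw [pow_succ']) (by rw [pow_succ])

theorem hasRed_chartZ (h : BadSetup A π M ℓ) (hW : IsAL M ℓ W) :
    HasRed h W (chartZ L M ℓ) (chartC k M ℓ) (chartC k M ℓ) :=
  (((hasRed_chartX h hW).pow ℓ).sub (hasRed_chartX h hW)).sub (hasRed_one h)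

omit [NeZero ℓ] in
theorem xk_ne_zero : xk k M ≠ 0 := by
  intro h0
  have := transcendental_xk (k := k) M
  rw [h0] at this
  exact this (isAlgebraic_zero)

theorem hasRed_inv_Y1 (h : BadSetup A π M ℓ) (hW : IsAL M ℓ W) :
    HasRed h W (Y1 L M ℓ)⁻¹ (xk k M)⁻¹ (xk k M ^ ℓ)⁻¹ :=
  (hasRed_Y1 h hW).inv xk_ne_zero (pow_ne_zero _ xk_ne_zero)

theorem hasRed_inv_Y2 (h : BadSetup A π M ℓ) (hW : IsAL M ℓ W) :
    HasRed h W (Y2 L M ℓ)⁻¹ (xk k M ^ ℓ)⁻¹ (xk k M)⁻¹ :=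
  (hasRed_Y2 h hW).inv (pow_ne_zero _ xk_ne_zero) xk_ne_zero

theorem hasRed_inv_chartX (h : BadSetup A π M ℓ) (hW : IsAL M ℓ W) :
    HasRed h W (chartX L M ℓ)⁻¹ (xk k M ^ (ℓ + 1))⁻¹ (xk k M ^ (ℓ + 1))⁻¹ :=
  (hasRed_chartX h hW).inv (pow_ne_zero _ xk_ne_zero) (pow_ne_zero _ xk_ne_zero)

/-- `e = Y₂ / Y₁^ℓ` has reductions `(1, ȳ / ȳ^(ℓ²))`. -/
theorem hasRed_chartE (h : BadSetup A π M ℓ) (hW : IsAL M ℓ W) :
    HasRed h W (chartE L M ℓ) 1 (xk k M / (xk k M ^ ℓ) ^ ℓ) :=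
  ((hasRed_Y2 h hW).div ((hasRed_Y1 h hW).pow ℓ) (pow_ne_zero _ xk_ne_zero)
    (pow_ne_zero _ (pow_ne_zero _ xk_ne_zero))).congr
    (div_self (pow_ne_zero _ xk_ne_zero)) rfl

theorem hasRed_inv_chartE (h : BadSetup A π M ℓ) (hW : IsAL M ℓ W) :
    HasRed h W (chartE L M ℓ)⁻¹ 1 (xk k M / (xk k M ^ ℓ) ^ ℓ)⁻¹ :=
  ((hasRed_chartE h hW).inv one_ne_zero (div_ne_zero xk_ne_zero
    (pow_ne_zero _ (pow_ne_zero _ xk_ne_zero)))).congr inv_one rfl

/-! ### `x - c` and `1 - t x` are units of `O`; `x` is transcendental -/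

omit [NeZero ℓ] in
theorem transcendental_xk_pow (n : ℕ) (hn : 0 < n) : Transcendental k (xk k M ^ n) :=
  (transcendental_xk (k := k) M).pow hn

set_option synthInstance.maxHeartbeats 400000 in
omit [NeZero ℓ] in
theorem xk_pow_sub_ne_zero (n : ℕ) (hn : 0 < n) (c : k) :
    xk k M ^ n - algebraMap k (modularFunctionFieldFullC k M) c ≠ 0 := by
  intro h0
  have ht := transcendental_xk_pow (k := k) (M := M) n hn
  rw [transcendental_iff] at ht
  have := ht (Polynomial.X - Polynomial.C c) (by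
    rw [Polynomial.aeval_sub, Polynomial.aeval_X, Polynomial.aeval_C]
    exact h0)
  exact Polynomial.X_sub_C_ne_zero c this

set_option synthInstance.maxHeartbeats 400000 in
omit [NeZero ℓ] in
theorem one_sub_mul_xk_pow_ne_zero (n : ℕ) (hn : 0 < n) (c : k) :
    1 - algebraMap k (modularFunctionFieldFullC k M) c * xk k M ^ n ≠ 0 := by
  intro h0
  have ht := transcendental_xk_pow (k := k) (M := M) n hn
  rw [transcendental_iff] at ht
  have := ht (1 - Polynomial.C c * Polynomial.X) (by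
    rw [Polynomial.aeval_sub, Polynomial.aeval_one, Polynomial.aeval_mul, Polynomial.aeval_X,
      Polynomial.aeval_C]
    exact h0)
  have h1 := congrArg (fun p : Polynomial k => p.coeff 0) this
  simp at h1

theorem hasRed_chartX_sub (h : BadSetup A π M ℓ) (hW : IsAL M ℓ W) (c : A) :
    HasRed h W (chartX L M ℓ - algebraMap L _ (c : L))
      (xk k M ^ (ℓ + 1) - algebraMap k (modularFunctionFieldFullC k M) (π c))
      (xk k M ^ (ℓ + 1) - algebraMap k (modularFunctionFieldFullC k M) (π c)) :=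
  (hasRed_chartX h hW).sub (hasRed_algebraMap h c)

theorem hasRed_one_sub_mul_chartX (h : BadSetup A π M ℓ) (hW : IsAL M ℓ W) (t : A) :
    HasRed h W (1 - algebraMap L _ (t : L) * chartX L M ℓ)
      (1 - algebraMap k (modularFunctionFieldFullC k M) (π t) * xk k M ^ (ℓ + 1))
      (1 - algebraMap k (modularFunctionFieldFullC k M) (π t) * xk k M ^ (ℓ + 1)) :=
  (hasRed_one h).sub ((hasRed_algebraMap h t).mul (hasRed_chartX h hW))

/-- `hu1`, inverse form. -/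
theorem inv_chartX_sub_mem (h : BadSetup A π M ℓ) (hW : IsAL M ℓ W) (c : L) (hc : c ∈ A) :
    (chartX L M ℓ - algebraMap L _ c)⁻¹ ∈ OPair h W :=
  ((hasRed_chartX_sub h hW ⟨c, hc⟩).inv (xk_pow_sub_ne_zero _ (Nat.succ_pos ℓ) _)
    (xk_pow_sub_ne_zero _ (Nat.succ_pos ℓ) _)).mem

/-- `hu2`, inverse form. -/
theorem inv_one_sub_mul_chartX_mem (h : BadSetup A π M ℓ) (hW : IsAL M ℓ W) (t : L)
    (ht : t ∈ A) : (1 - algebraMap L _ t * chartX L M ℓ)⁻¹ ∈ OPair h W :=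
  ((hasRed_one_sub_mul_chartX h hW ⟨t, ht⟩).inv
    (one_sub_mul_xk_pow_ne_zero _ (Nat.succ_pos ℓ) _)
    (one_sub_mul_xk_pow_ne_zero _ (Nat.succ_pos ℓ) _)).mem

/-- `hu1`, cancellation form. -/
theorem chartX_hu1 (h : BadSetup A π M ℓ) (hW : IsAL M ℓ W) :
    ∀ c ∈ A, ∀ v : laurentBaseChange L (modularFunctionFieldFull (M * ℓ)),
      (chartX L M ℓ - algebraMap L _ c) * v ∈ OPair h W → v ∈ OPair h W :=
  fun c hc v hv => (hasRed_chartX_sub h hW ⟨c, hc⟩).mem_of_mul_mem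
    (xk_pow_sub_ne_zero _ (Nat.succ_pos ℓ) _) (xk_pow_sub_ne_zero _ (Nat.succ_pos ℓ) _) v hv

/-- `hu2`, cancellation form. -/
theorem chartX_hu2 (h : BadSetup A π M ℓ) (hW : IsAL M ℓ W) :
    ∀ t ∈ A, ∀ v : laurentBaseChange L (modularFunctionFieldFull (M * ℓ)),
      (1 - algebraMap L _ t * chartX L M ℓ) * v ∈ OPair h W → v ∈ OPair h W :=
  fun t ht v hv => (hasRed_one_sub_mul_chartX h hW ⟨t, ht⟩).mem_of_mul_mem
    (one_sub_mul_xk_pow_ne_zero _ (Nat.succ_pos ℓ) _)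
    (one_sub_mul_xk_pow_ne_zero _ (Nat.succ_pos ℓ) _) v hv

set_option synthInstance.maxHeartbeats 400000 in
/-- The coordinate `x` is transcendental over `L`. -/
theorem aeval_chartX_ne_zero (h : BadSetup A π M ℓ) (hW : IsAL M ℓ W) (e : Polynomial L)
    (he : e ≠ 0) : Polynomial.aeval (chartX L M ℓ) e ≠ 0 := by
  intro h0
  obtain ⟨c, hc, P₀, hP₀, hne⟩ := exists_primitive_scaling π e he
  have hr := (hasRed_chartX h hW).aeval_map P₀
  have hz : Polynomial.aeval (chartX L M ℓ) (P₀.map A.subtype) = 0 := by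
    rw [hP₀, map_mul, h0, mul_zero]
  rw [hz] at hr
  have e1 := hr.redInf_eq (zero_mem _)
  have e2 : redInf h ⟨0, zero_mem _⟩ = 0 := map_zero (redInf h)
  rw [e2] at e1
  have ht := transcendental_xk_pow (k := k) (M := M) (ℓ + 1) (Nat.succ_pos ℓ)
  rw [transcendental_iff] at ht
  exact hne (ht _ e1.symm)

/-! ### Atkin–Lehner and Galois -/

theorem W_Y1 (hW : IsAL M ℓ W) : W (Y1 L M ℓ) = Y2 L M ℓ := hW.alpha _

theorem W_Y2 (hW : IsAL M ℓ W) : W (Y2 L M ℓ) = Y1 L M ℓ := hW.beta _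

theorem W_chartX (hW : IsAL M ℓ W) : W (chartX L M ℓ) = chartX L M ℓ := by
  have e := map_mul W.toRingEquiv (Y1 L M ℓ) (Y2 L M ℓ)
  have e1 : W.toRingEquiv (Y1 L M ℓ) = Y2 L M ℓ := W_Y1 hW
  have e2 : W.toRingEquiv (Y2 L M ℓ) = Y1 L M ℓ := W_Y2 hW
  rw [e1, e2, mul_comm (Y2 L M ℓ) (Y1 L M ℓ)] at e
  exact e

theorem W_chartZ (hW : IsAL M ℓ W) : W (chartZ L M ℓ) = chartZ L M ℓ := by
  have e0 : W.toRingEquiv (chartX L M ℓ) = chartX L M ℓ := W_chartX hW
  have e : W.toRingEquiv (chartZ L M ℓ) = chartZ L M ℓ := by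
    rw [chartZ, map_sub, map_sub, map_pow, map_one, e0]
  exact e

theorem galois_smul_Y1 (σ : L ≃ₐ[ℚ] L) :
    arithmeticGalois (L := L) (modularFunctionFieldFull (M * ℓ)) σ • Y1 L M ℓ = Y1 L M ℓ := by
  rw [Y1, galois_heckeAlphaBar, galois_smul_xL]

theorem galois_smul_Y2 (σ : L ≃ₐ[ℚ] L) :
    arithmeticGalois (L := L) (modularFunctionFieldFull (M * ℓ)) σ • Y2 L M ℓ = Y2 L M ℓ := by
  rw [Y2, galois_heckeBetaBar, galois_smul_xL]

theorem galois_smul_chartX (σ : L ≃ₐ[ℚ] L) :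
    arithmeticGalois (L := L) (modularFunctionFieldFull (M * ℓ)) σ • chartX L M ℓ = chartX L M ℓ := by
  have e1 := galois_smul_Y1 (M := M) (ℓ := ℓ) σ
  have e2 := galois_smul_Y2 (M := M) (ℓ := ℓ) σ
  rw [SemilinearAut.smul_def] at e1 e2 ⊢
  rw [chartX, map_mul, e1, e2]

theorem galois_smul_chartZ (σ : L ≃ₐ[ℚ] L) :
    arithmeticGalois (L := L) (modularFunctionFieldFull (M * ℓ)) σ • chartZ L M ℓ = chartZ L M ℓ := by
  have e1 := galois_smul_chartX (M := M) (ℓ := ℓ) σ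
  rw [SemilinearAut.smul_def] at e1 ⊢
  rw [chartZ, map_sub, map_sub, map_pow, map_one, e1]

theorem galois_smul_chartE (σ : L ≃ₐ[ℚ] L) :
    arithmeticGalois (L := L) (modularFunctionFieldFull (M * ℓ)) σ • chartE L M ℓ = chartE L M ℓ := by
  have e1 := galois_smul_Y1 (M := M) (ℓ := ℓ) σ
  have e2 := galois_smul_Y2 (M := M) (ℓ := ℓ) σ
  rw [SemilinearAut.smul_def] at e1 e2 ⊢
  rw [chartE, map_div₀, map_pow, e1, e2]

end

end Fermat.Agent.BAD.TwoVal
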