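/-
BAD / two-valuation layer: the chart elements of the bad-level function field `F_{Mℓ}` for an
ABSTRACT level-`M` base function `X` (directive #4; `X = J(q^M)` is `TwoVal/ChartElts.lean`).

For `X ∈ F_M` Gauss-integral (`hm : X ∈ Ow`), with `𝔽_ℓ`-rational reduction `X̄ = Xb h X hm`
(`hrat`) which is transcendental over `k` (`htr`) — e.g. `hX.mem`, `hX.rat`,
`hX.ffRed.transcendental` for `hX : IsChartBase h X`:

* `Y1 ℓ X = α X`, `Y2 ℓ X = β X`, `chartX ℓ X = Y1 * Y2`, `chartZ ℓ X = x^ℓ - x - 1`,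
  `chartE ℓ X = Y2 / Y1^ℓ` (all `abbrev`s);
* reductions: `Y1 ↦ (X̄, X̄^ℓ)`, `Y2 ↦ (X̄^ℓ, X̄)`, `x ↦ (X̄^(ℓ+1), X̄^(ℓ+1))`, `z ↦ (c, c)`,
  `e ↦ (1, X̄ / (X̄^ℓ)^ℓ)`, and the inverses (all are units of `O`);
* `x - c`, `1 - t x` (`c, t ∈ A`) are units of `O` (`chartX_hu1`, `chartX_hu2`, both shapes);
  `x` is transcendental over `L`;
* Atkin–Lehner swaps `Y1, Y2` and fixes `x, z`; Galois fixes everything if it fixes `X`;
* the inverse base function: `Y1 ℓ X⁻¹ = (Y1 ℓ X)⁻¹`, `chartX ℓ X⁻¹ = (chartX ℓ X)⁻¹`, and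
  `X⁻¹` satisfies the same hypotheses (`rat_inv`, `transcendental_Xb_inv`);
* place side (from `pole_iff`, `ord_beta_ge`): `Y1, Y2 ∈ chartFin L x`,
  `Y1⁻¹, Y2⁻¹, e ∈ chartInf L x`.
-/
import Mathlib
import Fermat.Agent.BAD.TwoVal.ChartElts
import Fermat.Agent.BAD.ChartBase
import Fermat.Agent.BAD.SatInst

set_option autoImplicit false

namespace Fermat.Agent.BAD.ChartX

open HahnSeries ModularCurve Polynomial AlgebraicCurve Fermat.Agent.Lib.Red Fermat.Agent.S28
open Fermat.Agent.BAD.TwoVal Fermat.Agent.BAD.SatInst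

noncomputable section

/- Speed only: try the instance that succeeds first (the elaborated terms are unchanged). -/
attribute [local instance 100000] SubalgebraClass.toAlgebra

/-! ### Generic field lemmas -/

section Field

variable {K E : Type*} [Field K] [Field E] [Algebra K E]

theorem pow_sub_ne_zero_of_transcendental {t : E} (ht : Transcendental K t) (n : ℕ) (hn : 0 < n)
    (c : K) : t ^ n - algebraMap K E c ≠ 0 := by
  intro h0
  have ht' := ht.pow hn
  rw [transcendental_iff] at ht'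
  have := ht' (Polynomial.X - Polynomial.C c) (by
    rw [Polynomial.aeval_sub, Polynomial.aeval_X, Polynomial.aeval_C]
    exact h0)
  exact Polynomial.X_sub_C_ne_zero c this

theorem one_sub_mul_pow_ne_zero_of_transcendental {t : E} (ht : Transcendental K t) (n : ℕ)
    (hn : 0 < n) (c : K) : 1 - algebraMap K E c * t ^ n ≠ 0 := by
  intro h0
  have ht' := ht.pow hn
  rw [transcendental_iff] at ht'
  have := ht' (1 - Polynomial.C c * Polynomial.X) (by
    rw [Polynomial.aeval_sub, Polynomial.aeval_one, Polynomial.aeval_mul, Polynomial.aeval_X,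
      Polynomial.aeval_C]
    exact h0)
  have h1 := congrArg (fun p : Polynomial K => p.coeff 0) this
  simp at h1

theorem pow_sub_sub_one_ne_zero_of_transcendental {t : E} (ht : Transcendental K t) (n : ℕ)
    (hn : 0 < n) (q : ℕ) (hq : 2 ≤ q) : (t ^ n) ^ q - t ^ n - 1 ≠ 0 := by
  intro h0
  have ht' := ht.pow hn
  rw [transcendental_iff] at ht'
  have := ht' (Polynomial.X ^ q - Polynomial.X - 1) (by
    rw [Polynomial.aeval_sub, Polynomial.aeval_sub, Polynomial.aeval_one, Polynomial.aeval_X_pow,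
      Polynomial.aeval_X]
    exact h0)
  have h1 := congrArg (fun p : Polynomial K => p.coeff q) this
  have hq1 : q ≠ 1 := by omega
  have hq0 : q ≠ 0 := by omega
  simp [Polynomial.coeff_X, Polynomial.coeff_one, hq0, Ne.symm hq1] at h1

theorem ne_zero_of_transcendental {t : E} (ht : Transcendental K t) : t ≠ 0 := by
  rintro rfl
  exact ht isAlgebraic_zero

theorem transcendental_inv_of_transcendental {t : E} (ht : Transcendental K t) :
    Transcendental K t⁻¹ := by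
  intro halg
  apply ht
  have := halg.inv
  rwa [inv_inv] at this

end Field

/-- `1 ≤ v(f)` iff `ord f ≤ 0`, for `f ≠ 0`. -/
theorem one_le_adicVal_iff_ord {K F : Type*} [Field K] [Field F] [Algebra K F]
    (P : Place K F) {f : F} (hf : f ≠ 0) : 1 ≤ P.adicValuation f ↔ P.ord f ≤ 0 := by
  rw [P.adicValuation_eq_exp_neg_ord hf, ← WithZero.exp_zero, WithZero.exp_le_exp]
  omega

theorem ord_pow_eq {K F : Type*} [Field K] [Field F] [Algebra K F]
    (P : Place K F) {f : F} (hf : f ≠ 0) (n : ℕ) : P.ord (f ^ n) = n * P.ord f := by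
  induction n with
  | zero => simp
  | succ n ih =>
    rw [pow_succ, P.ord_mul (pow_ne_zero n hf) hf, ih]
    push_cast
    ring

variable {L : Type*} [Field L] [Algebra ℚ L] {A : ValuationSubring L} {k : Type} [Field k]
  {π : A →+* k} {M ℓ : ℕ} [NeZero M] [NeZero ℓ]
  {W : laurentBaseChange L (modularFunctionFieldFull (M * ℓ)) ≃ₐ[L]
    laurentBaseChange L (modularFunctionFieldFull (M * ℓ))}
  {X : laurentBaseChange L (modularFunctionFieldFull M)}

/-! ### The chart elements -/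

/-- `Y₁ = α X`. -/
abbrev Y1 (ℓ : ℕ) [NeZero ℓ] (X : laurentBaseChange L (modularFunctionFieldFull M)) :
    laurentBaseChange L (modularFunctionFieldFull (M * ℓ)) :=
  heckeAlphaBar L M ℓ X

/-- `Y₂ = β X`. -/
abbrev Y2 (ℓ : ℕ) [NeZero ℓ] (X : laurentBaseChange L (modularFunctionFieldFull M)) :
    laurentBaseChange L (modularFunctionFieldFull (M * ℓ)) :=
  heckeBetaBar L M ℓ X

/-- The Čech coordinate `x = Y₁ Y₂`. -/
abbrev chartX (ℓ : ℕ) [NeZero ℓ] (X : laurentBaseChange L (modularFunctionFieldFull M)) :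
    laurentBaseChange L (modularFunctionFieldFull (M * ℓ)) :=
  Y1 ℓ X * Y2 ℓ X

/-- The bi-unit `z = x^ℓ - x - 1`. -/
abbrev chartZ (ℓ : ℕ) [NeZero ℓ] (X : laurentBaseChange L (modularFunctionFieldFull M)) :
    laurentBaseChange L (modularFunctionFieldFull (M * ℓ)) :=
  chartX ℓ X ^ ℓ - chartX ℓ X - 1

/-- The cusp-separating element `e = Y₂ / Y₁^ℓ`. -/
abbrev chartE (ℓ : ℕ) [NeZero ℓ] (X : laurentBaseChange L (modularFunctionFieldFull M)) :
    laurentBaseChange L (modularFunctionFieldFull (M * ℓ)) :=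
  Y2 ℓ X / Y1 ℓ X ^ ℓ

/-- The reduction `X̄` of the base function. -/
abbrev Xb (h : BadSetup A π M ℓ) (X : laurentBaseChange L (modularFunctionFieldFull M))
    (hm : X ∈ Ow A π M h.hMk) : modularFunctionFieldFullC k M :=
  redF A π M h.hπ h.hMk ⟨X, hm⟩

/-- The common reduction `c = x̄^ℓ - x̄ - 1`, `x̄ = X̄^(ℓ+1)`, of `z`. -/
abbrev chartC (h : BadSetup A π M ℓ) (X : laurentBaseChange L (modularFunctionFieldFull M))
    (hm : X ∈ Ow A π M h.hMk) : modularFunctionFieldFullC k M :=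
  (Xb h X hm ^ (ℓ + 1)) ^ ℓ - Xb h X hm ^ (ℓ + 1) - 1

/-! ### Reductions -/

section Red

variable (h : BadSetup A π M ℓ) (hW : IsAL M ℓ W) (hm : X ∈ Ow A π M h.hMk)
  (hrat : qExpand k ℓ ((Xb h X hm : modularFunctionFieldFullC k M) : LaurentSeries k) =
    ((Xb h X hm : modularFunctionFieldFullC k M) : LaurentSeries k) ^ ℓ)
  (htr : Transcendental k (Xb h X hm))

include hW hrat in
theorem hasRed_Y1 : HasRed h W (Y1 ℓ X) (Xb h X hm) (Xb h X hm ^ ℓ) :=
  hasRed_alpha h hW X hm hrat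

include hW hrat in
theorem hasRed_Y2 : HasRed h W (Y2 ℓ X) (Xb h X hm ^ ℓ) (Xb h X hm) :=
  hasRed_beta h hW X hm hrat

include hW hrat in
theorem hasRed_chartX :
    HasRed h W (chartX ℓ X) (Xb h X hm ^ (ℓ + 1)) (Xb h X hm ^ (ℓ + 1)) :=
  ((hasRed_Y1 h hW hm hrat).mul (hasRed_Y2 h hW hm hrat)).congr (by rw [pow_succ'])
    (by rw [pow_succ])

include hW hrat in
theorem hasRed_chartZ : HasRed h W (chartZ ℓ X) (chartC h X hm) (chartC h X hm) :=
  (((hasRed_chartX h hW hm hrat).pow ℓ).sub (hasRed_chartX h hW hm hrat)).sub (hasRed_one h)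

include htr in
omit [NeZero ℓ] in
theorem Xb_ne_zero : Xb h X hm ≠ 0 := ne_zero_of_transcendental htr

include hW hrat htr in
theorem hasRed_inv_Y1 : HasRed h W (Y1 ℓ X)⁻¹ (Xb h X hm)⁻¹ (Xb h X hm ^ ℓ)⁻¹ :=
  (hasRed_Y1 h hW hm hrat).inv (Xb_ne_zero h hm htr) (pow_ne_zero _ (Xb_ne_zero h hm htr))

include hW hrat htr in
theorem hasRed_inv_Y2 : HasRed h W (Y2 ℓ X)⁻¹ (Xb h X hm ^ ℓ)⁻¹ (Xb h X hm)⁻¹ :=
  (hasRed_Y2 h hW hm hrat).inv (pow_ne_zero _ (Xb_ne_zero h hm htr)) (Xb_ne_zero h hm htr)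

include hW hrat htr in
theorem hasRed_inv_chartX :
    HasRed h W (chartX ℓ X)⁻¹ (Xb h X hm ^ (ℓ + 1))⁻¹ (Xb h X hm ^ (ℓ + 1))⁻¹ :=
  (hasRed_chartX h hW hm hrat).inv (pow_ne_zero _ (Xb_ne_zero h hm htr))
    (pow_ne_zero _ (Xb_ne_zero h hm htr))

include hW hrat htr in
/-- `e = Y₂ / Y₁^ℓ` has reductions `(1, X̄ / X̄^(ℓ²))`. -/
theorem hasRed_chartE :
    HasRed h W (chartE ℓ X) 1 (Xb h X hm / (Xb h X hm ^ ℓ) ^ ℓ) :=
  ((hasRed_Y2 h hW hm hrat).div ((hasRed_Y1 h hW hm hrat).pow ℓ)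
    (pow_ne_zero _ (Xb_ne_zero h hm htr))
    (pow_ne_zero _ (pow_ne_zero _ (Xb_ne_zero h hm htr)))).congr
    (div_self (pow_ne_zero _ (Xb_ne_zero h hm htr))) rfl

include hW hrat htr in
theorem hasRed_inv_chartE :
    HasRed h W (chartE ℓ X)⁻¹ 1 (Xb h X hm / (Xb h X hm ^ ℓ) ^ ℓ)⁻¹ :=
  ((hasRed_chartE h hW hm hrat htr).inv one_ne_zero (div_ne_zero (Xb_ne_zero h hm htr)
    (pow_ne_zero _ (pow_ne_zero _ (Xb_ne_zero h hm htr))))).congr inv_one rfl

include htr in
omit [NeZero ℓ] in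
theorem chartC_ne_zero : chartC h X hm ≠ 0 :=
  pow_sub_sub_one_ne_zero_of_transcendental htr (ℓ + 1) (Nat.succ_pos ℓ) ℓ h.hℓ.two_le

include hW hrat htr in
theorem hasRed_inv_chartZ :
    HasRed h W (chartZ ℓ X)⁻¹ (chartC h X hm)⁻¹ (chartC h X hm)⁻¹ :=
  (hasRed_chartZ h hW hm hrat).inv (chartC_ne_zero h hm htr) (chartC_ne_zero h hm htr)

/-! ### `x - c` and `1 - t x` are units of `O`; `x` is transcendental -/

include hW hrat in
theorem hasRed_chartX_sub (c : A) :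
    HasRed h W (chartX ℓ X - algebraMap L _ (c : L))
      (Xb h X hm ^ (ℓ + 1) - algebraMap k (modularFunctionFieldFullC k M) (π c))
      (Xb h X hm ^ (ℓ + 1) - algebraMap k (modularFunctionFieldFullC k M) (π c)) :=
  (hasRed_chartX h hW hm hrat).sub (hasRed_algebraMap h c)

include hW hrat in
theorem hasRed_one_sub_mul_chartX (t : A) :
    HasRed h W (1 - algebraMap L _ (t : L) * chartX ℓ X)
      (1 - algebraMap k (modularFunctionFieldFullC k M) (π t) * Xb h X hm ^ (ℓ + 1))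
      (1 - algebraMap k (modularFunctionFieldFullC k M) (π t) * Xb h X hm ^ (ℓ + 1)) :=
  (hasRed_one h).sub ((hasRed_algebraMap h t).mul (hasRed_chartX h hW hm hrat))

include hW hrat htr in
/-- `hu1`, inverse form. -/
theorem inv_chartX_sub_mem (c : L) (hc : c ∈ A) :
    (chartX ℓ X - algebraMap L _ c)⁻¹ ∈ OPair h W :=
  ((hasRed_chartX_sub h hW hm hrat ⟨c, hc⟩).inv
    (pow_sub_ne_zero_of_transcendental htr _ (Nat.succ_pos ℓ) _)
    (pow_sub_ne_zero_of_transcendental htr _ (Nat.succ_pos ℓ) _)).mem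

include hW hrat htr in
/-- `hu2`, inverse form. -/
theorem inv_one_sub_mul_chartX_mem (t : L) (ht : t ∈ A) :
    (1 - algebraMap L _ t * chartX ℓ X)⁻¹ ∈ OPair h W :=
  ((hasRed_one_sub_mul_chartX h hW hm hrat ⟨t, ht⟩).inv
    (one_sub_mul_pow_ne_zero_of_transcendental htr _ (Nat.succ_pos ℓ) _)
    (one_sub_mul_pow_ne_zero_of_transcendental htr _ (Nat.succ_pos ℓ) _)).mem

include hW hrat htr in
/-- `hu1`, cancellation form. -/
theorem chartX_hu1 :
    ∀ c ∈ A, ∀ v : laurentBaseChange L (modularFunctionFieldFull (M * ℓ)),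
      (chartX ℓ X - algebraMap L _ c) * v ∈ OPair h W → v ∈ OPair h W :=
  fun c hc v hv => (hasRed_chartX_sub h hW hm hrat ⟨c, hc⟩).mem_of_mul_mem
    (pow_sub_ne_zero_of_transcendental htr _ (Nat.succ_pos ℓ) _)
    (pow_sub_ne_zero_of_transcendental htr _ (Nat.succ_pos ℓ) _) v hv

include hW hrat htr in
/-- `hu2`, cancellation form. -/
theorem chartX_hu2 :
    ∀ t ∈ A, ∀ v : laurentBaseChange L (modularFunctionFieldFull (M * ℓ)),
      (1 - algebraMap L _ t * chartX ℓ X) * v ∈ OPair h W → v ∈ OPair h W :=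
  fun t ht v hv => (hasRed_one_sub_mul_chartX h hW hm hrat ⟨t, ht⟩).mem_of_mul_mem
    (one_sub_mul_pow_ne_zero_of_transcendental htr _ (Nat.succ_pos ℓ) _)
    (one_sub_mul_pow_ne_zero_of_transcendental htr _ (Nat.succ_pos ℓ) _) v hv

set_option synthInstance.maxHeartbeats 400000 in
include hW hrat htr in
/-- The coordinate `x` is transcendental over `L`. -/
theorem aeval_chartX_ne_zero (e : Polynomial L) (he : e ≠ 0) :
    Polynomial.aeval (chartX ℓ X) e ≠ 0 := by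
  intro h0
  obtain ⟨c, hc, P₀, hP₀, hne⟩ := exists_primitive_scaling π e he
  have hr := (hasRed_chartX h hW hm hrat).aeval_map P₀
  have hz : Polynomial.aeval (chartX ℓ X) (P₀.map A.subtype) = 0 := by
    rw [hP₀, map_mul, h0, mul_zero]
  rw [hz] at hr
  have e1 := hr.redInf_eq (zero_mem _)
  have e2 : redInf h ⟨0, zero_mem _⟩ = 0 := map_zero (redInf h)
  rw [e2] at e1
  have ht := htr.pow (Nat.succ_pos ℓ)
  rw [transcendental_iff] at ht
  exact hne (ht _ e1.symm)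

set_option synthInstance.maxHeartbeats 400000 in
include hW hrat htr in
theorem transcendental_chartX : Transcendental L (chartX ℓ X) := by
  rw [transcendental_iff]
  intro p hp
  by_contra hne
  exact aeval_chartX_ne_zero h hW hm hrat htr p hne hp

end Red

/-! ### The inverse base function -/

section Inv

theorem Y1_inv (X : laurentBaseChange L (modularFunctionFieldFull M)) :
    Y1 ℓ X⁻¹ = (Y1 ℓ X)⁻¹ := map_inv₀ (heckeAlphaBar L M ℓ) X

theorem Y2_inv (X : laurentBaseChange L (modularFunctionFieldFull M)) :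
    Y2 ℓ X⁻¹ = (Y2 ℓ X)⁻¹ := map_inv₀ (heckeBetaBar L M ℓ) X

theorem chartX_inv (X : laurentBaseChange L (modularFunctionFieldFull M)) :
    chartX ℓ X⁻¹ = (chartX ℓ X)⁻¹ := by
  show Y1 ℓ X⁻¹ * Y2 ℓ X⁻¹ = (Y1 ℓ X * Y2 ℓ X)⁻¹
  rw [Y1_inv, Y2_inv, mul_inv]

variable (h : BadSetup A π M ℓ) (hm : X ∈ Ow A π M h.hMk) (hi : X⁻¹ ∈ Ow A π M h.hMk)

omit [NeZero ℓ] in
theorem Xb_inv (h : BadSetup A π M ℓ) (hm : X ∈ Ow A π M h.hMk) (hi : X⁻¹ ∈ Ow A π M h.hMk)
    (hX0 : X ≠ 0) : Xb h X⁻¹ hi = (Xb h X hm)⁻¹ := by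
  have hmul : (⟨X⁻¹, hi⟩ : Ow A π M h.hMk) * ⟨X, hm⟩ = 1 := Subtype.ext (inv_mul_cancel₀ hX0)
  have := congrArg (redF A π M h.hπ h.hMk) hmul
  rw [map_mul, map_one] at this
  exact eq_inv_of_mul_eq_one_left this

theorem rat_inv (hX0 : X ≠ 0)
    (hrat : qExpand k ℓ ((Xb h X hm : modularFunctionFieldFullC k M) : LaurentSeries k) =
      ((Xb h X hm : modularFunctionFieldFullC k M) : LaurentSeries k) ^ ℓ) :
    qExpand k ℓ ((Xb h X⁻¹ hi : modularFunctionFieldFullC k M) : LaurentSeries k) =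
      ((Xb h X⁻¹ hi : modularFunctionFieldFullC k M) : LaurentSeries k) ^ ℓ := by
  rw [Xb_inv h hm hi hX0]
  show qExpand k ℓ ((Xb h X hm : modularFunctionFieldFullC k M) : LaurentSeries k)⁻¹ =
    (((Xb h X hm : modularFunctionFieldFullC k M) : LaurentSeries k)⁻¹) ^ ℓ
  rw [map_inv₀, hrat, inv_pow]

omit [NeZero ℓ] in
theorem transcendental_Xb_inv (hX0 : X ≠ 0) (htr : Transcendental k (Xb h X hm)) :
    Transcendental k (Xb h X⁻¹ hi) := by
  rw [Xb_inv h hm hi hX0]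
  exact transcendental_inv_of_transcendental htr

end Inv

/-! ### Atkin–Lehner and Galois -/

section Sym

theorem W_Y1 (hW : IsAL M ℓ W) (X : laurentBaseChange L (modularFunctionFieldFull M)) :
    W (Y1 ℓ X) = Y2 ℓ X := hW.alpha _

theorem W_Y2 (hW : IsAL M ℓ W) (X : laurentBaseChange L (modularFunctionFieldFull M)) :
    W (Y2 ℓ X) = Y1 ℓ X := hW.beta _

theorem W_chartX (hW : IsAL M ℓ W) (X : laurentBaseChange L (modularFunctionFieldFull M)) :
    W (chartX ℓ X) = chartX ℓ X := by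
  have e := map_mul W.toRingEquiv (Y1 ℓ X) (Y2 ℓ X)
  have e1 : W.toRingEquiv (Y1 ℓ X) = Y2 ℓ X := W_Y1 hW X
  have e2 : W.toRingEquiv (Y2 ℓ X) = Y1 ℓ X := W_Y2 hW X
  rw [e1, e2, mul_comm (Y2 ℓ X) (Y1 ℓ X)] at e
  exact e

theorem W_chartZ (hW : IsAL M ℓ W) (X : laurentBaseChange L (modularFunctionFieldFull M)) :
    W (chartZ ℓ X) = chartZ ℓ X := by
  have e0 : W.toRingEquiv (chartX ℓ X) = chartX ℓ X := W_chartX hW X
  have e : W.toRingEquiv (chartX ℓ X ^ ℓ - chartX ℓ X - 1) = chartX ℓ X ^ ℓ - chartX ℓ X - 1 := by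
    rw [map_sub, map_sub, map_pow, map_one, e0]
  exact e

variable (σ : L ≃ₐ[ℚ] L) (hgal : arithmeticGalois (L := L) (modularFunctionFieldFull M) σ • X = X)

include hgal in
theorem galois_smul_Y1 :
    arithmeticGalois (L := L) (modularFunctionFieldFull (M * ℓ)) σ • Y1 ℓ X = Y1 ℓ X := by
  rw [galois_heckeAlphaBar, hgal]

include hgal in
theorem galois_smul_Y2 :
    arithmeticGalois (L := L) (modularFunctionFieldFull (M * ℓ)) σ • Y2 ℓ X = Y2 ℓ X := by
  rw [galois_heckeBetaBar, hgal]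

include hgal in
theorem galois_smul_chartX :
    arithmeticGalois (L := L) (modularFunctionFieldFull (M * ℓ)) σ • chartX ℓ X = chartX ℓ X := by
  have e1 := galois_smul_Y1 (ℓ := ℓ) σ hgal
  have e2 := galois_smul_Y2 (ℓ := ℓ) σ hgal
  rw [SemilinearAut.smul_def] at e1 e2 ⊢
  rw [map_mul, e1, e2]

include hgal in
theorem galois_smul_chartZ :
    arithmeticGalois (L := L) (modularFunctionFieldFull (M * ℓ)) σ • chartZ ℓ X = chartZ ℓ X := by
  have e1 := galois_smul_chartX (ℓ := ℓ) σ hgal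
  rw [SemilinearAut.smul_def] at e1 ⊢
  rw [map_sub, map_sub, map_pow, map_one, e1]

include hgal in
theorem galois_smul_chartE :
    arithmeticGalois (L := L) (modularFunctionFieldFull (M * ℓ)) σ • chartE ℓ X = chartE ℓ X := by
  have e1 := galois_smul_Y1 (ℓ := ℓ) σ hgal
  have e2 := galois_smul_Y2 (ℓ := ℓ) σ hgal
  rw [SemilinearAut.smul_def] at e1 e2 ⊢
  rw [map_div₀, map_pow, e1, e2]

end Sym

/-! ### The place-defined charts -/

section Places

variable (hX0 : X ≠ 0)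
  (hpole : ∀ P : Place L ↥(laurentBaseChange L (modularFunctionFieldFull (M * ℓ))),
    P.ord (heckeAlphaBar L M ℓ X) < 0 ↔ P.ord (heckeBetaBar L M ℓ X) < 0)
  (hC2 : ∀ P : Place L ↥(laurentBaseChange L (modularFunctionFieldFull (M * ℓ))),
    P.ord (heckeAlphaBar L M ℓ X) < 0 →
      (ℓ : ℤ) * P.ord (heckeAlphaBar L M ℓ X) ≤ P.ord (heckeBetaBar L M ℓ X))

include hX0 in
theorem Y1_ne_zero : Y1 ℓ X ≠ 0 := by
  intro h0
  exact hX0 ((heckeAlphaBar L M ℓ).toRingHom.injective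
    (by rw [AlgHom.toRingHom_eq_coe, RingHom.coe_coe, map_zero]; exact h0))

include hX0 in
theorem Y2_ne_zero : Y2 ℓ X ≠ 0 := by
  intro h0
  exact hX0 ((heckeBetaBar L M ℓ).toRingHom.injective
    (by rw [AlgHom.toRingHom_eq_coe, RingHom.coe_coe, map_zero]; exact h0))

include hX0 in
theorem chartX_ne_zero : chartX ℓ X ≠ 0 := mul_ne_zero (Y1_ne_zero hX0) (Y2_ne_zero hX0)

include hX0 in
theorem ord_chartX (P : Place L ↥(laurentBaseChange L (modularFunctionFieldFull (M * ℓ)))) :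
    P.ord (chartX ℓ X) = P.ord (Y1 ℓ X) + P.ord (Y2 ℓ X) :=
  P.ord_mul (Y1_ne_zero hX0) (Y2_ne_zero hX0)

include hX0 hpole in
/-- The poles of `x` are the poles of `Y₁`. -/
theorem ord_chartX_neg_iff
    (P : Place L ↥(laurentBaseChange L (modularFunctionFieldFull (M * ℓ)))) :
    P.ord (chartX ℓ X) < 0 ↔ P.ord (Y1 ℓ X) < 0 := by
  rw [ord_chartX hX0]
  have hp : P.ord (Y1 ℓ X) < 0 ↔ P.ord (Y2 ℓ X) < 0 := hpole P
  constructor
  · intro h
    by_contra h1
    have h2 : ¬ P.ord (Y2 ℓ X) < 0 := fun h2 => h1 (hp.mpr h2)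
    omega
  · intro h
    have h2 : P.ord (Y2 ℓ X) < 0 := hp.mp h
    omega

include hX0 hpole in
/-- `Y₁` is regular where `x` is. -/
theorem Y1_mem_chartFin : Y1 ℓ X ∈ chartFin L (chartX ℓ X) := by
  intro P hP
  by_contra hcon
  rw [P.not_adicValuation_le_one_iff] at hcon
  rcases P.adicValuation_le_one_iff.mp hP with h0 | h0
  · exact chartX_ne_zero hX0 h0
  · exact absurd ((ord_chartX_neg_iff hX0 hpole P).mpr hcon) (not_lt.mpr h0)

include hX0 hpole in
/-- `Y₂` is regular where `x` is. -/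
theorem Y2_mem_chartFin : Y2 ℓ X ∈ chartFin L (chartX ℓ X) := by
  intro P hP
  by_contra hcon
  rw [P.not_adicValuation_le_one_iff] at hcon
  rcases P.adicValuation_le_one_iff.mp hP with h0 | h0
  · exact chartX_ne_zero hX0 h0
  · exact absurd ((ord_chartX_neg_iff hX0 hpole P).mpr ((hpole P).mpr hcon)) (not_lt.mpr h0)

include hX0 hpole in
/-- `Y₁⁻¹` is regular where `x` is a unit or has a pole. -/
theorem inv_Y1_mem_chartInf : (Y1 ℓ X)⁻¹ ∈ chartInf L (chartX ℓ X) := by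
  intro P hP
  rw [one_le_adicVal_iff_ord P (chartX_ne_zero hX0), ord_chartX hX0] at hP
  rw [P.adicValuation_le_one_iff, P.ord_inv]
  right
  by_contra hcon
  have hp : P.ord (Y1 ℓ X) < 0 ↔ P.ord (Y2 ℓ X) < 0 := hpole P
  have h2 : ¬ P.ord (Y2 ℓ X) < 0 := fun h2 => by
    have := hp.mpr h2
    omega
  omega

include hX0 hpole in
/-- `Y₂⁻¹` is regular where `x` is a unit or has a pole. -/
theorem inv_Y2_mem_chartInf : (Y2 ℓ X)⁻¹ ∈ chartInf L (chartX ℓ X) := by
  intro P hP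
  rw [one_le_adicVal_iff_ord P (chartX_ne_zero hX0), ord_chartX hX0] at hP
  rw [P.adicValuation_le_one_iff, P.ord_inv]
  right
  by_contra hcon
  have hp : P.ord (Y1 ℓ X) < 0 ↔ P.ord (Y2 ℓ X) < 0 := hpole P
  have h2 : ¬ P.ord (Y1 ℓ X) < 0 := fun h2 => by
    have := hp.mp h2
    omega
  omega

include hX0 hpole hC2 in
/-- **(C2)**: `e = Y₂ / Y₁^ℓ` is regular where `x` is a unit or has a pole. -/
theorem chartE_mem_chartInf : chartE ℓ X ∈ chartInf L (chartX ℓ X) := by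
  intro P hP
  rw [one_le_adicVal_iff_ord P (chartX_ne_zero hX0), ord_chartX hX0] at hP
  rw [P.adicValuation_le_one_iff]
  right
  have he : P.ord (chartE ℓ X) = P.ord (Y2 ℓ X) - ℓ * P.ord (Y1 ℓ X) := by
    show P.ord (Y2 ℓ X / Y1 ℓ X ^ ℓ) = _
    rw [div_eq_mul_inv, P.ord_mul (Y2_ne_zero hX0)
      (inv_ne_zero (pow_ne_zero _ (Y1_ne_zero hX0))), P.ord_inv,
      ord_pow_eq P (Y1_ne_zero hX0)]
    ring
  rw [he]
  have hp : P.ord (Y1 ℓ X) < 0 ↔ P.ord (Y2 ℓ X) < 0 := hpole P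
  by_cases h1 : P.ord (Y1 ℓ X) < 0
  · have h2 : (ℓ : ℤ) * P.ord (Y1 ℓ X) ≤ P.ord (Y2 ℓ X) := hC2 P h1
    omega
  · have h2 : ¬ P.ord (Y2 ℓ X) < 0 := fun h2 => h1 (hp.mpr h2)
    have h3 : P.ord (Y1 ℓ X) = 0 := by omega
    rw [h3]
    omega

end Places

/-! ### The `IsChartBase` forms -/

section Base

variable {h : BadSetup A π M ℓ}

theorem ne_zero_of_base (hX : IsChartBase h X) : X ≠ 0 :=
  ne_zero_of_transcendental hX.ff.transcendental

theorem transcendental_Xb_of_base (hX : IsChartBase h X) :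
    Transcendental k (Xb h X hX.mem) := hX.ffRed.transcendental

/-- The inverse base function has `𝔽_ℓ`-rational reduction. -/
theorem rat_inv_of_base (hX : IsChartBase h X) :
    qExpand k ℓ ((Xb h X⁻¹ hX.inv_mem : modularFunctionFieldFullC k M) : LaurentSeries k) =
      ((Xb h X⁻¹ hX.inv_mem : modularFunctionFieldFullC k M) : LaurentSeries k) ^ ℓ :=
  rat_inv h hX.mem hX.inv_mem (ne_zero_of_base hX) hX.rat

theorem transcendental_Xb_inv_of_base (hX : IsChartBase h X) :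
    Transcendental k (Xb h X⁻¹ hX.inv_mem) :=
  transcendental_Xb_inv h hX.mem hX.inv_mem (ne_zero_of_base hX) hX.ffRed.transcendental

end Base

end

end Fermat.Agent.BAD.ChartX
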