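/-
BAD / two-valuation layer (T1): the Gauss lemma for Laurent series over a valuation ring of
rank one.

* `C_dvd_iff`            : divisibility of a Laurent series by a constant is coefficientwise;
* `exists_nonunit_dvd`   : finitely many nonunits of a valuation ring have a common nonunit divisor;
* `coeff_dvd_of_dvd_mul` : if `e` divides every coefficient of `W * s` and `s` has a unit
                           coefficient, then `e` divides every coefficient of `W`
                           (rank one: every nonzero `e` divides a power of every nonunit `d`);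
* `C_dvd_of_C_dvd_mul`   : the same in series form.
-/
import Mathlib
import Fermat.Agent.Lib.Red.GaussRing

set_option autoImplicit false

namespace Fermat.Agent.BAD.TwoVal

open HahnSeries Fermat.Agent.Lib.Red

noncomputable section

/-- Divisibility of a Laurent series by a constant is coefficientwise. -/
theorem C_dvd_iff {R : Type*} [CommRing R] (e : R) (W : LaurentSeries R) :
    HahnSeries.C e ∣ W ↔ ∀ i, e ∣ W.coeff i := by
  constructor
  · rintro ⟨W', rfl⟩ i
    rw [HahnSeries.C_mul_eq_smul, HahnSeries.coeff_smul]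
    exact ⟨W'.coeff i, rfl⟩
  · intro h
    classical
    choose f hf using h
    refine ⟨⟨fun i => if W.coeff i = 0 then 0 else f i, W.isPWO_support.mono ?_⟩, ?_⟩
    · intro i hi
      simp only [Function.mem_support, ne_eq] at hi ⊢
      intro h0
      exact hi (by rw [if_pos h0])
    · ext i
      rw [HahnSeries.C_mul_eq_smul, HahnSeries.coeff_smul]
      show W.coeff i = e • (if W.coeff i = 0 then 0 else f i)
      split_ifs with h0
      · rw [h0, smul_zero]
      · rw [smul_eq_mul, ← hf i]

/-- Finitely many nonunits of a valuation ring have a common nonunit divisor. -/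
theorem exists_nonunit_dvd {A : Type*} [CommRing A] [IsDomain A] [ValuationRing A]
    (S : Finset A) (hS : ∀ a ∈ S, ¬ IsUnit a) : ∃ d : A, ¬ IsUnit d ∧ ∀ a ∈ S, d ∣ a := by
  classical
  induction S using Finset.induction_on with
  | empty => exact ⟨0, not_isUnit_zero, fun a ha => absurd ha (Finset.notMem_empty a)⟩
  | insert a S _ ih =>
    obtain ⟨d, hd, hdS⟩ := ih fun b hb => hS b (Finset.mem_insert_of_mem hb)
    rcases ValuationRing.dvd_total a d with h | h
    · refine ⟨a, hS a (Finset.mem_insert_self a S), fun b hb => ?_⟩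
      rcases Finset.mem_insert.mp hb with rfl | hb
      · exact dvd_rfl
      · exact h.trans (hdS b hb)
    · refine ⟨d, hd, fun b hb => ?_⟩
      rcases Finset.mem_insert.mp hb with rfl | hb
      · exact h
      · exact hdS b hb

variable {L : Type*} [Field L] (A : ValuationSubring L)

/-- **Gauss lemma, rank one.**  If `e` divides every coefficient of `W * s` and `s` has a unit
coefficient, then `e` divides every coefficient of `W`. -/
theorem coeff_dvd_of_dvd_mul
    (hrank : ∀ d e : A, ¬ IsUnit d → e ≠ 0 → ∃ r : ℕ, e ∣ d ^ r)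
    (s W : LaurentSeries A) (hs : ∃ j, IsUnit (s.coeff j)) (e : A)
    (h : ∀ N, e ∣ (W * s).coeff N) : ∀ i, e ∣ W.coeff i := by
  classical
  by_cases he : e = 0
  · subst he
    have hWs : W * s = 0 := by
      apply HahnSeries.ext
      funext N
      exact zero_dvd_iff.mp (h N)
    have hs0 : s ≠ 0 := by
      rintro rfl
      obtain ⟨j, hj⟩ := hs
      rw [HahnSeries.coeff_zero] at hj
      exact (not_isUnit_zero (M₀ := A)) hj
    have hW : W = 0 := (mul_eq_zero.mp hWs).resolve_right hs0
    intro i
    rw [hW]
    exact dvd_zero _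
  -- the least index with a unit coefficient
  have hUwf : {j | IsUnit (s.coeff j)}.IsWF := s.isWF_support.mono (by
    intro j hj
    simp only [Set.mem_ofPred_eq] at hj
    simp only [HahnSeries.mem_support, ne_eq]
    exact hj.ne_zero)
  have hUne : {j | IsUnit (s.coeff j)}.Nonempty := hs
  set j₀ := hUwf.min hUne with hj₀
  have hj₀u : IsUnit (s.coeff j₀) := hUwf.min_mem hUne
  have hj₀min : ∀ j < j₀, ¬ IsUnit (s.coeff j) := fun j hj hu =>
    hUwf.not_lt_min hUne hu hj
  -- a common nonunit divisor of the lower coefficients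
  have hsne : s.support.Nonempty := ⟨j₀, by
    simp only [HahnSeries.mem_support, ne_eq]
    exact hj₀u.ne_zero⟩
  set m := s.isWF_support.min hsne with hm
  have hTfin : {j | j < j₀ ∧ s.coeff j ≠ 0}.Finite := by
    refine (Set.finite_Icc m j₀).subset ?_
    intro j hj
    obtain ⟨hj1, hj2⟩ := hj
    exact ⟨s.isWF_support.min_le hsne (by simpa using hj2), hj1.le⟩
  obtain ⟨d, hd, hdS⟩ := exists_nonunit_dvd (hTfin.toFinset.image s.coeff) (by
    intro a ha
    obtain ⟨j, hj, rfl⟩ := Finset.mem_image.mp ha
    exact hj₀min j ((Set.Finite.mem_toFinset hTfin).mp hj).1)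
  have hdlow : ∀ j < j₀, d ∣ s.coeff j := by
    intro j hj
    by_cases h0 : s.coeff j = 0
    · rw [h0]
      exact dvd_zero _
    · exact hdS _ (Finset.mem_image.mpr ⟨j, (Set.Finite.mem_toFinset hTfin).mpr ⟨hj, h0⟩, rfl⟩)
  -- the key step
  have step : ∀ g : A, (∀ i, g ∣ W.coeff i) → ∀ i, e ∣ W.coeff i ∨ g * d ∣ W.coeff i := by
    intro g hg
    -- a generator `c` of the ideal `(e, g * d)`
    obtain ⟨c, hce, hcgd, hc_or⟩ : ∃ c : A, c ∣ e ∧ c ∣ g * d ∧
        ∀ x, c ∣ x → e ∣ x ∨ g * d ∣ x := by
      rcases ValuationRing.dvd_total e (g * d) with h1 | h1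
      · exact ⟨e, dvd_rfl, h1, fun x hx => Or.inl hx⟩
      · exact ⟨g * d, h1, dvd_rfl, fun x hx => Or.inr hx⟩
    by_contra hcon
    push Not at hcon
    have hBwf : {i | ¬ (e ∣ W.coeff i ∨ g * d ∣ W.coeff i)}.IsWF :=
      W.isWF_support.mono (by
        intro i hi
        simp only [Set.mem_ofPred_eq] at hi
        simp only [HahnSeries.mem_support, ne_eq]
        intro h0
        exact hi (Or.inl (by rw [h0]; exact dvd_zero _)))
    have hBne : {i | ¬ (e ∣ W.coeff i ∨ g * d ∣ W.coeff i)}.Nonempty := by
      obtain ⟨i, hi⟩ := hcon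
      exact ⟨i, by simpa using hi⟩
    set i₀ := hBwf.min hBne with hi₀
    have hi₀B : ¬ (e ∣ W.coeff i₀ ∨ g * d ∣ W.coeff i₀) := hBwf.min_mem hBne
    have hi₀min : ∀ i < i₀, e ∣ W.coeff i ∨ g * d ∣ W.coeff i := by
      intro i hi
      by_contra hc
      exact hBwf.not_lt_min hBne hc hi
    have hW0 : W.coeff i₀ ≠ 0 := by
      intro h0
      exact hi₀B (Or.inl (by rw [h0]; exact dvd_zero _))
    have hmem : (i₀, j₀) ∈ Finset.antidiagonal W.isPWO_support s.isPWO_support (i₀ + j₀) := by
      rw [Finset.mem_antidiagonal]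
      exact ⟨by simpa using hW0, by simpa using hj₀u.ne_zero, rfl⟩
    have hsum := HahnSeries.coeff_mul (x := W) (y := s) (a := i₀ + j₀)
    rw [← Finset.add_sum_erase _ _ hmem] at hsum
    have hrest : c ∣ ∑ ij ∈ (Finset.antidiagonal W.isPWO_support s.isPWO_support
        (i₀ + j₀)).erase (i₀, j₀), W.coeff ij.1 * s.coeff ij.2 := by
      refine Finset.dvd_sum fun ij hij => ?_
      obtain ⟨hne, hij'⟩ := Finset.mem_erase.mp hij
      rw [Finset.mem_antidiagonal] at hij'
      obtain ⟨-, -, hadd⟩ := hij'
      rcases lt_trichotomy ij.1 i₀ with hlt | heq | hgt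
      · rcases hi₀min ij.1 hlt with h1 | h1
        · exact (hce.trans h1).mul_right _
        · exact (hcgd.trans h1).mul_right _
      · exfalso
        apply hne
        have : ij.2 = j₀ := by
          rw [heq] at hadd
          exact add_left_cancel hadd
        exact Prod.ext heq this
      · have hj : ij.2 < j₀ := by
          by_contra hge
          push Not at hge
          have : i₀ + j₀ < ij.1 + ij.2 := add_lt_add_of_lt_of_le hgt hge
          exact absurd hadd (ne_of_gt this)
        exact hcgd.trans (mul_dvd_mul (hg ij.1) (hdlow ij.2 hj))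
    have hx : c ∣ W.coeff i₀ * s.coeff j₀ := by
      have h1 : c ∣ (W * s).coeff (i₀ + j₀) := hce.trans (h (i₀ + j₀))
      rw [hsum] at h1
      exact (dvd_add_left hrest).mp h1
    rcases hc_or _ hx with h1 | h1
    · exact hi₀B (Or.inl ((hj₀u.dvd_mul_right).mp h1))
    · exact hi₀B (Or.inr ((hj₀u.dvd_mul_right).mp h1))
  -- induction on the power of `d`
  have hP : ∀ r : ℕ, ∀ i, e ∣ W.coeff i ∨ d ^ r ∣ W.coeff i := by
    intro r
    induction r with
    | zero =>
      intro i
      right
      rw [pow_zero]
      exact one_dvd _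
    | succ r ih =>
      rcases ValuationRing.dvd_total e (d ^ r) with h1 | h1
      · intro i
        left
        rcases ih i with h2 | h2
        · exact h2
        · exact h1.trans h2
      · have hg : ∀ i, d ^ r ∣ W.coeff i := by
          intro i
          rcases ih i with h2 | h2
          · exact h1.trans h2
          · exact h2
        intro i
        rw [pow_succ]
        exact step (d ^ r) hg i
  obtain ⟨r, hr⟩ := hrank d e hd he
  intro i
  rcases hP r i with h1 | h1
  · exact h1
  · exact hr.trans h1

/-- **Gauss lemma, rank one**, series form. -/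
theorem C_dvd_of_C_dvd_mul
    (hrank : ∀ d e : A, ¬ IsUnit d → e ≠ 0 → ∃ r : ℕ, e ∣ d ^ r)
    (s W : LaurentSeries A) (hs : ∃ j, IsUnit (s.coeff j)) (e : A)
    (h : HahnSeries.C e ∣ W * s) : HahnSeries.C e ∣ W :=
  (C_dvd_iff e W).mpr (coeff_dvd_of_dvd_mul A hrank s W hs e ((C_dvd_iff e _).mp h))

/-- A series with nonzero reduction has a unit coefficient. -/
theorem exists_isUnit_coeff_of_rbar_ne_zero {k : Type*} [Field k] (π : A →+* k)
    (hπ : ∀ a : A, ¬ IsUnit a → π a = 0) (s : LaurentSeries A) (hs : rbar A π s ≠ 0) :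
    ∃ j, IsUnit (s.coeff j) := by
  by_contra hcon
  push Not at hcon
  apply hs
  ext j
  rw [rbar_coeff, hπ _ (hcon j)]
  rfl

end

end Fermat.Agent.BAD.TwoVal
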