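/-
BAD / two-valuation layer (T2): the tower step for an IMMEDIATE extension.

* `newton_approx`        : integral Newton iteration with an approximate inverse of the derivative;
* `goodV_step_immediate` : if `GoodV A π F κ` and `X` is an `A`-integral series, algebraic over
  `F`, which is congruent modulo every power of a nonunit constant `c` to an `A`-integral series
  lying in `F`, then `GoodV A π F(X) κ` — with the SAME residue field `κ`.
-/
import Mathlib
import Fermat.Agent.Lib.Red.GaussTower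
import Fermat.Agent.BAD.TwoVal.GaussLemma

set_option autoImplicit false

namespace Fermat.Agent.BAD.TwoVal

open HahnSeries ModularCurve Fermat.Agent.Lib.Red

noncomputable section

/-- **Integral Newton iteration** with an approximate inverse `E` of the derivative: if `x` is a
root of `Ψ`, `x ≡ y₀` and `E * Ψ'(y₀) ≡ 1` modulo `c`, then `x` is congruent modulo every power
of `c` to an element of the subring generated by the data. -/
theorem newton_approx {R : Type*} [CommRing R] (R₀ : Subring R) (c : R) (Ψ : Polynomial R)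
    (hΨ : ∀ i, Ψ.coeff i ∈ R₀) (x y₀ E : R) (hx : Ψ.eval x = 0) (hy₀ : y₀ ∈ R₀) (hE : E ∈ R₀)
    (h0 : c ∣ x - y₀) (hder : c ∣ 1 - E * Ψ.derivative.eval y₀) :
    ∀ n : ℕ, ∃ y ∈ R₀, c ^ (n + 1) ∣ x - y := by
  have heval : ∀ y ∈ R₀, Ψ.eval y ∈ R₀ := by
    intro y hy
    rw [Polynomial.eval_eq_sum_range]
    exact R₀.sum_mem fun i _ => R₀.mul_mem (hΨ i) (R₀.pow_mem hy i)
  intro n
  induction n with
  | zero => exact ⟨y₀, hy₀, by rw [zero_add, pow_one]; exact h0⟩
  | succ n ih =>
    obtain ⟨y, hy, hdiv⟩ := ih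
    have hc1 : c ∣ x - y := (dvd_pow_self c (Nat.succ_ne_zero n)).trans hdiv
    have hyy₀ : c ∣ y - y₀ := by
      have : y - y₀ = (x - y₀) - (x - y) := by ring
      rw [this]
      exact dvd_sub h0 hc1
    have hder' : c ∣ 1 - E * Ψ.derivative.eval y := by
      have h1 : c ∣ Ψ.derivative.eval y - Ψ.derivative.eval y₀ :=
        hyy₀.trans (Polynomial.sub_dvd_eval_sub y y₀ Ψ.derivative)
      have : 1 - E * Ψ.derivative.eval y =
          (1 - E * Ψ.derivative.eval y₀) - E * (Ψ.derivative.eval y - Ψ.derivative.eval y₀) := by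
        ring
      rw [this]
      exact dvd_sub hder (h1.mul_left E)
    obtain ⟨k, hk⟩ := Polynomial.binomExpansion Ψ y (x - y)
    have hxy : y + (x - y) = x := by ring
    rw [hxy, hx] at hk
    refine ⟨y - E * Ψ.eval y, R₀.sub_mem hy (R₀.mul_mem hE (heval y hy)), ?_⟩
    have hΨy : Ψ.eval y = -(Ψ.derivative.eval y * (x - y)) - k * (x - y) ^ 2 := by
      linear_combination -hk
    have key : x - (y - E * Ψ.eval y) =
        (x - y) * (1 - E * Ψ.derivative.eval y) - E * k * (x - y) ^ 2 := by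
      rw [hΨy]
      ring
    rw [key]
    have hpow : c ^ (n + 1 + 1) = c ^ (n + 1) * c := pow_succ c (n + 1)
    refine dvd_sub ?_ ?_
    · rw [hpow]
      exact mul_dvd_mul hdiv hder'
    · have h2 : c ^ (n + 1 + 1) ∣ (x - y) ^ 2 := by
        rw [hpow, sq]
        exact mul_dvd_mul hdiv hc1
      exact h2.mul_left _

variable {L : Type*} [Field L] {A : ValuationSubring L} {k : Type*} [Field k] {π : A →+* k}

theorem incl_ne_zero {Z : LaurentSeries A} (hZ : Z ≠ 0) : incl A Z ≠ 0 := by
  intro h0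
  exact hZ (incl_injective A (by rw [h0, map_zero]))

theorem ne_zero_of_rbar_ne_zero {s : LaurentSeries A} (hs : rbar A π s ≠ 0) : s ≠ 0 := by
  rintro rfl
  exact hs (map_zero _)

/-- **Immediate tower step.**  Adjoin an `A`-integral series `X`, algebraic over `F`, which is
congruent modulo every power of a nonzero nonunit constant `c` to an `A`-integral series lying in
`F`.  The invariant `GoodV` propagates with the same residue field. -/
theorem goodV_step_immediate (hπ : ∀ a : A, ¬ IsUnit a → π a = 0)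
    (hrank : ∀ d e : A, ¬ IsUnit d → e ≠ 0 → ∃ r : ℕ, e ∣ d ^ r)
    {F : IntermediateField L (LaurentSeries L)} {κ : IntermediateField k (LaurentSeries k)}
    (h : GoodV A π F κ) (X : LaurentSeries A) {n : ℕ}
    (hdeg : ∃ a : Fin n → LaurentSeries L, (∀ t, a t ∈ F) ∧
      incl A X ^ n = ∑ t, a t * incl A X ^ (t : ℕ))
    (c : A) (hc : ¬ IsUnit c) (hc0 : c ≠ 0)
    (happ : ∀ m : ℕ, ∃ Y : LaurentSeries A, incl A Y ∈ F ∧ HahnSeries.C (c ^ m) ∣ X - Y) :
    GoodV A π (IntermediateField.adjoin L ((F : Set (LaurentSeries L)) ∪ {incl A X})) κ := by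
  intro y hy hy0
  set F' := IntermediateField.adjoin L ((F : Set (LaurentSeries L)) ∪ {incl A X}) with hF'
  have hFle : ∀ z ∈ F, z ∈ F' := fun z hz =>
    IntermediateField.subset_adjoin L _ (Or.inl hz)
  have hy' : y ∈ Subfield.closure ((F.toSubfield : Set (LaurentSeries L)) ∪ {incl A X}) := by
    rw [closure_union_eq_adjoin']
    exact hy
  obtain ⟨cf, hcF, hyc⟩ := Fermat.Agent.S28.Tower.exists_repr (F := F.toSubfield) hdeg hy'
  have hne : ∃ t, cf t ≠ 0 := by
    by_contra hall
    push Not at hall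
    apply hy0
    rw [hyc]
    exact Finset.sum_eq_zero fun t _ => by rw [hall t, zero_mul]
  obtain ⟨b, Q, s₀, hb, hs₀F, hs₀, hs₀κ, hQ, -, -⟩ := h.scaling_fin cf hcF hne
  -- the integral series `Z = b y s₀`
  set Z : LaurentSeries A := ∑ t, Q t * X ^ (t : ℕ) with hZ
  have hZeq : HahnSeries.C b * y * incl A s₀ = incl A Z := by
    rw [hZ, map_sum, hyc, Finset.mul_sum, Finset.sum_mul]
    refine Finset.sum_congr rfl fun t _ => ?_
    rw [map_mul, map_pow, ← (hQ t).2.2]
    ring
  have hCb : (HahnSeries.C b : LaurentSeries L) ≠ 0 := fun h0 =>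
    hb (HahnSeries.C_injective (by rw [h0, map_zero]))
  have hZ0 : Z ≠ 0 := by
    intro h0
    have h1 : HahnSeries.C b * y * incl A s₀ = 0 := by rw [hZeq, h0, map_zero]
    rcases mul_eq_zero.mp h1 with h2 | h2
    · rcases mul_eq_zero.mp h2 with h3 | h3
      · exact hCb h3
      · exact hy0 h3
    · exact incl_ne_zero (ne_zero_of_rbar_ne_zero hs₀) h2
  -- a coefficient of `Z` not divisible by a power of `c`
  obtain ⟨i, hi⟩ : ∃ i, Z.coeff i ≠ 0 := by
    by_contra hall
    push Not at hall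
    exact hZ0 (HahnSeries.ext (funext hall))
  obtain ⟨m, hm⟩ : ∃ m : ℕ, ¬ c ^ m ∣ Z.coeff i := by
    obtain ⟨r, hr⟩ := hrank c (Z.coeff i * c) hc (mul_ne_zero hi hc0)
    refine ⟨r, fun hdiv => hc ?_⟩
    have h1 : Z.coeff i * c ∣ Z.coeff i * 1 := by
      rw [mul_one]
      exact hr.trans hdiv
    exact isUnit_of_dvd_one ((mul_dvd_mul_iff_left hi).mp h1)
  -- the approximation of `Z` in `F`
  obtain ⟨Y, hYF, hYdiv⟩ := happ m
  set Zm : LaurentSeries A := ∑ t, Q t * Y ^ (t : ℕ) with hZm
  have hZmF : incl A Zm ∈ F := by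
    rw [hZm, map_sum]
    exact F.sum_mem fun t _ => by
      rw [map_mul, map_pow]
      exact F.mul_mem (hQ t).1 (pow_mem hYF (t : ℕ))
  have hdiff : HahnSeries.C (c ^ m) ∣ Z - Zm := by
    rw [hZ, hZm, ← Finset.sum_sub_distrib]
    refine Finset.dvd_sum fun t _ => ?_
    rw [← mul_sub]
    exact (hYdiv.trans (sub_dvd_pow_sub_pow X Y t)).mul_left _
  obtain ⟨S, hS⟩ := hdiff
  have hZm0 : Zm ≠ 0 := by
    intro h0
    rw [h0, sub_zero] at hS
    exact hm ((C_dvd_iff (c ^ m) Z).mp ⟨S, hS⟩ i)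
  obtain ⟨a', P', s', ha', hP'F, hs'F, hP', hs', hP'κ, hs'κ, heq'⟩ :=
    h (incl A Zm) hZmF (incl_ne_zero hZm0)
  have hCa' : (HahnSeries.C a' : LaurentSeries L) ≠ 0 := fun h0 =>
    ha' (HahnSeries.C_injective (by rw [h0, map_zero]))
  -- the constant `a' c^m` is a nonunit of `A`
  have hnotinv : (a' * ((c ^ m : A) : L))⁻¹ ∉ A := by
    intro hinv
    apply hm
    have hcm0 : ((c ^ m : A) : L) ≠ 0 := by
      have : (c ^ m : A) ≠ 0 := pow_ne_zero m hc0
      exact fun h0 => this (Subtype.ext h0)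
    have h1 : Zm * s' = HahnSeries.C (c ^ m) * (HahnSeries.C ⟨_, hinv⟩ * P') := by
      apply incl_injective A
      rw [map_mul, map_mul, map_mul, incl_C, incl_C, ← heq']
      have h2 : (HahnSeries.C ((c ^ m : A) : L) : LaurentSeries L) *
          (HahnSeries.C (a' * ((c ^ m : A) : L))⁻¹ * (HahnSeries.C a' * incl A Zm * incl A s')) =
          HahnSeries.C (((c ^ m : A) : L) * (a' * ((c ^ m : A) : L))⁻¹ * a') *
            (incl A Zm * incl A s') := by
        rw [map_mul, map_mul]
        ring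
      rw [h2]
      have h3 : ((c ^ m : A) : L) * (a' * ((c ^ m : A) : L))⁻¹ * a' = 1 := by
        field_simp
      rw [h3, map_one, one_mul]
    have h4 : HahnSeries.C (c ^ m) ∣ Zm :=
      C_dvd_of_C_dvd_mul A hrank s' Zm (exists_isUnit_coeff_of_rbar_ne_zero A π hπ s' hs')
        (c ^ m) ⟨_, h1⟩
    have h5 : HahnSeries.C (c ^ m) ∣ Z := by
      have : Z = Zm + HahnSeries.C (c ^ m) * S := by rw [← hS]; ring
      rw [this]
      exact dvd_add h4 (dvd_mul_right _ _)
    exact (C_dvd_iff (c ^ m) Z).mp h5 i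
  have hmemA : a' * ((c ^ m : A) : L) ∈ A := (A.mem_or_inv_mem _).resolve_right hnotinv
  set e₁ : A := ⟨a' * ((c ^ m : A) : L), hmemA⟩ with he₁
  have he₁nu : ¬ IsUnit e₁ := by
    intro hu
    obtain ⟨w, hw⟩ := hu.exists_right_inv
    have hw' : a' * ((c ^ m : A) : L) * (w : L) = 1 := congrArg Subtype.val hw
    have : (w : L) = (a' * ((c ^ m : A) : L))⁻¹ := eq_inv_of_mul_eq_one_right hw'
    exact hnotinv (this ▸ w.2)
  have hπe : π e₁ = 0 := hπ e₁ he₁nu
  -- the new numerator and denominator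
  set P : LaurentSeries A := P' + HahnSeries.C e₁ * S * s' with hP
  have hPeq : HahnSeries.C (b * a') * y * incl A (s₀ * s') = incl A P := by
    have hZ' : incl A Z = incl A Zm + HahnSeries.C ((c ^ m : A) : L) * incl A S := by
      have : Z = Zm + HahnSeries.C (c ^ m) * S := by rw [← hS]; ring
      rw [this, map_add, map_mul, incl_C]
    have hP2 : incl A P = incl A P' +
        HahnSeries.C (a' * ((c ^ m : A) : L)) * incl A S * incl A s' := by
      rw [hP, map_add, map_mul, map_mul, incl_C]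
    have h1 : (HahnSeries.C (b * a') : LaurentSeries L) * y * incl A (s₀ * s') =
        HahnSeries.C a' * (HahnSeries.C b * y * incl A s₀) * incl A s' := by
      rw [map_mul, map_mul]
      ring
    rw [h1, hZeq, hZ', hP2, ← heq', map_mul]
    ring
  have hPbar : rbar A π P = rbar A π P' := by
    rw [hP, map_add, map_mul, map_mul, rbar_C, hπe, map_zero, zero_mul, zero_mul, add_zero]
  have hsF' : incl A (s₀ * s') ∈ F' := by
    rw [map_mul]
    exact F'.mul_mem (hFle _ hs₀F) (hFle _ hs'F)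
  refine ⟨b * a', P, s₀ * s', mul_ne_zero hb ha', ?_, hsF', ?_, ?_, ?_, ?_, hPeq⟩
  · rw [← hPeq]
    exact F'.mul_mem (F'.mul_mem (C_mem F' _) hy) hsF'
  · rw [hPbar]
    exact hP'
  · rw [map_mul]
    exact mul_ne_zero hs₀ hs'
  · rw [hPbar]
    exact hP'κ
  · rw [map_mul]
    exact κ.mul_mem hs₀κ hs'κ

end

end Fermat.Agent.BAD.TwoVal
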