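/-
BAD / two-valuation layer (T3): the Gauss valuation `w_∞` at a BAD level.

For a prime `ℓ` which is zero in the residue field `k` and a level `M` prime to `ℓ`, the field
`F_{Mℓ} = L(J(q^d) : d ∣ Mℓ)` satisfies `GoodV` with residue field the mod-`ℓ` function field of
level `M`:

  `goodV_bad : GoodV A π (TD.FF L (M * ℓ) 1) (TD.FF k M 1)`.

(`F_{Mℓ} = F_M(J(q^ℓ))` is an immediate extension of `F_M` for the Gauss valuation: `J(q^ℓ)` is the
root of `Φ_ℓ(J, Y)` near `J^ℓ`, and Newton's iteration approximates it inside `F_M`.)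
-/
import Mathlib
import Fermat.Agent.Lib.Red.Unconditional
import Fermat.Agent.ESJ.Kronecker
import Fermat.Agent.ESJ.Cong.LevelGen
import Fermat.Agent.BAD.TwoVal.Immediate

set_option autoImplicit false

namespace Fermat.Agent.BAD.TwoVal

open HahnSeries ModularCurve Polynomial Fermat.Agent.Lib.Red Fermat.Agent.S28

noncomputable section

/-! ### Integral facts about `J` -/

/-- `J^n - J` is a unit of `R((q))` for `n ≥ 2`. -/
theorem exists_inv_Jpow_sub (R : Type*) [CommRing R] {n : ℕ} (hn : 2 ≤ n) :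
    ∃ E : LaurentSeries R, E * (TD.Jd R 1 ^ n - TD.Jd R 1) = 1 := by
  set U : PowerSeries R := jNum.map (Int.castRingHom R) with hU
  have hU1 : PowerSeries.constantCoeff U = 1 := by
    rw [hU, ← PowerSeries.coeff_zero_eq_constantCoeff_apply, PowerSeries.coeff_map,
      PowerSeries.coeff_zero_eq_constantCoeff_apply, constantCoeff_jNum, map_one]
  have hJn : ∀ m : ℕ, TD.Jd R 1 ^ m = HahnSeries.single (-(m : ℤ)) 1 *
      HahnSeries.ofPowerSeries ℤ R (U ^ m) := by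
    intro m
    rw [TD.Jd_one, jqModC_pow]
  have hJ1 : TD.Jd R 1 = HahnSeries.single (-(1 : ℤ)) 1 * HahnSeries.ofPowerSeries ℤ R U := by
    have := hJn 1
    rwa [pow_one, pow_one, Nat.cast_one] at this
  set V : PowerSeries R := U ^ n - PowerSeries.X ^ (n - 1) * U with hV
  have hV1 : PowerSeries.constantCoeff V = 1 := by
    rw [hV, map_sub, map_pow, map_mul, map_pow, hU1, one_pow, PowerSeries.constantCoeff_X,
      zero_pow (by omega), zero_mul, sub_zero]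
  have hVu : IsUnit V := by
    rw [PowerSeries.isUnit_iff_constantCoeff, hV1]
    exact isUnit_one
  obtain ⟨V', hV'⟩ := hVu.exists_left_inv
  have hdiff : TD.Jd R 1 ^ n - TD.Jd R 1 =
      HahnSeries.single (-(n : ℤ)) 1 * HahnSeries.ofPowerSeries ℤ R V := by
    have hX : HahnSeries.ofPowerSeries ℤ R (PowerSeries.X ^ (n - 1)) =
        HahnSeries.single ((n - 1 : ℕ) : ℤ) 1 := HahnSeries.ofPowerSeries_X_pow _
    rw [hV, map_sub, map_mul, hX, mul_sub, ← hJn n]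
    congr 1
    rw [← mul_assoc, HahnSeries.single_mul_single, mul_one]
    have h1 : -(n : ℤ) + ((n - 1 : ℕ) : ℤ) = -(1 : ℤ) := by
      rw [Nat.cast_sub (by omega)]
      push_cast
      ring
    rw [h1]
    exact hJ1
  refine ⟨HahnSeries.single (n : ℤ) 1 * HahnSeries.ofPowerSeries ℤ R V', ?_⟩
  rw [hdiff]
  have h1 : HahnSeries.single (n : ℤ) (1 : R) * HahnSeries.ofPowerSeries ℤ R V' *
      (HahnSeries.single (-(n : ℤ)) 1 * HahnSeries.ofPowerSeries ℤ R V) =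
      (HahnSeries.single (n : ℤ) (1 : R) * HahnSeries.single (-(n : ℤ)) 1) *
        (HahnSeries.ofPowerSeries ℤ R V' * HahnSeries.ofPowerSeries ℤ R V) := by ring
  rw [h1, HahnSeries.single_mul_single, ← map_mul, hV', map_one, add_neg_cancel, mul_one,
    mul_one]
  rfl

/-- An integral series which vanishes modulo `ℓ` is divisible by `ℓ` over every ring. -/
theorem C_dvd_coeffMap_of_zmod (ℓ : ℕ) (W : LaurentSeries ℤ)
    (hW : coeffMap (Int.castRingHom (ZMod ℓ)) W = 0) (R : Type*) [CommRing R] :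
    HahnSeries.C (ℓ : R) ∣ coeffMap (Int.castRingHom R) W := by
  rw [C_dvd_iff]
  intro i
  have h1 : (Int.castRingHom (ZMod ℓ)) (W.coeff i) = 0 := by
    have := congrArg (fun f => f.coeff i) hW
    exact this
  have h2 : (ℓ : ℤ) ∣ W.coeff i := (ZMod.intCast_zmod_eq_zero_iff_dvd _ _).mp h1
  have h3 := map_dvd (Int.castRingHom R) h2
  rw [map_natCast] at h3
  exact h3

/-- `J(q^ℓ) ≡ J(q)^ℓ` modulo `ℓ`, over every ring. -/
theorem C_dvd_Jd_sub_pow (ℓ : ℕ) [Fact ℓ.Prime] (R : Type*) [CommRing R] :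
    HahnSeries.C (ℓ : R) ∣ TD.Jd R ℓ - TD.Jd R 1 ^ ℓ := by
  have h := C_dvd_coeffMap_of_zmod ℓ (TD.Jd ℤ ℓ - TD.Jd ℤ 1 ^ ℓ) (by
    rw [map_sub, map_pow, TD.coeffMap_Jd, TD.coeffMap_Jd,
      Fermat.Agent.ESJ.Kronecker.Jd_pow_char (ZMod ℓ) ℓ, sub_self]) R
  rwa [map_sub, map_pow, TD.coeffMap_Jd, TD.coeffMap_Jd] at h

/-- The derivative of the modular polynomial at the approximate root: `∂_X Φ_ℓ(J^ℓ, J) ≡
J^(ℓ²) - J` modulo `ℓ`. -/
theorem C_dvd_derivative (ℓ : ℕ) [Fact ℓ.Prime] (D : TD.ModEq ℓ) (R : Type*) [CommRing R] :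
    HahnSeries.C (ℓ : R) ∣ (TD.polyAt D.Φ (TD.Jd R 1)).derivative.eval (TD.Jd R 1 ^ ℓ) -
      (TD.Jd R 1 ^ (ℓ * ℓ) - TD.Jd R 1) := by
  have hder' : (TD.polyAt D.Φ (TD.Jd R 1)).derivative =
      TD.polyAt (Polynomial.derivative D.Φ) (TD.Jd R 1) := by
    unfold TD.polyAt
    rw [Polynomial.derivative_map]
  -- the statement over `ZMod ℓ`
  have hK : (TD.polyAt (Polynomial.derivative D.Φ) (TD.Jd (ZMod ℓ) 1)).eval
      (TD.Jd (ZMod ℓ) 1 ^ ℓ) = TD.Jd (ZMod ℓ) 1 ^ (ℓ * ℓ) - TD.Jd (ZMod ℓ) 1 := by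
    rw [Fermat.Agent.ESJ.Kronecker.eval_polyAt_eq, ← Polynomial.derivative_map,
      Fermat.Agent.ESJ.Kronecker.kronecker D (ZMod ℓ)]
    have hd : Polynomial.derivative
        (((Polynomial.X : Polynomial (Polynomial (ZMod ℓ))) ^ ℓ - Polynomial.C Polynomial.X) *
          (Polynomial.X - Polynomial.C (Polynomial.X ^ ℓ))) =
        (Polynomial.X : Polynomial (Polynomial (ZMod ℓ))) ^ ℓ - Polynomial.C Polynomial.X := by
      rw [Polynomial.derivative_mul, Polynomial.derivative_sub, Polynomial.derivative_sub,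
        Polynomial.derivative_X_pow, Polynomial.derivative_C, Polynomial.derivative_C,
        Polynomial.derivative_X]
      have : ((ℓ : ℕ) : Polynomial (Polynomial (ZMod ℓ))) = 0 := CharP.cast_eq_zero _ ℓ
      rw [← Polynomial.C_eq_natCast] at this
      rw [this]
      ring
    rw [hd, Polynomial.eval₂_sub, Polynomial.eval₂_pow, Polynomial.eval₂_X, Polynomial.eval₂_C,
      Polynomial.coe_eval₂RingHom, Polynomial.eval₂_X, ← pow_mul]
  have h := C_dvd_coeffMap_of_zmod ℓ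
    ((TD.polyAt (Polynomial.derivative D.Φ) (TD.Jd ℤ 1)).eval (TD.Jd ℤ 1 ^ ℓ) -
      (TD.Jd ℤ 1 ^ (ℓ * ℓ) - TD.Jd ℤ 1)) (by
    rw [map_sub, TD.map_eval_polyAt, map_sub, map_pow, map_pow, TD.coeffMap_Jd, hK, sub_self]) R
  rw [map_sub, TD.map_eval_polyAt, map_sub, map_pow, map_pow, TD.coeffMap_Jd] at h
  rw [hder']
  exact h

/-! ### The approximations of `J(q^ℓ)` inside `F_M` -/

variable {L : Type*} [Field L] [Algebra ℚ L] (A : ValuationSubring L)

omit [Algebra ℚ L] in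
/-- `J(q^ℓ)` is congruent modulo every power of `ℓ` to an `A`-integral series lying in `F_M`. -/
theorem exists_approx_Jd (ℓ : ℕ) [Fact ℓ.Prime] (M : ℕ) :
    ∀ m : ℕ, ∃ Y : LaurentSeries A, incl A Y ∈ TD.FF L M 1 ∧
      HahnSeries.C ((ℓ : A) ^ m) ∣ TD.Jd A ℓ - Y := by
  have hℓ : ℓ.Prime := Fact.out
  obtain ⟨D⟩ := modEq_all ℓ hℓ
  have hJ : TD.Jd L 1 ∈ TD.FF L M 1 := by
    have := TD.Jd_mem_FF L (N := M) (m := 1) (d := 1) (one_dvd M)
    rwa [mul_one] at this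
  set R₀ : Subring (LaurentSeries A) := (TD.FF L M 1).toSubring.comap (incl A) with hR₀
  have hmemR₀ : ∀ z : LaurentSeries A, z ∈ R₀ ↔ incl A z ∈ TD.FF L M 1 := fun z => Iff.rfl
  have hJA : TD.Jd A 1 ∈ R₀ := by
    rw [hmemR₀, incl_Jd]
    exact hJ
  obtain ⟨E, hE⟩ := exists_inv_Jpow_sub A (n := ℓ * ℓ) (by nlinarith [hℓ.two_le])
  have hER : E ∈ R₀ := by
    rw [hmemR₀]
    have h1 := congrArg (incl A) hE
    rw [map_mul, map_sub, map_pow, incl_Jd, map_one] at h1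
    have h2 : incl A E = (TD.Jd L 1 ^ (ℓ * ℓ) - TD.Jd L 1)⁻¹ := eq_inv_of_mul_eq_one_left h1
    rw [h2]
    exact (TD.FF L M 1).inv_mem ((TD.FF L M 1).sub_mem (pow_mem hJ _) hJ)
  have hΨ : ∀ i, (TD.polyAt D.Φ (TD.Jd A 1)).coeff i ∈ R₀ := by
    intro i
    unfold TD.polyAt
    rw [Polynomial.coeff_map, Polynomial.coe_eval₂RingHom, Polynomial.eval₂_eq_sum_range]
    exact R₀.sum_mem fun j _ => R₀.mul_mem (intCast_mem R₀ _) (R₀.pow_mem hJA j)
  have hx : (TD.polyAt D.Φ (TD.Jd A 1)).eval (TD.Jd A ℓ) = 0 := by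
    have := D.rel₂' hℓ.ne_zero A 1 one_ne_zero
    rwa [one_mul] at this
  have hder : HahnSeries.C ((ℓ : ℕ) : A) ∣
      1 - E * (TD.polyAt D.Φ (TD.Jd A 1)).derivative.eval (TD.Jd A 1 ^ ℓ) := by
    have h1 := C_dvd_derivative ℓ D A
    have h2 : 1 - E * (TD.polyAt D.Φ (TD.Jd A 1)).derivative.eval (TD.Jd A 1 ^ ℓ) =
        -(E * ((TD.polyAt D.Φ (TD.Jd A 1)).derivative.eval (TD.Jd A 1 ^ ℓ) -
          (TD.Jd A 1 ^ (ℓ * ℓ) - TD.Jd A 1))) := by
      linear_combination -hE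
    rw [h2]
    exact (h1.mul_left E).neg_right
  have hN := newton_approx R₀ (HahnSeries.C ((ℓ : ℕ) : A)) (TD.polyAt D.Φ (TD.Jd A 1)) hΨ
    (TD.Jd A ℓ) (TD.Jd A 1 ^ ℓ) E hx (R₀.pow_mem hJA ℓ) hER (C_dvd_Jd_sub_pow ℓ A) hder
  intro m
  rcases m with _ | m
  · refine ⟨0, ?_, ?_⟩
    · rw [map_zero]
      exact (TD.FF L M 1).zero_mem
    · rw [pow_zero, map_one]
      exact one_dvd _
  · obtain ⟨y, hy, hdiv⟩ := hN m
    refine ⟨y, (hmemR₀ y).mp hy, ?_⟩
    rw [map_pow]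
    exact hdiv

/-! ### The invariant at the bad level -/

variable {k : Type} [Field k] (π : A →+* k)

/-- `F_{Mℓ} = F_M(J(q^ℓ))`. -/
theorem FF_mul_eq_adjoin (ℓ : ℕ) (hℓ : ℓ.Prime) (M : ℕ) (hM : M ≠ 0) (hℓM : ¬ ℓ ∣ M) :
    TD.FF L (M * ℓ) 1 =
      IntermediateField.adjoin L ((TD.FF L M 1 : Set (LaurentSeries L)) ∪ {TD.Jd L ℓ}) := by
  apply le_antisymm
  · exact Fermat.Agent.ESJ.Cong.LevelGen.FF_mul_le_adjoin_fwd L M ℓ hM hℓ hℓM
  · rw [IntermediateField.adjoin_le_iff]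
    rintro z (hz | hz)
    · have hle : TD.FF L M 1 ≤ TD.FF L (M * ℓ) 1 := by
        unfold TD.FF
        apply IntermediateField.adjoin.mono
        rintro _ ⟨d, hd, rfl⟩
        exact ⟨d, Dvd.dvd.mul_right hd ℓ, rfl⟩
      exact hle hz
    · rw [Set.mem_singleton_iff] at hz
      rw [hz]
      have := TD.Jd_mem_FF L (N := M * ℓ) (m := 1) (d := ℓ) (Dvd.intro_left M rfl)
      rwa [one_mul] at this

/-- **The Gauss valuation at a bad level.**  If `ℓ = 0` in `k` and `M ≠ 0` in `k`, the field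
`F_{Mℓ}` satisfies the invariant `GoodV` with residue field the mod-`ℓ` function field of level
`M`. -/
theorem goodV_bad (hπ : ∀ a : A, ¬ IsUnit a → π a = 0)
    (hrank : ∀ d e : A, ¬ IsUnit d → e ≠ 0 → ∃ r : ℕ, e ∣ d ^ r)
    (ℓ : ℕ) [Fact ℓ.Prime] (hℓk : (ℓ : k) = 0) (M : ℕ) [NeZero M] (hMk : (M : k) ≠ 0) :
    GoodV A π (TD.FF L (M * ℓ) 1) (TD.FF k M 1) := by
  have hℓ : ℓ.Prime := Fact.out
  obtain ⟨D⟩ := modEq_all ℓ hℓ
  have hℓM : ¬ ℓ ∣ M := by
    rintro ⟨t, rfl⟩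
    apply hMk
    rw [Nat.cast_mul, hℓk, zero_mul]
  have h0 : GoodV A π (TD.FF L M 1) (TD.FF k M 1) :=
    goodV_FF' A π M hMk M (NeZero.ne M) dvd_rfl 1 one_ne_zero
  have hJ : TD.Jd L 1 ∈ TD.FF L M 1 := by
    have := TD.Jd_mem_FF L (N := M) (m := 1) (d := 1) (one_dvd M)
    rwa [mul_one] at this
  -- the degree relation
  have hdeg : ∃ a : Fin (ℓ + 1) → LaurentSeries L, (∀ t, a t ∈ TD.FF L M 1) ∧
      incl A (TD.Jd A ℓ) ^ (ℓ + 1) = ∑ t, a t * incl A (TD.Jd A ℓ) ^ (t : ℕ) := by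
    set P := TD.polyAt D.Φ (TD.Jd L 1) with hP
    have hPm : P.Monic := TD.polyAt_monic D.monic _
    have hPd : P.natDegree = ℓ + 1 := by
      rw [hP, TD.polyAt_natDegree D.monic, D.natDegree_eq]
    have hroot : P.eval (TD.Jd L ℓ) = 0 := by
      have := D.rel₂' hℓ.ne_zero L 1 one_ne_zero
      rwa [one_mul] at this
    have hcoeff : ∀ i, P.coeff i ∈ TD.FF L M 1 := by
      intro i
      rw [hP]
      unfold TD.polyAt
      rw [Polynomial.coeff_map, Polynomial.coe_eval₂RingHom, Polynomial.eval₂_eq_sum_range]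
      exact (TD.FF L M 1).sum_mem fun j _ =>
        (TD.FF L M 1).mul_mem (intCast_mem (TD.FF L M 1) _) (pow_mem hJ j)
    refine ⟨fun t => -P.coeff t, fun t => (TD.FF L M 1).neg_mem (hcoeff t), ?_⟩
    rw [incl_Jd]
    have h1 := hPm.as_sum
    rw [hPd] at h1
    have h2 : P.eval (TD.Jd L ℓ) = TD.Jd L ℓ ^ (ℓ + 1) +
        ∑ i ∈ Finset.range (ℓ + 1), P.coeff i * TD.Jd L ℓ ^ i := by
      conv_lhs => rw [h1]
      rw [Polynomial.eval_add, Polynomial.eval_pow, Polynomial.eval_X, Polynomial.eval_finsetSum]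
      congr 1
      exact Finset.sum_congr rfl fun i _ => by
        rw [Polynomial.eval_mul, Polynomial.eval_C, Polynomial.eval_pow, Polynomial.eval_X]
    rw [hroot] at h2
    have h3 : TD.Jd L ℓ ^ (ℓ + 1) = -∑ i ∈ Finset.range (ℓ + 1), P.coeff i * TD.Jd L ℓ ^ i := by
      linear_combination -h2
    rw [h3, ← Finset.sum_neg_distrib, Finset.sum_range]
    exact Finset.sum_congr rfl fun t _ => by ring
  have hc : ¬ IsUnit ((ℓ : ℕ) : A) := by
    intro hu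
    have h1 := hu.map π
    rw [map_natCast, hℓk] at h1
    exact not_isUnit_zero h1
  have hc0 : ((ℓ : ℕ) : A) ≠ 0 := by
    intro h0
    have h1 : ((ℓ : ℕ) : L) = 0 := by
      have := congrArg (fun a : A => (a : L)) h0
      simpa using this
    have : CharZero L := algebraRat.charZero L
    exact hℓ.ne_zero (Nat.cast_eq_zero.mp h1)
  have hstep := goodV_step_immediate hπ hrank h0 (TD.Jd A ℓ) hdeg ((ℓ : ℕ) : A) hc hc0
    (exists_approx_Jd A ℓ M)
  rw [incl_Jd] at hstep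
  rw [FF_mul_eq_adjoin ℓ hℓ M (NeZero.ne M) hℓM]
  exact hstep

end

end Fermat.Agent.BAD.TwoVal
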