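/-
BAD / two-valuation layer: the chart elements and the place-defined charts of the coordinate
`x = Y₁ Y₂` (helper54's `SatInst.chartFin`, `SatInst.chartInf`), from helper71's (C2)
(`CuspOrdInst`):

* `Y₁, Y₂ ∈ chartFin L x`  (regular where `x` is regular);
* `Y₁⁻¹, Y₂⁻¹, e = Y₂ / Y₁^ℓ ∈ chartInf L x`  (regular where `x` is a unit or has a pole);
* `chartC_ne_zero`, `hasRed_inv_chartZ` : `z = x^ℓ - x - 1` is a unit of `O`.
-/
import Mathlib
import Fermat.Agent.BAD.TwoVal.ChartElts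
import Fermat.Agent.BAD.CuspOrdInst
import Fermat.Agent.BAD.SatInst

set_option autoImplicit false

namespace Fermat.Agent.BAD.TwoVal

open HahnSeries ModularCurve Polynomial AlgebraicCurve Fermat.Agent.Lib.Red Fermat.Agent.S28
open Fermat.Agent.BAD.SatInst Fermat.Agent.BAD.CuspOrd

noncomputable section

/-! ### `z` is a unit of `O` -/

section Unit

variable {L : Type*} [Field L] [Algebra ℚ L] {A : ValuationSubring L} {k : Type} [Field k]
  {π : A →+* k} {M ℓ : ℕ} [NeZero M] [NeZero ℓ]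
  {W : laurentBaseChange L (modularFunctionFieldFull (M * ℓ)) ≃ₐ[L]
    laurentBaseChange L (modularFunctionFieldFull (M * ℓ))}

set_option synthInstance.maxHeartbeats 400000 in
omit [NeZero ℓ] in
/-- `c = x̄^ℓ - x̄ - 1 ≠ 0` (as soon as `ℓ ≥ 2`). -/
theorem chartC_ne_zero (hℓ : 2 ≤ ℓ) : chartC k M ℓ ≠ 0 := by
  intro h0
  have ht := transcendental_xk_pow (k := k) (M := M) (ℓ + 1) (Nat.succ_pos ℓ)
  rw [transcendental_iff] at ht
  have := ht (Polynomial.X ^ ℓ - Polynomial.X - 1) (by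
    rw [Polynomial.aeval_sub, Polynomial.aeval_sub, Polynomial.aeval_one, Polynomial.aeval_X_pow,
      Polynomial.aeval_X]
    exact h0)
  have h1 := congrArg (fun p : Polynomial k => p.coeff ℓ) this
  have hℓ1 : ℓ ≠ 1 := by omega
  have hℓ0 : ℓ ≠ 0 := by omega
  simp [Polynomial.coeff_X, Polynomial.coeff_one, hℓ0, Ne.symm hℓ1] at h1

theorem hasRed_inv_chartZ (h : BadSetup A π M ℓ) (hW : IsAL M ℓ W) :
    HasRed h W (chartZ L M ℓ)⁻¹ (chartC k M ℓ)⁻¹ (chartC k M ℓ)⁻¹ :=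
  (hasRed_chartZ h hW).inv (chartC_ne_zero h.hℓ.two_le) (chartC_ne_zero h.hℓ.two_le)

end Unit

/-! ### The place-defined charts -/

section Places

variable {L : Type} [Field L] [Algebra ℚ L] {M ℓ : ℕ} [NeZero M] [NeZero ℓ]

omit [NeZero ℓ] in
theorem xL_ne_zero : xL L M ≠ 0 := by
  intro h0
  have := transcendental_xL (L := L) M
  rw [h0] at this
  exact this isAlgebraic_zero

theorem Y1_ne_zero : Y1 L M ℓ ≠ 0 := by
  intro h0
  exact xL_ne_zero (L := L) (M := M) ((heckeAlphaBar L M ℓ).toRingHom.injective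
    (by rw [AlgHom.toRingHom_eq_coe, RingHom.coe_coe, map_zero]; exact h0))

theorem Y2_ne_zero : Y2 L M ℓ ≠ 0 := by
  intro h0
  exact xL_ne_zero (L := L) (M := M) ((heckeBetaBar L M ℓ).toRingHom.injective
    (by rw [AlgHom.toRingHom_eq_coe, RingHom.coe_coe, map_zero]; exact h0))

theorem chartX_ne_zero : chartX L M ℓ ≠ 0 := mul_ne_zero Y1_ne_zero Y2_ne_zero

theorem ord_chartX (P : Place L ↥(laurentBaseChange L (modularFunctionFieldFull (M * ℓ)))) :
    P.ord (chartX L M ℓ) = P.ord (Y1 L M ℓ) + P.ord (Y2 L M ℓ) :=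
  P.ord_mul Y1_ne_zero Y2_ne_zero

/-- `1 ≤ v(f)` iff `ord f ≤ 0`, for `f ≠ 0`. -/
theorem one_le_adicValuation_iff {K F : Type*} [Field K] [Field F] [Algebra K F]
    (P : Place K F) {f : F} (hf : f ≠ 0) : 1 ≤ P.adicValuation f ↔ P.ord f ≤ 0 := by
  rw [P.adicValuation_eq_exp_neg_ord hf, ← WithZero.exp_zero, WithZero.exp_le_exp]
  omega

theorem place_ord_pow {K F : Type*} [Field K] [Field F] [Algebra K F]
    (P : Place K F) {f : F} (hf : f ≠ 0) (n : ℕ) : P.ord (f ^ n) = n * P.ord f := by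
  induction n with
  | zero => simp
  | succ n ih =>
    rw [pow_succ, P.ord_mul (pow_ne_zero n hf) hf, ih]
    push_cast
    ring

/-- The poles of `x` are the poles of `Y₁`. -/
theorem ord_chartX_neg_iff (hℓ : ℓ.Prime)
    (P : Place L ↥(laurentBaseChange L (modularFunctionFieldFull (M * ℓ)))) :
    P.ord (chartX L M ℓ) < 0 ↔ P.ord (Y1 L M ℓ) < 0 := by
  rw [ord_chartX]
  constructor
  · intro h
    by_contra h1
    have h2 := ord_beta_xL_nonneg (L := L) (M := M) hℓ P (not_lt.mp h1)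
    have h1' := not_lt.mp h1
    change 0 ≤ P.ord (Y2 L M ℓ) at h2
    omega
  · intro h
    have h2 := (ord_alpha_xL_neg_iff (L := L) (M := M) hℓ P).mp h
    change P.ord (Y2 L M ℓ) < 0 at h2
    omega

/-- `Y₁` is regular where `x` is. -/
theorem Y1_mem_chartFin (hℓ : ℓ.Prime) : Y1 L M ℓ ∈ chartFin L (chartX L M ℓ) := by
  intro P hP
  by_contra hcon
  rw [P.not_adicValuation_le_one_iff] at hcon
  rcases P.adicValuation_le_one_iff.mp hP with h0 | h0
  · exact chartX_ne_zero h0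
  · exact absurd ((ord_chartX_neg_iff hℓ P).mpr hcon) (not_lt.mpr h0)

/-- `Y₂` is regular where `x` is. -/
theorem Y2_mem_chartFin (hℓ : ℓ.Prime) : Y2 L M ℓ ∈ chartFin L (chartX L M ℓ) := by
  intro P hP
  by_contra hcon
  rw [P.not_adicValuation_le_one_iff] at hcon
  rcases P.adicValuation_le_one_iff.mp hP with h0 | h0
  · exact chartX_ne_zero h0
  · have h1 := (ord_alpha_xL_neg_iff (L := L) (M := M) hℓ P).mpr hcon
    exact absurd ((ord_chartX_neg_iff hℓ P).mpr h1) (not_lt.mpr h0)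

/-- `Y₁⁻¹` is regular where `x` is a unit or has a pole. -/
theorem inv_Y1_mem_chartInf (hℓ : ℓ.Prime) : (Y1 L M ℓ)⁻¹ ∈ chartInf L (chartX L M ℓ) := by
  intro P hP
  rw [one_le_adicValuation_iff P chartX_ne_zero, ord_chartX] at hP
  rw [P.adicValuation_le_one_iff, P.ord_inv]
  right
  by_contra hcon
  have h1 : 0 ≤ P.ord (Y1 L M ℓ) := by omega
  have h2 := ord_beta_xL_nonneg (L := L) (M := M) hℓ P h1
  change 0 ≤ P.ord (Y2 L M ℓ) at h2
  omega

/-- `Y₂⁻¹` is regular where `x` is a unit or has a pole. -/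
theorem inv_Y2_mem_chartInf (hℓ : ℓ.Prime) : (Y2 L M ℓ)⁻¹ ∈ chartInf L (chartX L M ℓ) := by
  intro P hP
  rw [one_le_adicValuation_iff P chartX_ne_zero, ord_chartX] at hP
  rw [P.adicValuation_le_one_iff, P.ord_inv]
  right
  by_contra hcon
  have h1 : 0 ≤ P.ord (Y2 L M ℓ) := by omega
  have h2 := ord_alpha_xL_nonneg (L := L) (M := M) hℓ P h1
  change 0 ≤ P.ord (Y1 L M ℓ) at h2
  omega

/-- **(C2)**: `e = Y₂ / Y₁^ℓ` is regular where `x` is a unit or has a pole. -/
theorem chartE_mem_chartInf (hℓ : ℓ.Prime) : chartE L M ℓ ∈ chartInf L (chartX L M ℓ) := by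
  intro P hP
  rw [one_le_adicValuation_iff P chartX_ne_zero, ord_chartX] at hP
  rw [P.adicValuation_le_one_iff]
  right
  have he : P.ord (chartE L M ℓ) = P.ord (Y2 L M ℓ) - ℓ * P.ord (Y1 L M ℓ) := by
    rw [chartE, div_eq_mul_inv, P.ord_mul Y2_ne_zero (inv_ne_zero (pow_ne_zero _ Y1_ne_zero)),
      P.ord_inv, place_ord_pow P Y1_ne_zero]
    ring
  rw [he]
  by_cases h1 : P.ord (Y1 L M ℓ) < 0
  · have h2 := ord_beta_xL_ge (L := L) (M := M) hℓ P h1
    change (ℓ : ℤ) * P.ord (Y1 L M ℓ) ≤ P.ord (Y2 L M ℓ) at h2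
    omega
  · have h1' := not_lt.mp h1
    have h2 := ord_beta_xL_nonneg (L := L) (M := M) hℓ P h1'
    change 0 ≤ P.ord (Y2 L M ℓ) at h2
    have h3 : P.ord (Y1 L M ℓ) = 0 := by omega
    rw [h3]
    omega

end Places

end

end Fermat.Agent.BAD.TwoVal
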