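/-
BAD / two-valuation layer (T5, abstract form): "bi-integral and integral over `L[x]` implies
integral over `A[x]`", from an orthonormal `L[x]`-basis.

`L` algebraically closed, `A` a valuation subring of `L`, `F ⊇ L(x)` a field, `O` a subring of `F`
containing `A` and `x` in which the Gauss units `x - c`, `1 - t x` (`c, t ∈ A`) can be divided
out, `β` an `L[x]`-orthonormal family (`BAD.PolyBasis.PolyOrtho`) spanning `F` over `L(x)`.
Then every `y ∈ O` which is integral over `L[x]` is integral over `A[x]`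
(`isIntegralElem_of_polyOrtho`): the lattice lemma (`Lib/Red/Lattice.lean`) applied to the
`L[x]`-module `M = L[x][y] + ∑ L[x][y] β_i` shows that `M ∩ O` is a finitely generated
`A[x]`-module, stable under `y`.
-/
import Mathlib
import Fermat.Agent.Lib.Red.Lattice
import Fermat.Agent.Lib.Red.GaussTower
import Fermat.Agent.BAD.PolyBasis

set_option autoImplicit false

open Polynomial

namespace Fermat.Agent.BAD.TwoVal

open Fermat.Agent.BAD.PolyBasis

variable {L F : Type*} [Field L] [Field F] [Algebra L F]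

/-- **Integrality over `A[x]` from an orthonormal `L[x]`-basis.** -/
theorem isIntegralElem_of_polyOrtho [IsAlgClosed L] {A : ValuationSubring L} {O : Subring F}
    {x : F} (hx : ∀ e : L[X], e ≠ 0 → aeval x e ≠ 0)
    (hOA : ∀ a ∈ A, algebraMap L F a ∈ O) (hOx : x ∈ O)
    (hu1 : ∀ c ∈ A, ∀ v : F, (x - algebraMap L F c) * v ∈ O → v ∈ O)
    (hu2 : ∀ t ∈ A, ∀ v : F, (1 - algebraMap L F t * x) * v ∈ O → v ∈ O)
    {n : ℕ} (β : Fin n → F) (hβO : ∀ i, β i ∈ O) (hβ : PolyOrtho A O x β)
    (hspan : ∀ v : F, ∃ (D : L[X]) (e : Fin n → L[X]), D ≠ 0 ∧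
      aeval x D * v = ∑ i, aeval x (e i) * β i)
    (y : F) (hyO : y ∈ O) (hy : (aeval x : L[X] →ₐ[L] F).toRingHom.IsIntegralElem y) :
    ((aeval x : L[X] →ₐ[L] F).toRingHom.comp
      (Polynomial.mapRingHom A.subtype)).IsIntegralElem y := by
  classical
  set f : L[X] →+* F := (aeval x : L[X] →ₐ[L] F).toRingHom with hf
  have hfa : ∀ e : L[X], f e = aeval x e := fun e => rfl
  obtain ⟨p, hpm, hpy⟩ := hy
  set d := p.natDegree with hd
  have hp1 : p ≠ 1 := by
    rintro rfl
    rw [eval₂_one] at hpy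
    exact one_ne_zero hpy
  -- reduction modulo `p`
  have hred : ∀ q : (L[X])[X],
      eval₂ f y q = ∑ j ∈ Finset.range d, f ((q %ₘ p).coeff j) * y ^ j := by
    intro q
    have h1 : eval₂ f y q = eval₂ f y (q %ₘ p) := by
      conv_lhs => rw [← modByMonic_add_div q p]
      rw [eval₂_add, eval₂_mul, hpy, zero_mul, add_zero]
    rw [h1]
    exact eval₂_eq_sum_range' f (natDegree_modByMonic_lt q hpm hp1) y
  -- denominators of the generators
  have h0 : ∀ j : ℕ, ∃ (D : L[X]) (e : Fin n → L[X]), D ≠ 0 ∧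
      aeval x D * y ^ j = ∑ i, aeval x (e i) * β i := fun j => hspan (y ^ j)
  choose D0 e0 hD0 he0 using h0
  have h1 : ∀ (i : Fin n) (j : ℕ), ∃ (D : L[X]) (e : Fin n → L[X]), D ≠ 0 ∧
      aeval x D * (y ^ j * β i) = ∑ l, aeval x (e l) * β l := fun i j => hspan (y ^ j * β i)
  choose D1 e1 hD1 he1 using h1
  set D : L[X] := (∏ j ∈ Finset.range d, D0 j) * ∏ i : Fin n, ∏ j ∈ Finset.range d, D1 i j
    with hDdef
  have hD : D ≠ 0 := by
    refine mul_ne_zero (Finset.prod_ne_zero_iff.mpr fun j _ => hD0 j) ?_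
    exact Finset.prod_ne_zero_iff.mpr fun i _ => Finset.prod_ne_zero_iff.mpr fun j _ => hD1 i j
  -- the property "`D • v` lies in the span of `β`"
  set P : F → Prop := fun v => ∃ e : Fin n → L[X], aeval x D * v = ∑ i, aeval x (e i) * β i
    with hP
  have hP_zero : P 0 := ⟨fun _ => 0, by simp⟩
  have hP_add : ∀ v w, P v → P w → P (v + w) := by
    rintro v w ⟨e, he⟩ ⟨e', he'⟩
    refine ⟨fun i => e i + e' i, ?_⟩
    rw [mul_add, he, he', ← Finset.sum_add_distrib]
    exact Finset.sum_congr rfl fun i _ => by rw [map_add, add_mul]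
  have hP_mul : ∀ (c : L[X]) v, P v → P (aeval x c * v) := by
    rintro c v ⟨e, he⟩
    refine ⟨fun i => c * e i, ?_⟩
    rw [mul_left_comm, he, Finset.mul_sum]
    exact Finset.sum_congr rfl fun i _ => by rw [map_mul, mul_assoc]
  have hP_sum : ∀ (s : Finset ℕ) (g : ℕ → F), (∀ j ∈ s, P (g j)) → P (∑ j ∈ s, g j) := by
    intro s g hg
    induction s using Finset.induction_on with
    | empty => simpa using hP_zero
    | insert a s ha ih =>
      rw [Finset.sum_insert ha]
      exact hP_add _ _ (hg a (Finset.mem_insert_self a s))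
        (ih fun j hj => hg j (Finset.mem_insert_of_mem hj))
  have hP_sum' : ∀ (g : Fin n → F), (∀ i, P (g i)) → P (∑ i, g i) := by
    intro g hg
    have key : ∀ s : Finset (Fin n), P (∑ i ∈ s, g i) := by
      intro s
      induction s using Finset.induction_on with
      | empty => simpa using hP_zero
      | insert a s ha ih =>
        rw [Finset.sum_insert ha]
        exact hP_add _ _ (hg a) ih
    exact key Finset.univ
  have hP0 : ∀ j ∈ Finset.range d, P (y ^ j) := by
    intro j hj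
    have hdvd : D0 j ∣ D :=
      Dvd.dvd.mul_right (Finset.dvd_prod_of_mem D0 hj) _
    obtain ⟨Q, hQ⟩ := hdvd
    refine ⟨fun l => Q * e0 j l, ?_⟩
    rw [hQ, map_mul, mul_comm (aeval x (D0 j)), mul_assoc, he0 j, Finset.mul_sum]
    exact Finset.sum_congr rfl fun l _ => by rw [map_mul, mul_assoc]
  have hP1 : ∀ (i : Fin n), ∀ j ∈ Finset.range d, P (y ^ j * β i) := by
    intro i j hj
    have hdvd : D1 i j ∣ D := by
      refine Dvd.dvd.mul_left ?_ _
      exact (Finset.dvd_prod_of_mem (D1 i) hj).trans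
        (Finset.dvd_prod_of_mem (fun i => ∏ j ∈ Finset.range d, D1 i j) (Finset.mem_univ i))
    obtain ⟨Q, hQ⟩ := hdvd
    refine ⟨fun l => Q * e1 i j l, ?_⟩
    rw [hQ, map_mul, mul_comm (aeval x (D1 i j)), mul_assoc, he1 i j, Finset.mul_sum]
    exact Finset.sum_congr rfl fun l _ => by rw [map_mul, mul_assoc]
  -- the module `M = L[x][y] + ∑ L[x][y] β_i`
  let M : AddSubgroup F :=
    { carrier := {v | ∃ (q₀ : (L[X])[X]) (q : Fin n → (L[X])[X]),
        v = eval₂ f y q₀ + ∑ i, eval₂ f y (q i) * β i}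
      zero_mem' := ⟨0, fun _ => 0, by simp⟩
      add_mem' := by
        rintro v w ⟨q₀, q, rfl⟩ ⟨r₀, r, rfl⟩
        refine ⟨q₀ + r₀, fun i => q i + r i, ?_⟩
        rw [eval₂_add]
        have : ∑ i, eval₂ f y (q i + r i) * β i =
            ∑ i, eval₂ f y (q i) * β i + ∑ i, eval₂ f y (r i) * β i := by
          rw [← Finset.sum_add_distrib]
          exact Finset.sum_congr rfl fun i _ => by rw [eval₂_add, add_mul]
        rw [this]
        ring
      neg_mem' := by
        rintro v ⟨q₀, q, rfl⟩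
        refine ⟨-q₀, fun i => -q i, ?_⟩
        rw [eval₂_neg, neg_add, ← Finset.sum_neg_distrib]
        congr 1
        exact Finset.sum_congr rfl fun i _ => by rw [eval₂_neg, neg_mul] }
  have hmemM : ∀ v : F, v ∈ M ↔ ∃ (q₀ : (L[X])[X]) (q : Fin n → (L[X])[X]),
      v = eval₂ f y q₀ + ∑ i, eval₂ f y (q i) * β i := fun v => Iff.rfl
  have hM : ∀ (e : L[X]) (v : F), v ∈ M → aeval x e * v ∈ M := by
    rintro e v ⟨q₀, q, rfl⟩
    refine ⟨C e * q₀, fun i => C e * q i, ?_⟩
    rw [eval₂_mul, eval₂_C, hfa, mul_add, Finset.mul_sum]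
    congr 1
    exact Finset.sum_congr rfl fun i _ => by rw [eval₂_mul, eval₂_C, hfa, mul_assoc]
  have hMy : ∀ v : F, v ∈ M → y * v ∈ M := by
    rintro v ⟨q₀, q, rfl⟩
    refine ⟨X * q₀, fun i => X * q i, ?_⟩
    rw [eval₂_mul, eval₂_X, mul_add, Finset.mul_sum]
    congr 1
    exact Finset.sum_congr rfl fun i _ => by rw [eval₂_mul, eval₂_X, mul_assoc]
  have hβM : ∀ i, β i ∈ M := by
    intro i
    refine ⟨0, fun l => if l = i then 1 else 0, ?_⟩
    rw [eval₂_zero, zero_add, Finset.sum_eq_single i]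
    · beta_reduce
      rw [if_pos rfl, eval₂_one, one_mul]
    · intro l _ hl
      beta_reduce
      rw [if_neg hl, eval₂_zero, zero_mul]
    · intro h
      exact absurd (Finset.mem_univ i) h
  have h1M : (1 : F) ∈ M := ⟨1, fun _ => 0, by simp⟩
  have hDM : ∀ v ∈ M, ∃ e : Fin n → L[X], aeval x D * v = ∑ i, aeval x (e i) * β i := by
    rintro v ⟨q₀, q, rfl⟩
    refine hP_add _ _ ?_ ?_
    · rw [hred q₀]
      exact hP_sum _ _ fun j hj => hP_mul _ _ (hP0 j hj)
    · refine hP_sum' _ fun i => ?_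
      rw [hred (q i), Finset.sum_mul]
      refine hP_sum _ _ fun j hj => ?_
      rw [mul_assoc]
      exact hP_mul _ _ (hP1 i j hj)
  -- the lattice lemma
  obtain ⟨β', hβ'M, hβ'O, -, -, hβ'int⟩ :=
    Fermat.Agent.Lib.Red.Lattice.exists_orthonormal_basis_field A x hx O.toAddSubgroup
      (fun a ha v hv => O.mul_mem (hOA a ha) hv) (fun v hv => O.mul_mem hOx hv) hu1 hu2 M hM β
      hβM hβO hβ D hD hDM
  -- integrality of `y` over `A[x]`
  set φ : Polynomial A →+* F := f.comp (Polynomial.mapRingHom A.subtype) with hφ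
  let _ : Algebra (Polynomial A) F := φ.toAlgebra
  have hsm : ∀ (r : Polynomial A) (v : F), r • v = φ r * v := fun r v => rfl
  let N : Submodule (Polynomial A) F := Submodule.span (Polynomial A) (Set.range β')
  have hmemN : ∀ v : F, v ∈ M → v ∈ O → v ∈ N := by
    intro v hvM hvO
    obtain ⟨e, heA, rfl⟩ := hβ'int v hvM hvO
    refine Submodule.sum_mem _ fun i _ => ?_
    obtain ⟨e₀, he₀⟩ := Fermat.Agent.Lib.Red.exists_map_subtype_eq (e i) (heA i)
    have : aeval x (e i) * β' i = e₀ • β' i := by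
      rw [hsm, hφ, RingHom.comp_apply, Polynomial.coe_mapRingHom, he₀, hfa]
    rw [this]
    exact Submodule.smul_mem _ _ (Submodule.subset_span ⟨i, rfl⟩)
  have hN : N ≠ ⊥ := by
    intro h0
    have h1 : (1 : F) ∈ N := hmemN 1 h1M O.one_mem
    rw [h0, Submodule.mem_bot] at h1
    exact one_ne_zero h1
  have hstab : ∀ v ∈ N, y • v ∈ N := by
    intro v hv
    induction hv using Submodule.span_induction with
    | mem w hw =>
      obtain ⟨i, rfl⟩ := hw
      exact hmemN _ (hMy _ (hβ'M i)) (O.mul_mem hyO (hβ'O i))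
    | zero => rw [smul_zero]; exact N.zero_mem
    | add a b _ _ ha hb => rw [smul_add]; exact N.add_mem ha hb
    | smul r a _ ha =>
      rw [smul_comm]
      exact N.smul_mem r ha
  have hint : IsIntegral (Polynomial A) y :=
    isIntegral_of_smul_mem_submodule N hN (Submodule.fg_span (Set.finite_range β')) y hstab
  exact hint

end Fermat.Agent.BAD.TwoVal
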